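import Fermat.Agent.RT.GammaH.NormBound

/-!
# The eigenvalue at a good prime is not `± (q + 1)`

`a_q ^ 2 ≠ (q + 1) ^ 2` for a normalised eigenform of level prime to `q`.
-/

set_option autoImplicit false

noncomputable section

namespace Fermat.Agent.RT.Lift

open CongruenceSubgroup IsLocalRing ModularFormClass

theorem qCoeff_sq_ne {N q : ℕ} [NeZero N] (hq : q.Prime) (hqN : ¬ q ∣ N)
    {g : CuspForm (Gamma0 N) 2} (hg : g.IsNormalizedEigenform) :
    qCoeff g q ^ 2 ≠ ((q : ℂ) + 1) ^ 2 := fun h => by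
  rcases eq_or_eq_neg_of_sq_eq_sq _ _ h with h | h
  · exact GammaH.qCoeff_ne_mul_succ hq hqN hg (Or.inl rfl) (by rw [one_mul]; exact h)
  · exact GammaH.qCoeff_ne_mul_succ hq hqN hg (Or.inr rfl) (by rw [neg_one_mul]; exact h)

end Fermat.Agent.RT.Lift
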