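import Fermat.Agent.ConductorLevel.Inputs
import Fermat.Prelude.Def_FLTPrelim_ModularRep
import Fermat.Prelude.Def_GaloisRep_Residual
import Fermat.Prelude.Def_WeierstrassCurve_ConductorLevel
import Fermat.Prelude.Def_WeierstrassCurve_PeuRamifiee

/-!
# The inputs of the lifting statement at `3` and `5`

Propositions to be passed as hypotheses to the assembly: lowering at `q ≠ p` (the shape of
milestone 38) and at a squared prime, and the raising statement of the patching argument.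
-/

set_option autoImplicit false

noncomputable section

open WeierstrassCurve WeierstrassCurve.Affine WeierstrassCurve.Affine.Point
open scoped WeierstrassCurve.Affine
open CongruenceSubgroup ModularFormClass

namespace Fermat.Agent.RT.Lift

/-- `g` is congruent to `W` at all good primes not dividing its level or `p`. -/
def CongruentTo {M : ℕ} (g : CuspForm (Gamma0 M) 2) (W : WeierstrassCurve ℤ) (p : ℕ)
    (𝔪 : Ideal (integralClosure ℤ ℂ)) : Prop :=
  ∀ ℓ : ℕ, ℓ.Prime → W.IsGoodPrimeFor ℓ → ¬ ℓ ∣ M → ℓ ≠ p →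
    ∃ a : integralClosure ℤ ℂ, (a : ℂ) = qCoeff g ℓ ∧
      a - ((W.apOfModel ℓ : ℤ) : integralClosure ℤ ℂ) ∈ 𝔪

/-- The proposition of milestone statement 38. -/
def LowerQInput : Prop := ∀
  (p : ℕ) [Fact p.Prime] (_hp2 : p ≠ 2) (W : WeierstrassCurve ℤ) (_hΔ : W.Δ ≠ 0)
  (_hW : W.IsSemistableModel)
  (hcard₁ : Nat.card (Submodule.torsionBy ℤ
    ((W.map (Int.castRingHom ℚ))⁄(AlgebraicClosure ℚ)).Point p) = p ^ 2)
  (hker : GaloisFactorsThroughFiniteLevel
    (WeierstrassCurve.Affine.Point.galoisRepModuleEnd (K := AlgebraicClosure ℚ) ℚ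
      (W.map (Int.castRingHom ℚ)) p))
  (_hirr : W.ModRepIsIrreducible p) (M q : ℕ) (_hq : q.Prime) (_hqp : q ≠ p)
  (_hqM : q ∣ M) (_hq2 : ¬ q ^ 2 ∣ M) (_hM : Squarefree M)
  (_hpW : p ∣ M → (p : ℤ) ∣ W.Δ)
  (_hunr : ((W.map (Int.castRingHom ℚ)).residualGaloisRepOf p hcard₁ hker).IsUnramifiedAt q)
  (_hres : W.IsResiduallyModularOfLevel p M),
  W.IsResiduallyModularOfLevel p (M / q)

/-- A prime `q ≠ p` with `q ^ 2 = 1` modulo `p` occurring exactly twice in the level of a congruent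
newform can be lowered to exponent one. It is not a milestone statement. -/
def LowerSqInput : Prop := ∀
  (p : ℕ) [Fact p.Prime] (_hp2 : p ≠ 2) (W : WeierstrassCurve ℤ) (_hΔ : W.Δ ≠ 0)
  (_hW : W.IsSemistableModel) (_hirr : W.ModRepIsIrreducible p)
  (M : ℕ) [NeZero M] (g : CuspForm (Gamma0 M) 2) (_hg : g.IsNewform)
  (𝔪 : Ideal (integralClosure ℤ ℂ)) (_hm : 𝔪.IsMaximal) (_hpm : (p : integralClosure ℤ ℂ) ∈ 𝔪)
  (_hcong : CongruentTo g W p 𝔪) (_hp2M : ¬ p ^ 2 ∣ M)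
  (q : ℕ) (_hq : q.Prime) (_hqp : q ≠ p) (_hfac : M.factorization q = 2)
  (_hqmod : (p : ℤ) ∣ (q : ℤ) ^ 2 - 1),
  W.IsResiduallyModularOfLevel p (M / q)

/-- The auxiliary level: `1` for `p ≠ 3`, otherwise a good prime `r = 2` modulo `3` at which the
residual representation is not level raisable. -/
def IsAuxLevel (W : WeierstrassCurve ℤ) (p r : ℕ) : Prop :=
  (p ≠ 3 ∧ r = 1) ∨ (r.Prime ∧ r % 3 = 2 ∧ r ≠ p ∧ W.IsGoodPrimeFor r ∧
    ¬ (p : ℤ) ∣ W.apOfModel r ^ 2 - ((r : ℤ) + 1) ^ 2)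

/-- The conclusion of the patching argument: `W` has the eigenvalues of an eigenform of a level
which is cube free, divisible by the bad primes and not by `p ^ 2`. -/
def IsModularAwayFromFinite (W : WeierstrassCurve ℤ) (p : ℕ) : Prop :=
  ∃ N : ℕ, 0 < N ∧ (∀ q : ℕ, q.Prime → ¬ q ^ 3 ∣ N) ∧ ¬ p ^ 2 ∣ N ∧
    (∀ ℓ : ℕ, ℓ.Prime → (ℓ : ℤ) ∣ W.Δ → ℓ ∣ N) ∧
    ∃ f : CuspForm (Gamma0 N) 2, f.IsNormalizedEigenform ∧ ∃ T : Finset ℕ,
      ∀ ℓ : ℕ, ℓ.Prime → ℓ ∉ T → qCoeff f ℓ = (W.apOfModel ℓ : ℂ)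

/-- The raising statement: from a congruent newform whose level divides the conductor level,
contains only primes `q ≠ p` at which the residual representation is ramified, and contains `p`
only if no level prime to `p` will do, to modularity. -/
def RaiseInput : Prop := ∀
  (p : ℕ) [Fact p.Prime] (_hp : p = 3 ∨ p = 5) (W : WeierstrassCurve ℤ) (_hΔ : W.Δ ≠ 0)
  (_hW : W.IsSemistableModel) (_hirr : W.ModRepIsIrreducible p)
  (hcard : Nat.card (Submodule.torsionBy ℤ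
    ((W.map (Int.castRingHom ℚ))⁄(AlgebraicClosure ℚ)).Point p) = p ^ 2)
  (hker : GaloisFactorsThroughFiniteLevel
    (WeierstrassCurve.Affine.Point.galoisRepModuleEnd (K := AlgebraicClosure ℚ) ℚ
      (W.map (Int.castRingHom ℚ)) p))
  (M : ℕ) [NeZero M] (g : CuspForm (Gamma0 M) 2) (_hg : g.IsNewform)
  (𝔪 : Ideal (integralClosure ℤ ℂ)) (_hm : 𝔪.IsMaximal) (_hpm : (p : integralClosure ℤ ℂ) ∈ 𝔪)
  (_hcong : CongruentTo g W p 𝔪) (_hML : M ∣ W.conductorLevel)
  (_hminq : ∀ q : ℕ, q.Prime → q ∣ M → q ≠ p →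
    ¬ ((W.map (Int.castRingHom ℚ)).residualGaloisRepOf p hcard hker).IsUnramifiedAt q)
  (_hminp : p ∣ M → ¬ W.IsResiduallyModularOfLevel p (W.conductorLevel / p))
  (r : ℕ) (_hr : IsAuxLevel W p r) (_hrM : r.Coprime W.conductorLevel),
  IsModularAwayFromFinite W p

end Fermat.Agent.RT.Lift
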