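import Fermat.Agent.RT.Lift.Inputs
import Fermat.Agent.RT.Glue.Transfer
import Fermat.Agent.ConductorLevel.Raise
import Fermat.Agent.ConductorLevel.Residual
import Fermat.Agent.EC.Rep.Residual
import Fermat.Agent.GaloisReps.Attach

/-!
# Comparing residual representations with the torsion of a curve, and congruent newforms
-/

set_option autoImplicit false

noncomputable section

open WeierstrassCurve Polynomial CongruenceSubgroup ModularFormClass Module
open scoped WeierstrassCurve.Affine TensorProduct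
open Fermat.Agent.GaloisReps (AbsGal powerTrace trace_pow_of_charpoly)

namespace Fermat.Agent.RT.Lift

variable {k : Type} [Field k]

/-- The Frobenius characteristic polynomials outside `S` are those of `W`. -/
def HasCurveCharpolys (r : ResidualGaloisRep k) (W : WeierstrassCurve ℤ) (S : Finset ℕ) : Prop :=
  ∀ ℓ : ℕ, ℓ.Prime → ℓ ∉ S → ∀ A : ValuationSubring (AlgebraicClosure ℚ), A.LiesOverPrime ℓ →
    ∀ σ : AbsGal, A.IsFrobeniusAt σ ℓ →
      LinearMap.charpoly (r.ρ σ) = X ^ 2 - C ((W.apOfModel ℓ : ℤ) : k) * X + C (ℓ : k)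

/-- Frobenius elements outside a finite set determine traces and determinants. -/
theorem trace_det_eq_of_frobenius {W : WeierstrassCurve ℤ} {S : Finset ℕ}
    {r₁ r₂ : ResidualGaloisRep k} (h₁ : HasCurveCharpolys r₁ W S)
    (h₂ : HasCurveCharpolys r₂ W S) (σ : AbsGal) :
    LinearMap.trace k r₁.V (r₁.ρ σ) = LinearMap.trace k r₂.V (r₂.ρ σ) ∧
      LinearMap.det (r₁.ρ σ) = LinearMap.det (r₂.ρ σ) := by
  obtain ⟨L₁, hL₁, e₁⟩ := r₁.factorsThroughFiniteLevel
  obtain ⟨L₂, hL₂, e₂⟩ := r₂.factorsThroughFiniteLevel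
  obtain ⟨ℓ, hℓ, hℓS, A, hA, s, hs, ⟨i, hi⟩, -⟩ :=
    Arith.Density.exists_frobenius_pow (r₁.ρ.prod r₂.ρ) (L₁ ⊔ L₂) (fun τ hτ => Prod.ext
      (e₁ τ fun x hx => hτ x ((le_sup_left : L₁ ≤ L₁ ⊔ L₂) hx))
      (e₂ τ fun x hx => hτ x ((le_sup_right : L₂ ≤ L₁ ⊔ L₂) hx))) σ S
  have c₁ := h₁ ℓ hℓ hℓS A hA s hs
  have c₂ := h₂ ℓ hℓ hℓS A hA s hs
  have i₁ : r₁.ρ σ = r₁.ρ s ^ i := congrArg Prod.fst hi
  have i₂ : r₂.ρ σ = r₂.ρ s ^ i := congrArg Prod.snd hi
  refine ⟨?_, ?_⟩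
  · rw [i₁, i₂, trace_pow_of_charpoly r₁.finrank_eq _ _ ℓ c₁ i,
      trace_pow_of_charpoly r₂.finrank_eq _ _ ℓ c₂ i]
  · rw [i₁, i₂, map_pow, map_pow, (ConductorLevel.trace_det_of_charpoly r₁.finrank_eq c₁).2,
      (ConductorLevel.trace_det_of_charpoly r₂.finrank_eq c₂).2]

/-- The representation on the torsion of `W`, over an extension field, has these polynomials. -/
theorem hasCurveCharpolys_residualRep {W : WeierstrassCurve ℤ} {p : ℕ} [Fact p.Prime]
    (hΔ : W.Δ ≠ 0) [Algebra (ZMod p) k] {S : Finset ℕ} (hpS : p ∈ S)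
    (hS : ∀ ℓ : ℕ, ℓ.Prime → ℓ ∉ S → W.IsGoodPrimeFor ℓ) :
    HasCurveCharpolys ((EC.Rep.residualRep W p hΔ).baseChange k) W S := by
  intro ℓ hℓ hℓS A hA σ hσ
  show LinearMap.charpoly (((EC.Rep.residualRep W p hΔ).ρ σ).baseChange k) = _
  rw [LinearMap.charpoly_baseChange, EC.Rep.charpoly_residualRep_frobenius hΔ hℓ (hS ℓ hℓ hℓS)
    (fun h => hℓS (h ▸ hpS)) hA hσ]
  simp

/-- A representation with the traces of an absolutely irreducible one is absolutely irreducible. -/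
theorem isAbsolutelyIrreducible_of_trace_eq {r₁ r₂ : ResidualGaloisRep k}
    (habs : r₂.IsAbsolutelyIrreducible)
    (h : ∀ σ, LinearMap.trace k r₁.V (r₁.ρ σ) = LinearMap.trace k r₂.V (r₂.ρ σ)) :
    r₁.IsAbsolutelyIrreducible := by
  intro U hU
  by_contra hne
  rw [not_or] at hne
  let b := Module.finBasisOfFinrankEq k r₂.V r₂.finrank_eq
  set R : AbsGal →* Matrix (Fin 2) (Fin 2) k :=
    (LinearMap.toMatrixAlgEquiv b).toMonoidHom.comp r₂.ρ with hR
  have hmem : ∀ X, X ∈ Submodule.span k (Set.range R) := fun X => by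
    rw [show Set.range R = Set.range fun σ => LinearMap.toMatrixAlgEquiv b (r₂.ρ σ) from rfl,
      Deform.span_matrix_eq_top r₂ habs b]
    trivial
  have h1 : ∀ a c d : AbsGal, (R a * R c * R d).trace = (R c * R a * R d).trace := by
    intro a c d
    have e := Glue.trace_commutator_eq_zero (r₁.baseChange (AlgebraicClosure k)).ρ
      (r₁.baseChange (AlgebraicClosure k)).finrank_eq U hU hne.1 hne.2 a c d
    have htr : ∀ σ, LinearMap.trace (AlgebraicClosure k) _
        ((r₁.baseChange (AlgebraicClosure k)).ρ σ) =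
          algebraMap k (AlgebraicClosure k) (R σ).trace := fun σ => by
      show LinearMap.trace _ _ ((r₁.ρ σ).baseChange (AlgebraicClosure k)) = _
      rw [LinearMap.trace_baseChange, h, LinearMap.trace_eq_matrix_trace k b]
      rfl
    rw [htr, htr] at e
    rw [← map_mul, ← map_mul, ← map_mul, ← map_mul]
    exact (algebraMap k (AlgebraicClosure k)).injective e
  have h2 : ∀ X Y Z, (X * Y * Z : Matrix (Fin 2) (Fin 2) k).trace = (Y * X * Z).trace := by
    intro X Y Z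
    induction hmem X using Submodule.span_induction with
    | mem X hX =>
      obtain ⟨a, rfl⟩ := hX
      induction hmem Y using Submodule.span_induction with
      | mem Y hY =>
        obtain ⟨c, rfl⟩ := hY
        induction hmem Z using Submodule.span_induction with
        | mem Z hZ => obtain ⟨d, rfl⟩ := hZ; exact h1 a c d
        | zero => simp
        | add x y _ _ hx hy => simp only [mul_add, Matrix.trace_add, hx, hy]
        | smul s x _ hx => simp only [mul_smul_comm, Matrix.trace_smul, hx]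
      | zero => simp
      | add x y _ _ hx hy => simp only [mul_add, add_mul, Matrix.trace_add, hx, hy]
      | smul s x _ hx => simp only [mul_smul_comm, smul_mul_assoc, Matrix.trace_smul, hx]
    | zero => simp
    | add x y _ _ hx hy => simp only [mul_add, add_mul, Matrix.trace_add, hx, hy]
    | smul s x _ hx => simp only [mul_smul_comm, smul_mul_assoc, Matrix.trace_smul, hx]
  have h01 := h2 (Matrix.single 0 1 1) (Matrix.single 1 0 1) (Matrix.single 0 0 1)
  simp [Matrix.trace_single_eq_same] at h01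

variable {W : WeierstrassCurve ℤ}

/-- Consequences of the Frobenius condition: absolute irreducibility and oddness. -/
theorem absIrreducible_isOdd_of_charpolys {p : ℕ} [Fact p.Prime] [CharP k p] (hp2 : p ≠ 2)
    (hΔ : W.Δ ≠ 0) (hirr : W.ModRepIsIrreducible p) {S : Finset ℕ} (hpS : p ∈ S)
    (hS : ∀ ℓ : ℕ, ℓ.Prime → ℓ ∉ S → W.IsGoodPrimeFor ℓ) {r : ResidualGaloisRep k}
    (hr : HasCurveCharpolys r W S) : r.IsAbsolutelyIrreducible ∧ r.IsOdd := by
  let : Algebra (ZMod p) k := ZMod.algebra k p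
  have hW := hasCurveCharpolys_residualRep (k := k) hΔ hpS hS
  have hdet : ∀ c : AbsGal, c * c = 1 → c ≠ 1 →
      LinearMap.det (((EC.Rep.residualRep W p hΔ).baseChange k).ρ c) = -1 := fun c hc hc1 => by
    show LinearMap.det (((EC.Rep.residualRep W p hΔ).ρ c).baseChange k) = -1
    rw [LinearMap.det_baseChange, EC.Rep.det_residualRep_involution hΔ hp2 hc hc1, map_neg, map_one]
  have h2 : (2 : k) ≠ 0 := by
    rw [← map_ofNat (algebraMap (ZMod p) k) 2]
    exact (map_ne_zero_iff _ (algebraMap (ZMod p) k).injective).mpr (EC.Rep.two_ne_zero_zmod hp2)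
  refine ⟨isAbsolutelyIrreducible_of_trace_eq
    (EC.Rep.isAbsolutelyIrreducible_of_odd h2 complexConjugation_mul_self
      (hdet _ complexConjugation_mul_self EC.Rep.complexConjugation_ne_one)
      (EC.Rep.baseChange_residualRep_isIrreducible hΔ hp2 hirr k))
    fun σ => (trace_det_eq_of_frobenius hr hW σ).1, fun c hc hc1 => ?_⟩
  rw [(trace_det_eq_of_frobenius hr hW c).2]
  exact hdet c hc hc1

/-- A residually modular level carries below it a newform congruent to `W` at every good prime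
not dividing its own level or `p`. -/
theorem exists_newform_congruent
    (hD : ∀ (N p : ℕ) [NeZero N] [Fact p.Prime], Nonempty (GaloisReps.HeckeGaloisModel N p))
    {p : ℕ} [Fact p.Prime] (hΔ : W.Δ ≠ 0) {N : ℕ} (hN : N ≠ 0)
    (hres : W.IsResiduallyModularOfLevel p N) :
    ∃ M : ℕ, M ∣ N ∧ M ≠ 0 ∧ ∃ (g : CuspForm (Gamma0 M) 2) (𝔪 : Ideal (integralClosure ℤ ℂ)),
      g.IsNewform ∧ 𝔪.IsMaximal ∧ (p : integralClosure ℤ ℂ) ∈ 𝔪 ∧ CongruentTo g W p 𝔪 := by
  classical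
  obtain ⟨f, 𝔪, hf, hm, hpm, hcong⟩ := hres
  obtain ⟨M, hMN, g, hg, hgf⟩ := ConductorLevel.exists_newform_below hN hf
  have hM0 : M ≠ 0 := fun h => hN (Nat.eq_zero_of_zero_dvd (h ▸ hMN))
  refine ⟨M, hMN, hM0, g, 𝔪, hg, hm, hpm, fun ℓ hℓ hgood hℓM hℓp => ?_⟩
  have : NeZero M := ⟨hM0⟩
  have hp : p.Prime := Fact.out
  let : Field (integralClosure ℤ ℂ ⧸ 𝔪) := Ideal.Quotient.field 𝔪
  have : CharP (integralClosure ℤ ℂ ⧸ 𝔪) p := by
    refine (CharP.charP_iff_prime_eq_zero hp).mpr ?_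
    rw [← map_natCast (Ideal.Quotient.mk 𝔪), Ideal.Quotient.eq_zero_iff_mem]
    exact hpm
  let : Algebra (ZMod p) (integralClosure ℤ ℂ ⧸ 𝔪) := ZMod.algebra _ p
  obtain ⟨r, hatt, -⟩ := GaloisReps.exists_residual_eigenform hD hg.1 hp (Ideal.Quotient.mk 𝔪)
  set S : Finset ℕ := insert p (N.primeFactors ∪ W.Δ.natAbs.primeFactors) with hSdef
  have hpS : p ∈ S := Finset.mem_insert_self _ _
  have hS : ∀ ℓ : ℕ, ℓ.Prime → ℓ ∉ S → W.IsGoodPrimeFor ℓ := fun ℓ hℓ h hd => h
    (Finset.mem_insert_of_mem (Finset.mem_union_right _ (Nat.mem_primeFactors.mpr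
      ⟨hℓ, Int.natCast_dvd.mp hd, Int.natAbs_ne_zero.mpr hΔ⟩)))
  have hne : ∀ ℓ : ℕ, ℓ.Prime → ℓ ≠ p → (ℓ : integralClosure ℤ ℂ ⧸ 𝔪) ≠ 0 := fun ℓ hℓ hne h =>
    hne ((Nat.prime_dvd_prime_iff_eq hp hℓ).mp ((CharP.cast_eq_zero_iff _ p ℓ).mp h)).symm
  have hr : HasCurveCharpolys r W S := fun ℓ hℓ hℓS A hA σ hσ => by
    have hℓp : ℓ ≠ p := fun h => hℓS (h ▸ hpS)
    have hℓN : ¬ ℓ ∣ N := fun h => hℓS (Finset.mem_insert_of_mem (Finset.mem_union_left _
      (Nat.mem_primeFactors.mpr ⟨hℓ, h, hN⟩)))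
    obtain ⟨a, ha, hc⟩ := hatt ℓ hℓ (fun h => hℓN (h.trans hMN)) (hne ℓ hℓ hℓp) A hA σ hσ
    obtain ⟨b, hb, hbm⟩ := hcong ℓ hℓ (hS ℓ hℓ hℓS) hℓN hℓp
    rw [hc, show a = b from Subtype.ext (by rw [ha, hb, hgf ℓ hℓ hℓN]),
      Ideal.Quotient.eq.mpr hbm, map_intCast]
  obtain ⟨A, hA⟩ := Arith.exists_liesOverPrime hℓ
  obtain ⟨σ, hσ⟩ := Arith.exists_isFrobeniusAt hA hℓ
  obtain ⟨a, ha, hc⟩ := hatt ℓ hℓ hℓM (hne ℓ hℓ hℓp) A hA σ hσ
  refine ⟨a, ha, Ideal.Quotient.eq.mp ?_⟩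
  have h1 := (trace_det_eq_of_frobenius hr (hasCurveCharpolys_residualRep hΔ hpS hS) σ).1
  rw [(ConductorLevel.trace_det_of_charpoly r.finrank_eq hc).1] at h1
  rw [h1, map_intCast]
  show LinearMap.trace _ _ (((EC.Rep.residualRep W p hΔ).ρ σ).baseChange _) = _
  rw [LinearMap.trace_baseChange, (ConductorLevel.trace_det_of_charpoly
    (EC.Rep.residualRep W p hΔ).finrank_eq
    (EC.Rep.charpoly_residualRep_frobenius hΔ hℓ hgood hℓp hA hσ)).1, map_intCast]

end Fermat.Agent.RT.Lift
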