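import Fermat.Agent.RT.Lift.Aux3
import Fermat.Agent.RT.Lift.Residual
import Fermat.Agent.GaloisReps.Characters

/-!
# Lowering at a squared prime with an auxiliary prime at `p = 3`

A lowering statement which at `p = 3` fails for elliptic points of order three gives the input
of the lifting assembly: such an `r` is added to the level, and removed again afterwards because
`a_r ^ 2` is not `(r + 1) ^ 2` modulo `3`.
-/

set_option autoImplicit false

noncomputable section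

open WeierstrassCurve Polynomial CongruenceSubgroup ModularFormClass IsLocalRing
open scoped WeierstrassCurve.Affine

namespace Fermat.Agent.RT.Lift

open Fermat.Agent.GaloisReps (AbsGal)

/-- An eigenform occurs at every multiple of its level. -/
theorem exists_eigen_multiple {L M : ℕ} (hL : L ≠ 0) (hML : M ∣ L)
    {g : CuspForm (Gamma0 M) 2} (hg : g.IsNormalizedEigenform) :
    ∃ h : CuspForm (Gamma0 L) 2, h.IsNormalizedEigenform ∧
      ∀ ℓ : ℕ, ℓ.Prime → ¬ ℓ ∣ L → qCoeff h ℓ = qCoeff g ℓ := by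
  obtain ⟨k, rfl⟩ := hML
  induction k using Nat.strong_induction_on generalizing M with
  | _ k ih =>
    have hk : k ≠ 0 := right_ne_zero_of_mul hL
    have hM : M ≠ 0 := left_ne_zero_of_mul hL
    by_cases hk1 : k = 1
    · subst hk1
      rw [mul_one]
      exact ⟨g, hg, fun _ _ _ => rfl⟩
    obtain ⟨q, hq, k', rfl⟩ := Nat.exists_prime_and_dvd hk1
    have : NeZero M := ⟨hM⟩
    have hlt : k' < q * k' := by
      have := hq.two_le
      have : 0 < k' := Nat.pos_of_ne_zero (right_ne_zero_of_mul hk)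
      nlinarith
    obtain ⟨h, hh, hhg⟩ : ∃ h : CuspForm (Gamma0 (M * q)) 2, h.IsNormalizedEigenform ∧
        ∀ ℓ : ℕ, ℓ.Prime → ¬ ℓ ∣ M * q → qCoeff h ℓ = qCoeff g ℓ := by
      by_cases hqM : q ∣ M
      · have : NeZero (M * q) := ⟨mul_ne_zero hM hq.ne_zero⟩
        have hc : ∀ n, qCoeff (Newforms.levelIncl (dvd_mul_right M q) g) n = qCoeff g n :=
          fun n => Newforms.qCoeff_levelIncl _ g n
        have hdvd : ∀ r : ℕ, r.Prime → (r ∣ M * q ↔ r ∣ M) := fun r hr =>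
          ⟨fun h => (hr.dvd_mul.mp h).elim id
            fun h => (Nat.prime_dvd_prime_iff_eq hr hq).mp h ▸ hqM, fun h => h.mul_right q⟩
        refine ⟨_, ⟨?_, fun m n hmn => ?_, fun r i hr hrN => ?_, fun r i hr hrN => ?_⟩,
          fun ℓ _ _ => hc ℓ⟩
        · rw [hc]; exact hg.qCoeff_one
        · rw [hc, hc, hc]; exact hg.qCoeff_mul_of_coprime m n hmn
        · simp only [hc]; exact hg.qCoeff_prime_pow_of_not_dvd r i hr fun h => hrN ((hdvd r hr).mpr h)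
        · simp only [hc]; exact hg.qCoeff_prime_pow_of_dvd r i hr ((hdvd r hr).mp hrN)
      · obtain ⟨h, hh, hhg⟩ := ConductorLevel.exists_raise_prime hq hqM hg
        exact ⟨h, hh, fun ℓ hℓ hd => hhg ℓ hℓ fun e => hd (e ▸ dvd_mul_left ℓ M)⟩
    have hL' : M * q * k' ≠ 0 := by rwa [mul_assoc]
    obtain ⟨f, hf, hfh⟩ := ih k' hlt (M := M * q) hh hL'
    rw [← mul_assoc]
    exact ⟨f, hf, fun ℓ hℓ hd =>
      (hfh ℓ hℓ hd).trans (hhg ℓ hℓ fun h => hd (h.mul_right k'))⟩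

/-- At a prime exactly dividing the level of a congruent newform a Frobenius element has
`trace ^ 2 = (r + 1) ^ 2` on the `p`-torsion. -/
theorem trace_residualRep_sq_of_congruentTo (h35 : ConductorLevel.NewformRepInput)
    {p : ℕ} [Fact p.Prime] {W : WeierstrassCurve ℤ} (hΔ : W.Δ ≠ 0) {M : ℕ} [NeZero M]
    {g : CuspForm (Gamma0 M) 2} (hg : g.IsNewform) {𝔪 : Ideal (integralClosure ℤ ℂ)}
    (hm : 𝔪.IsMaximal) (hpm : (p : integralClosure ℤ ℂ) ∈ 𝔪) (hcong : CongruentTo g W p 𝔪)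
    {r : ℕ} (hr : r.Prime) (hrp : r ≠ p) (hrM : r ∣ M) (hr2 : ¬ r ^ 2 ∣ M)
    {A : ValuationSubring (AlgebraicClosure ℚ)} (hA : A.LiesOverPrime r) {σ : AbsGal}
    (hσ : A.IsFrobeniusAt σ r) :
    LinearMap.trace (ZMod p) _ ((EC.Rep.residualRep W p hΔ).ρ σ) ^ 2 =
      ((r : ZMod p) + 1) ^ 2 := by
  classical
  have hp : p.Prime := Fact.out
  set S : Finset ℕ := insert p (M.primeFactors ∪ W.Δ.natAbs.primeFactors) with hSdef
  have hpS : p ∈ S := Finset.mem_insert_self _ _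
  have hS : ∀ ℓ : ℕ, ℓ.Prime → ℓ ∉ S → W.IsGoodPrimeFor ℓ := fun ℓ hℓ h hd => h
    (Finset.mem_insert_of_mem (Finset.mem_union_right _ (Nat.mem_primeFactors.mpr
      ⟨hℓ, Int.natCast_dvd.mp hd, Int.natAbs_ne_zero.mpr hΔ⟩)))
  have hMS : ∀ ℓ : ℕ, ℓ.Prime → ℓ ∣ M → ℓ ∈ S := fun ℓ hℓ h =>
    Finset.mem_insert_of_mem (Finset.mem_union_left _ (Nat.mem_primeFactors.mpr
      ⟨hℓ, h, NeZero.ne M⟩))
  -- a coefficient ring compatible with `𝔪`
  let : Field (integralClosure ℤ ℂ ⧸ 𝔪) := Ideal.Quotient.field 𝔪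
  have : CharP (integralClosure ℤ ℂ ⧸ 𝔪) p := by
    refine (CharP.charP_iff_prime_eq_zero hp).mpr ?_
    rw [← map_natCast (Ideal.Quotient.mk 𝔪), Ideal.Quotient.eq_zero_iff_mem]
    exact hpm
  obtain ⟨F, iF, iA, iC, φ₀, j, hj⟩ :=
    GaloisReps.exists_algClosed_factor hp (Ideal.Quotient.mk 𝔪)
  set chig := ConductorLevel.eigenChar hg.1 (↑S : Set ℕ) with hchig
  have : Module.Finite ℤ (CuspForm.heckeAlgebra M 2 (↑S : Set ℕ)) :=
    IntegralStructure.heckeAlgebra_finite M 2 _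
  have hfin : Module.Finite ℤ chig.range := Module.Finite.of_surjective
    chig.rangeRestrict.toAddMonoidHom.toIntLinearMap chig.rangeRestrict_surjective
  have hint : ∀ x : chig.range, IsIntegral ℤ (x : ℂ) := fun x =>
    (Algebra.IsIntegral.isIntegral (R := ℤ) x).map chig.range.subtype.toIntAlgHom
  let incl : chig.range →+* integralClosure ℤ ℂ :=
    chig.range.subtype.codRestrict (integralClosure ℤ ℂ) hint
  obtain ⟨O, iO1, iO2, iO3, iO4, iO5, iO6, hpO, iota, ψ, hψ⟩ :=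
    GaloisReps.exists_lift_char_finite (p := p) (φ₀.comp incl)
  have hchigT : ∀ (ℓ : ℕ) (hℓ : ℓ.Prime) (hℓM : ¬ ℓ ∣ M) (hℓS : ℓ ∉ (↑S : Set ℕ)),
      chig (CuspForm.heckeAlgebra.T hℓ hℓM hℓS) = qCoeff g ℓ :=
    fun ℓ hℓ hℓM hℓS => ConductorLevel.eigenChar_T hg.1 hℓ hℓM hℓS
  obtain ⟨O'', i1, i2, i3, i4, i5, i6, i7, i8, i9, -, ρ, hρ, hρr⟩ :=
    h35 hg p S O hpO chig hchigT iota hpS hMS
  have hpO'' : (p : O'') ∈ maximalIdeal O'' := by
    rw [← map_natCast (algebraMap O O'') p]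
    exact map_nonunit (algebraMap O O'') _ hpO
  have : CharP (ResidueField O'') p := ConductorLevel.charP_residueField hp hpO''
  let : Algebra (ZMod p) (ResidueField O'') := ZMod.algebra _ p
  have hres : HasCurveCharpolys ρ.residual W S := by
    intro ℓ hℓ hℓS A hA σ hσ
    have hℓM : ¬ ℓ ∣ M := fun h => hℓS (hMS ℓ hℓ h)
    have hℓS' : ℓ ∉ (↑S : Set ℕ) := by simpa using hℓS
    show LinearMap.charpoly ((ρ.ρ σ).baseChange (ResidueField O'')) = _
    rw [LinearMap.charpoly_baseChange, hρ ℓ hℓ hℓM hℓS' A hA σ hσ]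
    simp only [Polynomial.map_add, Polynomial.map_sub, Polynomial.map_mul, Polynomial.map_pow,
      Polynomial.map_X, Polynomial.map_C, map_natCast, IsLocalRing.ResidueField.algebraMap_eq]
    rw [← ResidueField.map_residue (algebraMap O O''), Polynomial.map_natCast]
    suffices e : residue O ((iota.comp chig.rangeRestrict)
        (CuspForm.heckeAlgebra.T hℓ hℓM hℓS')) = ((W.apOfModel ℓ : ℤ) : ResidueField O) by
      rw [e, map_intCast]
    obtain ⟨a, ha, ham⟩ := hcong ℓ hℓ (hS ℓ hℓ hℓS) hℓM fun h => hℓS (h ▸ hpS)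
    refine ψ.injective (j.injective ?_)
    rw [RingHom.comp_apply, ← RingHom.comp_apply (residue O), ← RingHom.comp_apply ψ, hψ,
      RingHom.comp_apply, map_intCast, ← RingHom.comp_apply j, hj, map_intCast,
      ← map_intCast (Ideal.Quotient.mk 𝔪)]
    refine (congrArg (Ideal.Quotient.mk 𝔪) (Subtype.ext ?_)).trans (Ideal.Quotient.eq.mpr ham)
    exact (hchigT ℓ hℓ hℓM hℓS').trans ha.symm
  obtain ⟨htr, -⟩ := trace_det_eq_of_frobenius hres
    (hasCurveCharpolys_residualRep (k := ResidueField O'') hΔ hpS hS) σ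
  have hW : LinearMap.trace (ResidueField O'') _
      (((EC.Rep.residualRep W p hΔ).baseChange (ResidueField O'')).ρ σ) =
        algebraMap (ZMod p) (ResidueField O'')
          (LinearMap.trace (ZMod p) _ ((EC.Rep.residualRep W p hΔ).ρ σ)) :=
    LinearMap.trace_baseChange _ _
  have htrρ : LinearMap.trace (ResidueField O'') _ (ρ.residual.ρ σ) =
      residue O'' (LinearMap.trace O'' ρ.V (ρ.ρ σ)) := by
    show LinearMap.trace _ _ ((ρ.ρ σ).baseChange (ResidueField O'')) = _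
    rw [LinearMap.trace_baseChange, IsLocalRing.ResidueField.algebraMap_eq]
  obtain ⟨s, hs, hs2⟩ : ∃ s : ℤ, LinearMap.trace O'' ρ.V (ρ.ρ σ) = ((s : ℤ) : O'') ∧
      s ^ 2 = ((r : ℤ) + 1) ^ 2 := by
    rcases hρr r hr hrp hrM hr2 A hA σ hσ with h | h
    · refine ⟨(r : ℤ) + 1, ?_, rfl⟩
      rw [(ConductorLevel.trace_det_of_charpoly ρ.finrank_eq h).1]
      push_cast; rfl
    · have h' : LinearMap.charpoly (ρ.ρ σ) =
          X ^ 2 - C (-((r : O'') + 1)) * X + C ((r : O'')) := by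
        rw [h, map_neg]; ring
      refine ⟨-((r : ℤ) + 1), ?_, by ring⟩
      rw [(ConductorLevel.trace_det_of_charpoly ρ.finrank_eq h').1]
      push_cast; rfl
  rw [htrρ, hs, map_intCast, hW] at htr
  refine (algebraMap (ZMod p) (ResidueField O'')).injective ?_
  have hs3 := congrArg (Int.cast : ℤ → ResidueField O'') hs2
  push_cast at hs3
  simp only [map_pow, map_add, map_natCast, map_one]
  rw [← htr, hs3]

/-- At a prime exactly dividing the level of a congruent newform and good for `W` one has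
`a_r ^ 2 = (r + 1) ^ 2` modulo `p`. -/
theorem dvd_apOfModel_sq_sub (h35 : ConductorLevel.NewformRepInput)
    {p : ℕ} [Fact p.Prime] {W : WeierstrassCurve ℤ} (hΔ : W.Δ ≠ 0) {M : ℕ} [NeZero M]
    {g : CuspForm (Gamma0 M) 2} (hg : g.IsNewform) {𝔪 : Ideal (integralClosure ℤ ℂ)}
    (hm : 𝔪.IsMaximal) (hpm : (p : integralClosure ℤ ℂ) ∈ 𝔪) (hcong : CongruentTo g W p 𝔪)
    {r : ℕ} (hr : r.Prime) (hrp : r ≠ p) (hrgood : W.IsGoodPrimeFor r) (hrM : r ∣ M)
    (hr2 : ¬ r ^ 2 ∣ M) : (p : ℤ) ∣ W.apOfModel r ^ 2 - ((r : ℤ) + 1) ^ 2 := by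
  obtain ⟨A, hA⟩ := Arith.exists_liesOverPrime (q := r) hr
  obtain ⟨σ, hσ⟩ := Arith.exists_isFrobeniusAt hA hr
  have h := trace_residualRep_sq_of_congruentTo h35 hΔ hg hm hpm hcong hr hrp hrM hr2 hA hσ
  rw [(ConductorLevel.trace_det_of_charpoly (EC.Rep.residualRep W p hΔ).finrank_eq
    (EC.Rep.charpoly_residualRep_frobenius hΔ hr hrgood hrp hA hσ)).1] at h
  rw [← ZMod.intCast_zmod_eq_zero_iff_dvd]
  push_cast
  rw [h, sub_self]

/-- `Γ₀(M)` has no element of order `3` or `6` if a prime `2` modulo `3` divides `M`. -/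
theorem trace_sq_ne_one_of_prime_dvd {M r : ℕ} (hr : r.Prime) (hrM : r ∣ M) (hr3 : r % 3 = 2)
    {γ : Matrix.SpecialLinearGroup (Fin 2) ℤ} (hγ : γ ∈ Gamma0 M) :
    (γ 0 0 + γ 1 1) ^ 2 ≠ (1 : ℤ) := by
  have := Fact.mk hr
  intro h
  have hc : ((γ 1 0 : ℤ) : ZMod r) = 0 := by
    rw [← map_intCast (ZMod.castHom hrM (ZMod r)), Gamma0_mem.mp hγ, map_zero]
  have hdet : ((γ 0 0 : ℤ) : ZMod r) * (γ 1 1 : ℤ) = 1 := by
    have e := γ.det_coe
    rw [Matrix.det_fin_two] at e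
    have := congrArg (Int.cast : ℤ → ZMod r) e
    push_cast at this
    rw [hc, mul_zero, sub_zero] at this
    exact this
  obtain ⟨x, hx⟩ : ∃ x : ZMod r, x ^ 2 + x + 1 = 0 := by
    have hd : ((γ 1 1 : ℤ) : ZMod r) = (((γ 0 0 + γ 1 1 : ℤ)) : ZMod r) - (γ 0 0 : ℤ) := by
      push_cast; ring
    rcases sq_eq_one_iff.mp h with e | e <;> rw [e] at hd <;> push_cast at hd <;> rw [hd] at hdet
    · exact ⟨-((γ 0 0 : ℤ) : ZMod r), by linear_combination -hdet⟩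
    · exact ⟨((γ 0 0 : ℤ) : ZMod r), by linear_combination -hdet⟩
  have h3 : x ^ 3 = 1 := by linear_combination (x - 1) * hx
  have hx1 : x ≠ 1 := by
    rintro rfl
    have h0 : ((3 : ℕ) : ZMod r) = 0 := by push_cast; linear_combination hx
    rw [ZMod.natCast_eq_zero_iff] at h0
    have := (Nat.prime_dvd_prime_iff_eq hr Nat.prime_three).mp h0
    omega
  have hx0 : x ≠ 0 := fun h0 => by rw [h0] at h3; simp at h3
  have ho : orderOf x = 3 := orderOf_eq_prime h3 hx1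
  have hdvd := ZMod.orderOf_dvd_card_sub_one hx0
  rw [ho] at hdvd
  omega

/-- The lowering input of the assembly, from lowering at a squared prime which at `p = 3` needs
`Γ₀(M)` to have no element of order `3`. -/
theorem lowerSqInput_of
    (hD : ∀ (N p : ℕ) [NeZero N] [Fact p.Prime], Nonempty (GaloisReps.HeckeGaloisModel N p))
    (h35 : ConductorLevel.NewformRepInput)
    (hlow : ∀ (p q M : ℕ) [Fact p.Prime] [NeZero M], p ≠ 2 → q.Prime → q ≠ p → ¬ q ∣ M →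
      ∀ W : WeierstrassCurve ℤ, W.Δ ≠ 0 → W.IsSemistableModel → W.ModRepIsIrreducible p →
      (p = 3 → ∀ γ ∈ Gamma0 M, (γ 0 0 + γ 1 1) ^ 2 ≠ (1 : ℤ)) →
      W.IsResiduallyModularOfLevel p (q ^ 2 * M) → W.IsResiduallyModularOfLevel p (q * M)) :
    LowerSqInput := by
  intro p _ hp2 W hΔ hW hirr M _ g hg 𝔪 hm hpm hcong _ q hq hqp hfac _
  have hM0 : M ≠ 0 := NeZero.ne M
  set M₀ := M / q ^ 2 with hM₀
  have hMeq : M = q ^ 2 * M₀ := (Nat.mul_div_cancel'
    ((hq.pow_dvd_iff_le_factorization hM0).2 hfac.ge)).symm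
  have hM₀0 : M₀ ≠ 0 := fun h => hM0 (by rw [hMeq, h, mul_zero])
  have hqM₀ : ¬ q ∣ M₀ := fun h => by
    have h3 : q ^ 3 ∣ M := hMeq ▸ pow_succ q 2 ▸ mul_dvd_mul_left _ h
    have := (hq.pow_dvd_iff_le_factorization hM0).1 h3
    omega
  have hdiv : M / q = q * M₀ := by
    rw [hMeq, sq, mul_assoc]
    exact Nat.mul_div_cancel_left _ hq.pos
  have : NeZero M₀ := ⟨hM₀0⟩
  rw [hdiv]
  by_cases hp3 : p = 3
  swap
  · exact hlow p q M₀ hp2 hq hqp hqM₀ W hΔ hW hirr (fun h => absurd h hp3)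
      (hMeq ▸ ⟨g, 𝔪, hg.1, hm, hpm, hcong⟩)
  obtain ⟨r, hr, hrc⟩ := exists_auxLevel (Or.inl hp3) hΔ hW hirr M hM0
  rcases hr with ⟨h, -⟩ | ⟨hr, hr3, hrp, hrgood, hra⟩
  · exact absurd hp3 h
  have hrM : ¬ r ∣ M := (hr.coprime_iff_not_dvd).mp hrc
  have hrq : r ≠ q := fun h => hrM (h ▸ hMeq ▸ (dvd_pow_self q two_ne_zero).mul_right M₀)
  have hrM₀ : ¬ r ∣ M₀ := fun h => hrM (hMeq ▸ h.mul_left _)
  -- add `r`
  obtain ⟨g', hg', hgg'⟩ := exists_eigen_multiple (L := q ^ 2 * (M₀ * r))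
    (mul_ne_zero (pow_ne_zero _ hq.ne_zero) (mul_ne_zero hM₀0 hr.ne_zero))
    (by rw [← mul_assoc, ← hMeq]; exact dvd_mul_right M r) hg.1
  have hres : W.IsResiduallyModularOfLevel p (q ^ 2 * (M₀ * r)) := by
    refine ⟨g', 𝔪, hg', hm, hpm, fun ℓ hℓ hgood hℓN hℓp => ?_⟩
    obtain ⟨a, ha, ham⟩ := hcong ℓ hℓ hgood
      (fun h => hℓN (by rw [← mul_assoc, ← hMeq]; exact h.mul_right r)) hℓp
    exact ⟨a, ha.trans (hgg' ℓ hℓ hℓN).symm, ham⟩
  have : NeZero (M₀ * r) := ⟨mul_ne_zero hM₀0 hr.ne_zero⟩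
  have hlow' := hlow p q (M₀ * r) hp2 hq hqp
    (fun h => (hq.dvd_mul.mp h).elim hqM₀ fun h => hrq
      ((Nat.prime_dvd_prime_iff_eq hq hr).mp h).symm)
    W hΔ hW hirr (fun _ _ hγ => trace_sq_ne_one_of_prime_dvd hr (dvd_mul_left r M₀) hr3 hγ)
    hres
  -- remove `r`
  obtain ⟨M', hM', hM'0, h, 𝔫, hh, hn, hpn, hcongh⟩ := exists_newform_congruent hD hΔ
    (mul_ne_zero hq.ne_zero (mul_ne_zero hM₀0 hr.ne_zero)) hlow'
  have : NeZero M' := ⟨hM'0⟩
  have hrqM₀ : ¬ r ∣ q * M₀ := fun h => (hr.dvd_mul.mp h).elim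
    (fun h => hrq ((Nat.prime_dvd_prime_iff_eq hr hq).mp h)) hrM₀
  have hrM' : ¬ r ∣ M' := fun hd => hra (dvd_apOfModel_sq_sub h35 hΔ hh hn hpn hcongh hr hrp hrgood hd
    fun h2 => hrqM₀ ((Nat.mul_dvd_mul_iff_right hr.pos).mp
      (by rw [← sq, mul_assoc]; exact h2.trans hM')))
  have hM'dvd : M' ∣ q * M₀ :=
    (hr.coprime_iff_not_dvd.mpr hrM').symm.dvd_of_dvd_mul_right (by rw [mul_assoc]; exact hM')
  obtain ⟨h', hh', hhh'⟩ := exists_eigen_multiple (mul_ne_zero hq.ne_zero hM₀0) hM'dvd hh.1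
  refine ⟨h', 𝔫, hh', hn, hpn, fun ℓ hℓ hgood hℓN hℓp => ?_⟩
  obtain ⟨a, ha, ham⟩ := hcongh ℓ hℓ hgood (fun h => hℓN (h.trans hM'dvd)) hℓp
  exact ⟨a, ha.trans (hhh' ℓ hℓ hℓN).symm, ham⟩

end Fermat.Agent.RT.Lift

end
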