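import Fermat.Agent.RT.Lift.Residual
import Fermat.Agent.RT.Assembly.Tame
import Fermat.Agent.EC.Rep.Local.Unipotent

/-!
# A squared prime in the level is `± 1` modulo `p`

If `q ^ 2 ≠ 1` modulo `p`, inertia at `q` of the representation of a congruent newform is tame with
eigenvalues fixed by the `q`-th power map and congruent to one, hence unipotent, so that `q` does
not occur exactly twice in the level.
-/

set_option autoImplicit false

noncomputable section

open WeierstrassCurve Polynomial CongruenceSubgroup ModularFormClass Module IsLocalRing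
open scoped WeierstrassCurve.Affine TensorProduct
open Fermat.Agent.GaloisReps (AbsGal powerTrace trace_pow_of_charpoly)

namespace Fermat.Agent.RT.Lift

theorem exists_powerTrace_eq {R : Type*} [CommRing R] (t : R) :
    ∀ n : ℕ, ∃ c : R, powerTrace t 1 n = 2 + (n : R) ^ 2 * (t - 2) + c * (t - 2) ^ 2 := by
  intro n
  induction n using Nat.twoStepInduction with
  | zero => exact ⟨0, by simp [powerTrace]⟩
  | one => exact ⟨0, by simp [powerTrace]⟩
  | more n h0 h1 =>
    obtain ⟨a, ha⟩ := h0
    obtain ⟨b, hb⟩ := h1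
    refine ⟨((n : R) + 1) ^ 2 + b * t - a, ?_⟩
    simp only [powerTrace, ha, hb]
    push_cast
    ring

theorem eq_two_of_powerTrace_eq {R : Type*} [CommRing R] [IsLocalRing R] {t : R} {q : ℕ}
    (ht : t - 2 ∈ maximalIdeal R) (hq : (q : R) ^ 2 - 1 ∉ maximalIdeal R)
    (h : powerTrace t 1 q = t) : t = 2 := by
  obtain ⟨c, hc⟩ := exists_powerTrace_eq t q
  rw [h] at hc
  have h0 : (t - 2) * ((q : R) ^ 2 - 1 + c * (t - 2)) = 0 := by linear_combination -hc
  have hu : IsUnit ((q : R) ^ 2 - 1 + c * (t - 2)) := by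
    by_contra hn
    exact hq ((Ideal.add_mem_iff_left _ ((maximalIdeal R).mul_mem_left c ht)).1
      ((mem_maximalIdeal _).2 hn))
  exact sub_eq_zero.1 (hu.mul_left_eq_zero.1 h0)

variable {O : Type} [CommRing O] [IsDomain O] [IsDiscreteValuationRing O]

/-- An element killing a basis modulo a power of the maximal ideal has `p`-power order there. -/
theorem exists_pow_mem {p : ℕ} (hp : (p : O) ∈ maximalIdeal O) {ι : Type*} [Fintype ι]
    [DecidableEq ι] {X : Matrix ι ι O}
    (hX : ∀ i j, (X - 1) i j ∈ maximalIdeal O) (n : ℕ) :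
    ∀ i j, (X ^ p ^ n - 1) i j ∈ maximalIdeal O ^ (n + 1) := by
  induction n with
  | zero => simpa using hX
  | succ n ih =>
    set Y := X ^ p ^ n - 1
    have hgeom : X ^ p ^ (n + 1) - 1 = (∑ i ∈ Finset.range p, (X ^ p ^ n) ^ i) * Y := by
      rw [geom_sum_mul, ← pow_mul, ← pow_succ]
    have hS : ∀ i j, (∑ k ∈ Finset.range p, (X ^ p ^ n) ^ k) i j ∈ maximalIdeal O := by
      let φ := (Ideal.Quotient.mk (maximalIdeal O)).mapMatrix (m := ι)
      have h1 : φ (X ^ p ^ n) = 1 := sub_eq_zero.1 (by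
        rw [← map_one φ, ← map_sub]
        ext i j
        exact Ideal.Quotient.eq_zero_iff_mem.2 (Ideal.pow_le_self (Nat.succ_ne_zero n) (ih i j)))
      have h2 : φ (∑ k ∈ Finset.range p, (X ^ p ^ n) ^ k) = 0 := by
        rw [map_sum]
        simp only [map_pow φ (X ^ p ^ n), h1, one_pow, Finset.sum_const, Finset.card_range]
        ext i j
        rw [nsmul_eq_mul, show ((p : Matrix ι ι (O ⧸ maximalIdeal O))) = 0 from by
          rw [← Matrix.diagonal_natCast, ← map_natCast (Ideal.Quotient.mk (maximalIdeal O)),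
            Ideal.Quotient.eq_zero_iff_mem.2 hp]
          simp, zero_mul]
      intro i j
      exact Ideal.Quotient.eq_zero_iff_mem.1 (congrFun (congrFun h2 i) j)
    intro i j
    rw [hgeom, Matrix.mul_apply, pow_succ' (maximalIdeal O)]
    exact sum_mem fun k _ => Ideal.mul_mem_mul (hS i k) (ih k j)

/-- With residually unipotent inertia at `q`, `q ^ 2 ≠ 1` modulo `p` forces unipotence. -/
theorem isUnipotentOnInertiaAt_of_residual [CharZero O] {p q : ℕ} [Fact p.Prime]
    (hq : q.Prime) (hqp : q ≠ p) (hpO : (p : O) ∈ maximalIdeal O)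
    (hq2 : ¬ (p : ℤ) ∣ (q : ℤ) ^ 2 - 1) (ρ : GaloisRepAdic O)
    (hdet : ∀ A : ValuationSubring (AlgebraicClosure ℚ), A.LiesOverPrime q →
      ∀ σ ∈ A.inertiaSubgroupIn ℚ, LinearMap.det (ρ.ρ σ) = 1)
    (hres : ∀ A : ValuationSubring (AlgebraicClosure ℚ), A.LiesOverPrime q →
      ∀ σ ∈ A.inertiaSubgroupIn ℚ, LinearMap.charpoly (ρ.residual.ρ σ) = (X - 1) ^ 2) :
    ρ.IsUnipotentOnInertiaAt q := by
  intro A hA σ hσ
  classical
  have hp : p.Prime := Fact.out
  have hκ : CharP (ResidueField O) p := ConductorLevel.charP_residueField hp hpO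
  let b := Module.finBasisOfFinrankEq O ρ.V ρ.finrank_eq
  set R : AbsGal →* Matrix (Fin 2) (Fin 2) O :=
    (LinearMap.toMatrixAlgEquiv b).toMonoidHom.comp ρ.ρ with hR
  have hRtr : ∀ g, (R g).trace = LinearMap.trace O ρ.V (ρ.ρ g) := fun g =>
    (LinearMap.trace_eq_matrix_trace O b _).symm
  -- the image of inertia is pro-`p`
  have hunip : ∀ ν ∈ A.inertiaSubgroupIn ℚ, ∀ i j, (R ν ^ p - 1) i j ∈ maximalIdeal O := by
    intro ν hν
    have hc := hres A hA ν hν
    have h1 : LinearMap.charpoly ((ρ.ρ ν).baseChange (ResidueField O)) = (X - 1) ^ 2 := hc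
    rw [LinearMap.charpoly_baseChange, ← LinearMap.charpoly_toMatrix (ρ.ρ ν) b,
      ← Matrix.charpoly_map] at h1
    set Y : Matrix (Fin 2) (Fin 2) (ResidueField O) := (R ν).map (residue O) with hY
    have h1' : Y.charpoly = (X - 1) ^ 2 := h1
    have h2 : (Y - 1) ^ 2 = 0 := by
      have := Matrix.aeval_self_charpoly Y
      rw [h1'] at this
      simpa using this
    have h3 : Y ^ p = 1 := by
      have hM : CharP (Matrix (Fin 2) (Fin 2) (ResidueField O)) p := inferInstance
      rw [← sub_eq_zero, ← one_pow p, ← sub_pow_char_of_commute (p := p) (h := Commute.one_right Y)]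
      exact pow_eq_zero_of_le hp.two_le h2
    intro i j
    rw [← residue_eq_zero_iff, Matrix.sub_apply, map_sub, sub_eq_zero]
    have h4 := congrFun (congrFun h3 i) j
    rw [hY, ← RingHom.mapMatrix_apply, ← map_pow, RingHom.mapMatrix_apply, Matrix.map_apply] at h4
    rw [h4, Matrix.one_apply, Matrix.one_apply]
    split_ifs <;> simp
  obtain ⟨φ, hφ⟩ := Arith.exists_isFrobeniusAt hA hq
  obtain ⟨hν, htriv⟩ := Assembly.tameTrivial_frobenius_conj hφ hσ
  set ν := φ * σ * φ⁻¹ * (σ ^ q)⁻¹
  -- wild inertia dies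
  have hνone : R ν = 1 := by
    refine Matrix.ext fun i j => sub_eq_zero.1 ?_
    have h0 : (R ν - 1) i j ∈ ⨅ n : ℕ, maximalIdeal O ^ n := by
      refine Submodule.mem_iInf _ |>.2 fun n => ?_
      obtain ⟨L, hL, hLn⟩ := ρ.isAdicContinuous n
      let π := (Ideal.Quotient.mk (maximalIdeal O ^ n)).mapMatrix (m := Fin 2)
      have hfac : ∀ g : AbsGal, (∀ x ∈ L, g x = x) → π.toMonoidHom.comp R g = 1 := by
        intro g hg
        refine sub_eq_zero.1 (Matrix.ext fun a c => ?_)
        show (π (R g) - 1) a c = 0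
        rw [← map_one π, ← map_sub]
        refine Ideal.Quotient.eq_zero_iff_mem.2 ?_
        have h := hLn g hg (b c)
        have h' : b.repr (ρ.ρ g (b c) - b c) a ∈ maximalIdeal O ^ n := by
          refine Submodule.smul_induction_on (p := fun x => b.repr x a ∈ maximalIdeal O ^ n) h
            (fun x hx y _ => ?_) fun x y hx hy => ?_
          · rw [map_smul, Finsupp.smul_apply, smul_eq_mul]; exact Ideal.mul_mem_right _ _ hx
          · rw [map_add, Finsupp.add_apply]; exact add_mem hx hy
        rw [map_sub, Finsupp.sub_apply, b.repr_self, Finsupp.single_apply] at h'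
        rw [Matrix.sub_apply, Matrix.one_apply, hR]
        show LinearMap.toMatrixAlgEquiv b (ρ.ρ g) a c - _ ∈ _
        rw [LinearMap.toMatrixAlgEquiv_apply]
        convert h' using 2
        simp [eq_comm]
      have hpow : π.toMonoidHom.comp R ν ^ (p * p ^ n) = 1 := by
        show π (R ν) ^ (p * p ^ n) = 1
        rw [← map_pow, pow_mul, ← sub_eq_zero, ← map_one π, ← map_sub]
        ext a c
        refine Ideal.Quotient.eq_zero_iff_mem.2 (Ideal.pow_le_pow_right n.le_succ ?_)
        exact exists_pow_mem hpO (hunip ν hν) n a c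
      have hndvd : ¬ q ∣ p * p ^ n := fun h => hqp <| (Nat.prime_dvd_prime_iff_eq hq hp).1
        ((hq.dvd_mul.1 h).elim id hq.dvd_of_dvd_pow)
      have h := congrFun (congrFun (Assembly.eq_one_of_tameTrivial (π.toMonoidHom.comp R)
        ⟨L, hL, hfac⟩ hA hq hν htriv hndvd hpow) i) j
      refine Ideal.Quotient.eq_zero_iff_mem.1 ?_
      rw [Matrix.sub_apply, map_sub, sub_eq_zero]
      refine Eq.trans h ?_
      rw [Matrix.one_apply, Matrix.one_apply]
      split_ifs <;> simp
    rwa [Ideal.iInf_pow_eq_bot_of_isDomain _ (maximalIdeal.isMaximal O).ne_top,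
      Submodule.mem_bot] at h0
  have hconj : R (φ * σ * φ⁻¹) = R (σ ^ q) := by
    have e : φ * σ * φ⁻¹ = ν * σ ^ q := (inv_mul_cancel_right _ _).symm
    rw [e, map_mul, hνone, one_mul]
  set t := LinearMap.trace O ρ.V (ρ.ρ σ)
  have hchar : LinearMap.charpoly (ρ.ρ σ) = X ^ 2 - C t * X + C ((1 : ℕ) : O) := by
    rw [ConductorLevel.charpoly_two ρ.finrank_eq, hdet A hA σ hσ, Nat.cast_one]
  have htr : powerTrace t 1 q = t := by
    have h := trace_pow_of_charpoly ρ.finrank_eq (ρ.ρ σ) t 1 hchar q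
    rw [Nat.cast_one, ← map_pow, ← hRtr, ← hconj, map_mul, Matrix.trace_mul_comm, ← map_mul,
      ← mul_assoc, inv_mul_cancel, one_mul, hRtr] at h
    exact h.symm
  have ht2 : t - 2 ∈ maximalIdeal O := by
    have h1 := hres A hA σ hσ
    change LinearMap.charpoly ((ρ.ρ σ).baseChange (ResidueField O)) = _ at h1
    rw [LinearMap.charpoly_baseChange, hchar] at h1
    have h2 := congrArg (fun P : (ResidueField O)[X] => P.coeff 1) h1
    rw [← residue_eq_zero_iff, map_sub, map_ofNat]
    simp [pow_two, mul_sub, sub_mul] at h2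
    linear_combination -h2
  have hqm : (q : O) ^ 2 - 1 ∉ maximalIdeal O := fun h => hq2 <|
    (CharP.intCast_eq_zero_iff (ResidueField O) p _).1 (by
      have := (residue_eq_zero_iff _).2 h
      push_cast
      simpa using this)
  rw [hchar, eq_two_of_powerTrace_eq ht2 hqm htr, map_ofNat, Nat.cast_one, map_one]
  ring

end Fermat.Agent.RT.Lift
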