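import Fermat.Agent.RT.Lift.Det
import Fermat.Agent.RT.Lift.NoSquare
import Fermat.Agent.GaloisReps.Characters

/-!
# No squared prime `q ≢ ± 1` in the level of a congruent newform
-/

set_option autoImplicit false

noncomputable section

open WeierstrassCurve Polynomial CongruenceSubgroup ModularFormClass IsLocalRing
open scoped WeierstrassCurve.Affine

namespace Fermat.Agent.RT.Lift

open Fermat.Agent.GaloisReps (AbsGal)

theorem not_sq_dvd_of_sq_ne_one (h36 : ConductorLevel.NewformCarayolInput)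
    {p : ℕ} [Fact p.Prime] (hp2 : p ≠ 2) {W : WeierstrassCurve ℤ} (hΔ : W.Δ ≠ 0)
    (hW : W.IsSemistableModel) (hirr : W.ModRepIsIrreducible p) {M : ℕ} [NeZero M]
    {g : CuspForm (Gamma0 M) 2} (hg : g.IsNewform) {𝔪 : Ideal (integralClosure ℤ ℂ)}
    (hm : 𝔪.IsMaximal) (hpm : (p : integralClosure ℤ ℂ) ∈ 𝔪) (hcong : CongruentTo g W p 𝔪)
    {q : ℕ} (hq : q.Prime) (hqp : q ≠ p) (hqmod : ¬ (p : ℤ) ∣ (q : ℤ) ^ 2 - 1) :
    M.factorization q ≠ 2 := by
  classical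
  intro hfac
  have hp : p.Prime := Fact.out
  set S : Finset ℕ := insert p (M.primeFactors ∪ W.Δ.natAbs.primeFactors) with hSdef
  have hpS : p ∈ S := Finset.mem_insert_self _ _
  have hS : ∀ ℓ : ℕ, ℓ.Prime → ℓ ∉ S → W.IsGoodPrimeFor ℓ := fun ℓ hℓ h hd => h
    (Finset.mem_insert_of_mem (Finset.mem_union_right _ (Nat.mem_primeFactors.mpr
      ⟨hℓ, Int.natCast_dvd.mp hd, Int.natAbs_ne_zero.mpr hΔ⟩)))
  have hMS : ∀ ℓ : ℕ, ℓ.Prime → ℓ ∣ M → ℓ ∈ S := fun ℓ hℓ h =>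
    Finset.mem_insert_of_mem (Finset.mem_union_left _ (Nat.mem_primeFactors.mpr
      ⟨hℓ, h, NeZero.ne M⟩))
  -- a coefficient ring compatible with `𝔪`
  let : Field (integralClosure ℤ ℂ ⧸ 𝔪) := Ideal.Quotient.field 𝔪
  have : CharP (integralClosure ℤ ℂ ⧸ 𝔪) p := by
    refine (CharP.charP_iff_prime_eq_zero hp).mpr ?_
    rw [← map_natCast (Ideal.Quotient.mk 𝔪), Ideal.Quotient.eq_zero_iff_mem]
    exact hpm
  obtain ⟨F, iF, iA, iC, φ₀, j, hj⟩ :=
    GaloisReps.exists_algClosed_factor hp (Ideal.Quotient.mk 𝔪)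
  set chig := ConductorLevel.eigenChar hg.1 (↑S : Set ℕ) with hchig
  have : Module.Finite ℤ (CuspForm.heckeAlgebra M 2 (↑S : Set ℕ)) :=
    IntegralStructure.heckeAlgebra_finite M 2 _
  have hfin : Module.Finite ℤ chig.range := Module.Finite.of_surjective
    chig.rangeRestrict.toAddMonoidHom.toIntLinearMap chig.rangeRestrict_surjective
  have hint : ∀ x : chig.range, IsIntegral ℤ (x : ℂ) := fun x =>
    (Algebra.IsIntegral.isIntegral (R := ℤ) x).map chig.range.subtype.toIntAlgHom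
  let incl : chig.range →+* integralClosure ℤ ℂ :=
    chig.range.subtype.codRestrict (integralClosure ℤ ℂ) hint
  obtain ⟨O, iO1, iO2, iO3, iO4, iO5, iO6, hpO, iota, ψ, hψ⟩ :=
    GaloisReps.exists_lift_char_finite (p := p) (φ₀.comp incl)
  have hchigT : ∀ (ℓ : ℕ) (hℓ : ℓ.Prime) (hℓM : ¬ ℓ ∣ M) (hℓS : ℓ ∉ (↑S : Set ℕ)),
      chig (CuspForm.heckeAlgebra.T hℓ hℓM hℓS) = qCoeff g ℓ :=
    fun ℓ hℓ hℓM hℓS => ConductorLevel.eigenChar_T hg.1 hℓ hℓM hℓS
  have hval : ∀ (ℓ : ℕ) (hℓ : ℓ.Prime) (hℓM : ¬ ℓ ∣ M) (hℓS : ℓ ∉ (↑S : Set ℕ)),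
      residue O ((iota.comp chig.rangeRestrict) (CuspForm.heckeAlgebra.T hℓ hℓM hℓS)) =
        ((W.apOfModel ℓ : ℤ) : ResidueField O) := by
    intro ℓ hℓ hℓM hℓS
    obtain ⟨a, ha, ham⟩ := hcong ℓ hℓ (hS ℓ hℓ (by simpa using hℓS)) hℓM
      fun h => hℓS (by simpa [h] using hpS)
    refine ψ.injective ?_
    rw [RingHom.comp_apply, ← RingHom.comp_apply (residue O), ← RingHom.comp_apply ψ, hψ,
      RingHom.comp_apply, map_intCast]
    refine j.injective ?_
    rw [← RingHom.comp_apply j, hj, map_intCast, ← map_intCast (Ideal.Quotient.mk 𝔪)]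
    refine (congrArg (Ideal.Quotient.mk 𝔪) (Subtype.ext ?_)).trans (Ideal.Quotient.eq.mpr ham)
    exact (hchigT ℓ hℓ hℓM hℓS).trans ha.symm
  have hres : ∀ (O'' : Type) [CommRing O''] [IsDomain O''] [IsDiscreteValuationRing O'']
      [Algebra O O''] [IsLocalHom (algebraMap O O'')] (ρ : GaloisRepAdic O''),
      (∀ (ℓ : ℕ) (hℓ : ℓ.Prime) (_ : ℓ ≠ p) (hℓM : ¬ ℓ ∣ M) (hℓS : ℓ ∉ (↑S : Set ℕ)),
        ∀ A : ValuationSubring (AlgebraicClosure ℚ), A.LiesOverPrime ℓ →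
          ∀ σ : AbsGal, A.IsFrobeniusAt σ ℓ → LinearMap.charpoly (ρ.ρ σ) =
            X ^ 2 - C (algebraMap O O'' ((iota.comp chig.rangeRestrict)
              (CuspForm.heckeAlgebra.T hℓ hℓM hℓS))) * X + C ((ℓ : O''))) →
      HasCurveCharpolys ρ.residual W S := by
    intro O'' _ _ _ _ _ ρ hρ ℓ hℓ hℓS A hA σ hσ
    show LinearMap.charpoly ((ρ.ρ σ).baseChange (ResidueField O'')) = _
    rw [LinearMap.charpoly_baseChange, hρ ℓ hℓ (fun h => hℓS (h ▸ hpS))
      (fun h => hℓS (hMS ℓ hℓ h)) (by simpa using hℓS) A hA σ hσ]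
    simp only [Polynomial.map_add, Polynomial.map_sub, Polynomial.map_mul, Polynomial.map_pow,
      Polynomial.map_X, Polynomial.map_C, map_natCast, IsLocalRing.ResidueField.algebraMap_eq]
    rw [← ResidueField.map_residue (algebraMap O O''), hval, map_intCast]
    rw [Polynomial.map_natCast]
  obtain ⟨O'', i1, i2, i3, i4, i5, i6, i7, i8, i9, -, ρ, hρ, hnot⟩ :=
    h36 hg p S O hpO hp2 chig hchigT iota hpS hMS fun O'' _ _ _ _ _ _ _ _ _ _ ρ hρ => by
      have : CharP (ResidueField O'') p := ConductorLevel.charP_residueField hp (by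
        rw [← map_natCast (algebraMap O O'') p]
        exact map_nonunit (algebraMap O O'') _ hpO)
      exact absIrreducible_isOdd_of_charpolys hp2 hΔ hirr hpS hS (hres O'' ρ hρ)
  have hpO'' : (p : O'') ∈ maximalIdeal O'' := by
    rw [← map_natCast (algebraMap O O'') p]
    exact map_nonunit (algebraMap O O'') _ hpO
  have hκ : CharP (ResidueField O'') p := ConductorLevel.charP_residueField hp hpO''
  let : Algebra (ZMod p) (ResidueField O'') := ZMod.algebra _ p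
  have hr := hres O'' ρ fun ℓ hℓ _ hℓM hℓS => hρ ℓ hℓ hℓM hℓS
  have hrW := hasCurveCharpolys_residualRep (k := ResidueField O'') hΔ hpS hS
  refine hnot q hq hqp hfac
    (isUnipotentOnInertiaAt_of_residual hq hqp hpO'' hqmod ρ ?_ fun A hA σ hσ => ?_)
  · intro A hA σ hσ
    refine det_eq_one_of_inertia hpS hq hqp hpO'' ρ ?_ hA hσ
    intro ℓ hℓ hℓS A hA σ hσ
    have hℓM : ¬ ℓ ∣ M := fun h => hℓS (hMS ℓ hℓ h)
    have hℓS' : ℓ ∉ (↑S : Set ℕ) := fun h => hℓS (Finset.mem_coe.1 h)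
    exact ⟨algebraMap O O'' ((iota.comp chig.rangeRestrict)
      (CuspForm.heckeAlgebra.T hℓ hℓM hℓS')), hρ ℓ hℓ hℓM hℓS' A hA σ hσ⟩
  · obtain ⟨h1, h2⟩ := trace_det_eq_of_frobenius hr hrW σ
    rw [ConductorLevel.charpoly_two ρ.residual.finrank_eq, h1, h2,
      ← ConductorLevel.charpoly_two ((EC.Rep.residualRep W p hΔ).baseChange (ResidueField O'')).finrank_eq]
    show LinearMap.charpoly
      (((EC.Rep.residualRep W p hΔ).ρ σ).baseChange (ResidueField O'')) = _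
    rw [LinearMap.charpoly_baseChange]
    have hu : LinearMap.charpoly ((EC.Rep.residualRep W p hΔ).ρ σ) = (X - 1) ^ 2 :=
      EC.Rep.isUnipotentOnInertiaAt_residualRep hΔ hq hqp
        (fun h => hW q hq h.2 h.1) A hA σ hσ
    rw [hu]
    simp

end Fermat.Agent.RT.Lift
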