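import Fermat.Agent.RT.Lift.Aux3
import Fermat.Agent.RT.Lift.NoSquareLevel
import Fermat.Agent.RT.Lift.LowerP.Main
import Fermat.Agent.ConductorLevel.Assembly
import Fermat.Prelude.Def_WeierstrassCurve_Mlc1RowStatement

/-!
# Modularity lifting at `3` and `5`, from lowering and raising
-/

set_option autoImplicit false

noncomputable section

open WeierstrassCurve CongruenceSubgroup ModularFormClass

namespace Fermat.Agent.RT.Lift

variable {W : WeierstrassCurve ℤ} {p : ℕ} [Fact p.Prime]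
  (hD : ∀ (N p : ℕ) [NeZero N] [Fact p.Prime], Nonempty (GaloisReps.HeckeGaloisModel N p))

include hD in
/-- Below a level of residual modularity, cube free away from `p`, lies a squarefree one. -/
theorem exists_squarefree_level (h36 : ConductorLevel.NewformCarayolInput) (hsq : LowerSqInput)
    (hp2 : p ≠ 2) (hΔ : W.Δ ≠ 0) (hW : W.IsSemistableModel) (hirr : W.ModRepIsIrreducible p) :
    ∀ N : ℕ, N ≠ 0 → W.IsResiduallyModularOfLevel p N → ¬ p ^ 2 ∣ N →
      (∀ q : ℕ, q.Prime → q ≠ p → ¬ q ^ 3 ∣ N) →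
      ∃ M : ℕ, M ∣ N ∧ Squarefree M ∧ W.IsResiduallyModularOfLevel p M := by
  intro N
  induction N using Nat.strong_induction_on with
  | _ N ih =>
    intro hN hres hp2N hcube
    obtain ⟨M, hMN, hM0, g, 𝔪, hg, hm, hpm, hcong⟩ := exists_newform_congruent hD hΔ hN hres
    by_cases hsqf : Squarefree M
    · exact ⟨M, hMN, hsqf, g, 𝔪, hg.1, hm, hpm, hcong⟩
    obtain ⟨q, hq, hq2⟩ : ∃ q : ℕ, q.Prime ∧ q ^ 2 ∣ M := by
      rw [Nat.squarefree_iff_prime_squarefree] at hsqf
      push Not at hsqf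
      obtain ⟨q, hq, h⟩ := hsqf
      exact ⟨q, hq, by rwa [sq]⟩
    have : NeZero M := ⟨hM0⟩
    have hqp : q ≠ p := fun h => hp2N (h ▸ hq2.trans hMN)
    have hfac : M.factorization q = 2 := le_antisymm
      (Nat.lt_succ_iff.1 (not_le.1 fun h => hcube q hq hqp
        (((hq.pow_dvd_iff_le_factorization hM0).2 h).trans hMN)))
      ((hq.pow_dvd_iff_le_factorization hM0).1 hq2)
    have hqmod : (p : ℤ) ∣ (q : ℤ) ^ 2 - 1 := by
      by_contra h
      exact not_sq_dvd_of_sq_ne_one h36 hp2 hΔ hW hirr hg hm hpm hcong hq hqp h hfac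
    have hres' := hsq p hp2 W hΔ hW hirr M g hg 𝔪 hm hpm hcong
      (fun h => hp2N (h.trans hMN)) q hq hqp hfac hqmod
    have hqM : q ∣ M := (dvd_pow_self q two_ne_zero).trans hq2
    have hdvd : M / q ∣ N := (Nat.div_dvd_of_dvd hqM).trans hMN
    obtain ⟨M', hM', h1, h2⟩ := ih (M / q) (lt_of_lt_of_le
      (Nat.div_lt_self (Nat.pos_of_ne_zero hM0) hq.one_lt)
      (Nat.le_of_dvd (Nat.pos_of_ne_zero hN) hMN))
      (fun h => hN (Nat.eq_zero_of_zero_dvd (h ▸ hdvd))) hres'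
      (fun h => hp2N (h.trans hdvd)) fun r hr hrp h => hcube r hr hrp (h.trans hdvd)
    exact ⟨M', hM'.trans hdvd, h1, h2⟩

include hD in
/-- From a squarefree level, down to a newform of level dividing the conductor level, with `p` in
it only if in the level one starts from, whose primes other than `p` are residually ramified. At a
good `p` one passes through a level divisible by `4` and back to a squarefree one. -/
theorem exists_minimal_newform (h36 : ConductorLevel.NewformCarayolInput) (hsq : LowerSqInput)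
    (h38 : LowerQInput)
    (hp2 : p ≠ 2) (hΔ : W.Δ ≠ 0) (hW : W.IsSemistableModel) (hirr : W.ModRepIsIrreducible p) :
    ∀ N : ℕ, Squarefree N → W.IsResiduallyModularOfLevel p N →
      ∃ M : ℕ, M ≠ 0 ∧ ∃ (g : CuspForm (Gamma0 M) 2) (𝔪 : Ideal (integralClosure ℤ ℂ)),
        g.IsNewform ∧ 𝔪.IsMaximal ∧ (p : integralClosure ℤ ℂ) ∈ 𝔪 ∧ CongruentTo g W p 𝔪 ∧
        (p ∣ M → p ∣ N) ∧ M ∣ W.conductorLevel ∧ ∀ q : ℕ, q.Prime → q ∣ M → q ≠ p →
          ¬ ((W.map (Int.castRingHom ℚ)).residualGaloisRepOf p (EC.Rep.natCard_torsion W p hΔ)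
            (EC.Rep.factorsThroughFiniteLevel W p hΔ)).IsUnramifiedAt q := by
  classical
  have hp : p.Prime := Fact.out
  intro N
  induction N using Nat.strong_induction_on with
  | _ N ih =>
    intro hN hres
    obtain ⟨M, hMN, hM0, g, 𝔪, hg, hm, hpm, hcong⟩ :=
      exists_newform_congruent hD hΔ hN.ne_zero hres
    have hM : Squarefree M := hN.squarefree_of_dvd hMN
    have hresM : W.IsResiduallyModularOfLevel p M := ⟨g, 𝔪, hg.1, hm, hpm, hcong⟩
    have step : ∀ N' : ℕ, N' < M → Squarefree N' → (p ∣ N' → p ∣ N) →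
        W.IsResiduallyModularOfLevel p N' →
        ∃ M : ℕ, M ≠ 0 ∧ ∃ (g : CuspForm (Gamma0 M) 2) (𝔪 : Ideal (integralClosure ℤ ℂ)),
          g.IsNewform ∧ 𝔪.IsMaximal ∧ (p : integralClosure ℤ ℂ) ∈ 𝔪 ∧ CongruentTo g W p 𝔪 ∧
          (p ∣ M → p ∣ N) ∧ M ∣ W.conductorLevel ∧ ∀ q : ℕ, q.Prime → q ∣ M → q ≠ p →
            ¬ ((W.map (Int.castRingHom ℚ)).residualGaloisRepOf p (EC.Rep.natCard_torsion W p hΔ)
              (EC.Rep.factorsThroughFiniteLevel W p hΔ)).IsUnramifiedAt q := by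
      intro N' hlt hN' hp' h
      obtain ⟨M', h1, g', 𝔪', h2, h3, h4, h5, h6, h7, h8⟩ := ih N' (lt_of_lt_of_le hlt
        (Nat.le_of_dvd (Nat.pos_of_ne_zero hN.ne_zero) hMN)) hN' h
      exact ⟨M', h1, g', 𝔪', h2, h3, h4, h5, fun h => hp' (h6 h), h7, h8⟩
    by_cases hpP : p ∣ M ∧ W.IsGoodPrimeFor p
    · obtain ⟨⟨m, rfl⟩, hgood⟩ := hpP
      have hpm : ¬ p ∣ m := fun h => hp.not_isUnit (hM p (mul_dvd_mul_left p h))
      have hm : Squarefree m := hM.squarefree_of_dvd (dvd_mul_left m p)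
      have hp3 : 3 ≤ p := by have := hp.two_le; omega
      have hL0 : Nat.lcm 4 m ≠ 0 := Nat.lcm_ne_zero (by norm_num) hm.ne_zero
      have : NeZero (Nat.lcm 4 m) := ⟨hL0⟩
      have hpL : ¬ p ∣ Nat.lcm 4 m := fun h => by
        rcases hp.dvd_mul.mp (h.trans (Nat.lcm_dvd_mul 4 m)) with h | h
        · exact hp2 ((Nat.prime_dvd_prime_iff_eq hp Nat.prime_two).mp
            (hp.dvd_of_dvd_pow (show p ∣ 2 ^ 2 from h)))
        · exact hpm h
      obtain ⟨M', hM', hsqf, hres'⟩ := exists_squarefree_level hD h36 hsq hp2 hΔ hW hirr _ hL0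
        (LowerP.isResiduallyModular_lower_good hp2 hgood hirr (Nat.dvd_lcm_left 4 m) hpL
          (Nat.dvd_lcm_right 4 m) hresM)
        (fun h => hpL ((dvd_pow_self p two_ne_zero).trans h)) fun q hq _ h => by
          have h' := (hq.pow_dvd_iff_le_factorization hL0).mp h
          rw [Nat.factorization_lcm (by norm_num) hm.ne_zero, Finsupp.sup_apply] at h'
          have h4 : (4 : ℕ).factorization q ≤ 2 := by
            rw [show (4 : ℕ) = 2 ^ 2 from rfl, Nat.prime_two.factorization_pow,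
              Finsupp.single_apply]
            split <;> omega
          have hmq := hm.natFactorization_le_one q
          omega
      have hM'2 : M' ∣ 2 * m := (hsqf.dvd_pow_iff_dvd two_ne_zero).mp
        (hM'.trans ((Nat.lcm_dvd_mul 4 m).trans ⟨m, by ring⟩))
      refine step M' (lt_of_le_of_lt (Nat.le_of_dvd (by have := hm.ne_zero; omega) hM'2) ?_) hsqf
        (fun h => absurd (h.trans hM') hpL) hres'
      exact Nat.mul_lt_mul_of_pos_right (by omega) (Nat.pos_of_ne_zero hm.ne_zero)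
    by_cases hq : ∃ q : ℕ, q.Prime ∧ q ∣ M ∧ q ≠ p ∧
        ((W.map (Int.castRingHom ℚ)).residualGaloisRepOf p (EC.Rep.natCard_torsion W p hΔ)
          (EC.Rep.factorsThroughFiniteLevel W p hΔ)).IsUnramifiedAt q
    · obtain ⟨q, hq, hqM, hqp, hunr⟩ := hq
      refine step (M / q) (Nat.div_lt_self (Nat.pos_of_ne_zero hM0) hq.one_lt)
        (hM.squarefree_of_dvd (Nat.div_dvd_of_dvd hqM))
        (fun h => h.trans ((Nat.div_dvd_of_dvd hqM).trans hMN)) (h38 p hp2 W hΔ hW (EC.Rep.natCard_torsion W p hΔ)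
        (EC.Rep.factorsThroughFiniteLevel W p hΔ) hirr M q hq hqp hqM
        (fun h => hq.not_isUnit (hM q (by rwa [← sq]))) hM
        (fun h => by_contra fun hd => hpP ⟨h, hd⟩) hunr hresM)
    refine ⟨M, hM0, g, 𝔪, hg, hm, hpm, hcong, fun h => h.trans hMN, ?_,
      fun q h1 h2 h3 h4 => hq ⟨q, h1, h2, h3, h4⟩⟩
    rw [← Nat.prod_primeFactors_of_squarefree hM,
      ← Nat.prod_primeFactors_of_squarefree W.squarefree_conductorLevel]
    refine Finset.prod_dvd_prod_of_subset _ _ _ fun q hqM => ?_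
    obtain ⟨hq', hqdvd, -⟩ := Nat.mem_primeFactors.1 hqM
    refine Nat.mem_primeFactors.2 ⟨hq', (W.prime_dvd_conductorLevel_iff hΔ hq').2 ?_,
      W.conductorLevel_pos.ne'⟩
    by_contra hgood
    by_cases hqp : q = p
    · subst hqp
      exact hpP ⟨hqdvd, hgood⟩
    · exact hq ⟨q, hq', hqdvd, hqp, EC.Rep.isUnramifiedAt_residualRep hΔ hq' hgood hqp⟩

omit [Fact p.Prime] in
/-- Modularity away from a finite set gives modularity of the conductor level. -/
theorem exact_of_isModularAwayFromFinite (h35 : ConductorLevel.NewformRepInput)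
    (h36 : ConductorLevel.NewformCarayolInput) [Fact p.Prime] (hp2 : p ≠ 2) (hΔ : W.Δ ≠ 0)
    (hW : W.IsSemistableModel) (hirr : W.ModRepIsIrreducible p)
    (h : IsModularAwayFromFinite W p) : Mlc1IsModularModelOfExactConductorLevel W := by
  classical
  obtain ⟨N, hN, hcube, hp2N, hbad, f, hf, T, hT⟩ := h
  obtain ⟨M, hMN, g, hg, hgf⟩ := ConductorLevel.exists_newform_below hN.ne' hf
  have : NeZero M := ⟨fun h => hN.ne' (Nat.eq_zero_of_zero_dvd (h ▸ hMN))⟩
  have hmodel : W.IsModularModelOfLevel N := by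
    refine ⟨f, hf, fun ℓ hℓ hgood hℓN => ?_⟩
    rw [← hgf ℓ hℓ hℓN]
    refine ConductorLevel.qCoeff_eq_of_good h35 hΔ hg (S := T ∪ N.primeFactors) ?_ ?_ ?_ hℓ hgood
      fun h => hℓN (h.trans hMN)
    · intro q hq hqM
      exact Finset.mem_union_right _ (Nat.mem_primeFactors.2 ⟨hq, hqM.trans hMN, hN.ne'⟩)
    · intro q hq hqS hd
      exact hqS (Finset.mem_union_right _ (Nat.mem_primeFactors.2 ⟨hq, hbad q hq hd, hN.ne'⟩))
    · intro q hq hqS
      rw [Finset.mem_union, not_or] at hqS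
      rw [hgf q hq fun hd => hqS.2 (Nat.mem_primeFactors.2 ⟨hq, hd, hN.ne'⟩), hT q hq hqS.1]
  exact ⟨W.conductorLevel, W.conductorLevel_pos, W.squarefree_conductorLevel,
    fun q hq => W.prime_dvd_conductorLevel_iff hΔ hq,
    ConductorLevel.isModularModelOfLevel_conductorLevel h35 h36 W hW N p hp2 hirr hp2N hmodel hbad
      hcube⟩

/-- **The statement of milestone 59**, from lowering and raising. -/
theorem exact_of_inputs
    (hD : ∀ (N p : ℕ) [NeZero N] [Fact p.Prime], Nonempty (GaloisReps.HeckeGaloisModel N p))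
    (h35 : ConductorLevel.NewformRepInput) (h36 : ConductorLevel.NewformCarayolInput)
    (hsq : LowerSqInput) (h38 : LowerQInput) (hraise : RaiseInput)
    (p : ℕ) (hp : p = 3 ∨ p = 5) (W : WeierstrassCurve ℤ) (hΔ : W.Δ ≠ 0)
    (hW : W.IsSemistableModel) (hirr : W.ModRepIsIrreducible p) (M₀ : ℕ) [NeZero M₀]
    (hres₀ : W.IsResiduallyModularOfLevel p M₀) (hM₀ : ¬ p ^ 2 ∣ M₀)
    (hM₀3 : ∀ q : ℕ, q.Prime → q ≠ p → ¬ q ^ 3 ∣ M₀) :
    Mlc1IsModularModelOfExactConductorLevel W := by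
  have : Fact p.Prime := ⟨by rcases hp with rfl | rfl <;> norm_num⟩
  have hp2 : p ≠ 2 := by rcases hp with rfl | rfl <;> norm_num
  obtain ⟨N₁, -, hN₁, hresN₁⟩ :=
    exists_squarefree_level hD h36 hsq hp2 hΔ hW hirr M₀ (NeZero.ne M₀) hres₀ hM₀ hM₀3
  obtain ⟨N, hN, hresN, hNp⟩ : ∃ N, Squarefree N ∧ W.IsResiduallyModularOfLevel p N ∧
      (p ∣ N → p ∣ W.conductorLevel →
        ¬ W.IsResiduallyModularOfLevel p (W.conductorLevel / p)) := by
    by_cases h : p ∣ W.conductorLevel ∧ W.IsResiduallyModularOfLevel p (W.conductorLevel / p)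
    · refine ⟨W.conductorLevel / p,
        W.squarefree_conductorLevel.squarefree_of_dvd (Nat.div_dvd_of_dvd h.1), h.2, fun hd => ?_⟩
      exact absurd (Nat.mul_dvd_of_dvd_div h.1 hd) fun h' =>
        (Fact.out : p.Prime).not_isUnit (W.squarefree_conductorLevel p h')
    · exact ⟨N₁, hN₁, hresN₁, fun _ hd hres => h ⟨hd, hres⟩⟩
  obtain ⟨M, hM0, g, 𝔪, hg, hm, hpm, hcong, hMp, hML, hminq⟩ :=
    exists_minimal_newform hD h36 hsq h38 hp2 hΔ hW hirr N hN hresN
  obtain ⟨r, hr, hrL⟩ := exists_auxLevel hp hΔ hW hirr W.conductorLevel W.conductorLevel_pos.ne'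
  have : NeZero M := ⟨hM0⟩
  exact exact_of_isModularAwayFromFinite h35 h36 hp2 hΔ hW hirr
    (hraise p hp W hΔ hW hirr _ _ M g hg 𝔪 hm hpm hcong hML hminq
      (fun h => hNp (hMp h) (h.trans hML)) r hr hrL)

end Fermat.Agent.RT.Lift
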