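import Fermat.Agent.RT.Lift.Inputs
import Fermat.Agent.EC.Rep.TWHypothesis
import Fermat.Agent.Deform.Burnside
import Fermat.Agent.ConductorLevel.Compare

/-!
# The auxiliary level

For `p = 3` a good prime `r = 2` modulo `3` with `a_r` prime to `3`, from the absolute irreducibility
of `E[3]` on the subgroup of index two cut out by the determinant.
-/

set_option autoImplicit false

noncomputable section

open WeierstrassCurve Module
open scoped WeierstrassCurve.Affine Matrix

namespace Fermat.Agent.RT.Lift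

local notation "GQ₀" => AlgebraicClosure ℚ ≃ₐ[ℚ] AlgebraicClosure ℚ

theorem zmod_three_one_ne : (1 : ZMod 3) ≠ -1 := by decide

theorem zmod_three_two : (-1 : ZMod 3) = ((2 : ℕ) : ZMod 3) := by decide

variable {W : WeierstrassCurve ℤ} {p : ℕ} [Fact p.Prime]

/-- Some element has determinant `-1` and nonzero trace on `E[3]`. -/
theorem exists_det_neg_one_trace_ne_zero (hp3 : p = 3) (hΔ : W.Δ ≠ 0) (hW : W.IsSemistableModel)
    (hirr : W.ModRepIsIrreducible p) :
    ∃ g : GQ₀, LinearMap.det ((EC.Rep.residualRep W p hΔ).ρ g) = -1 ∧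
      LinearMap.trace (ZMod p) _ ((EC.Rep.residualRep W p hΔ).ρ g) ≠ 0 := by
  subst hp3
  classical
  set ρ := EC.Rep.residualRep W 3 hΔ
  by_contra hall
  push Not at hall
  let δ : GQ₀ →* ZMod 3 := LinearMap.det.comp ρ.ρ
  let G : Subgroup GQ₀ := δ.toHomUnits.ker
  have hpm : ∀ σ, δ σ = 1 ∨ δ σ = -1 := by
    intro σ
    have hne : δ σ ≠ 0 := (δ.toHomUnits σ).ne_zero
    generalize δ σ = x at hne
    fin_cases x
    · exact absurd rfl hne
    · exact Or.inl rfl
    · exact Or.inr rfl
  have hc := EC.Rep.det_residualRep_involution hΔ (p := 3) (by norm_num)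
    complexConjugation_mul_self EC.Rep.complexConjugation_ne_one
  have hmemG : ∀ σ, σ ∈ G ↔ δ σ = 1 := fun σ => by
    rw [MonoidHom.mem_ker, Units.ext_iff]
    rfl
  have hcG : δ (complexConjugation : GQ₀) = -1 := hc
  have hG : G.index = 2 := by
    rw [Subgroup.index_eq_two_iff]
    refine ⟨complexConjugation, fun σ => ?_⟩
    rw [hmemG, hmemG, map_mul, hcG]
    rcases hpm σ with h | h
    · refine Or.inr ⟨h, ?_⟩
      rw [h, one_mul]
      exact zmod_three_one_ne.symm
    · refine Or.inl ⟨?_, ?_⟩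
      · rw [h, neg_mul_neg, one_mul]
      · rw [h]
        exact zmod_three_one_ne.symm
  let K := AlgebraicClosure (ZMod 3)
  let bK := Module.finBasisOfFinrankEq K (ρ.baseChange K).V (ρ.baseChange K).finrank_eq
  let MK : GQ₀ →* Matrix (Fin 2) (Fin 2) K :=
    (LinearMap.toMatrixAlgEquiv bK).toMonoidHom.comp (ρ.baseChange K).ρ
  have hspan : Submodule.span K (Set.range (MK.comp G.subtype)) = ⊤ := by
    refine Deform.span_eq_top_of_not_hasCommonEigvec _ ?_
    rintro ⟨v, hv, hev⟩
    set w := bK.equivFun.symm v with hw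
    have hw0 : w ≠ 0 := fun h => hv (bK.equivFun.symm.injective (h.trans (map_zero _).symm))
    rcases EC.Rep.residualRep_indexTwo_irreducible (hΔ := hΔ) hW (by norm_num) hirr K G hG (K ∙ w)
      (fun σ hσ x hx => by
        obtain ⟨a, rfl⟩ := Submodule.mem_span_singleton.1 hx
        rw [map_smul]
        refine Submodule.smul_mem _ a (Submodule.mem_span_singleton.2 ?_)
        obtain ⟨c, hc⟩ := hev ⟨σ, hσ⟩
        refine ⟨c, bK.equivFun.injective ?_⟩
        rw [map_smul, hw, LinearEquiv.apply_symm_apply]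
        refine hc.symm.trans ?_
        have h1 := LinearMap.toMatrix_mulVec_repr bK bK ((ρ.baseChange K).ρ σ)
          (bK.equivFun.symm v)
        have h2 : ⇑(bK.repr (bK.equivFun.symm v)) = v := bK.equivFun.apply_symm_apply v
        rw [h2] at h1
        exact h1) with h | h
    · exact hw0 (Submodule.span_singleton_eq_bot.1 h)
    · have := congrArg (fun N : Submodule K (ρ.baseChange K).V => finrank K N) h
      simp only [finrank_span_singleton hw0, finrank_top, (ρ.baseChange K).finrank_eq] at this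
      omega
  have htr : ∀ σ, (MK σ).trace = algebraMap (ZMod 3) K (LinearMap.trace (ZMod 3) ρ.V (ρ.ρ σ)) :=
    fun σ => by
      rw [← LinearMap.trace_baseChange]
      exact (LinearMap.trace_eq_matrix_trace K bK _).symm
  have hzero : ∀ X, (MK complexConjugation * X).trace = 0 := by
    intro X
    have hX : X ∈ Submodule.span K (Set.range (MK.comp G.subtype)) := by rw [hspan]; trivial
    induction hX using Submodule.span_induction with
    | mem X hX =>
      obtain ⟨⟨h, hh⟩, rfl⟩ := hX
      show (MK complexConjugation * MK h).trace = 0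
      rw [← map_mul, htr, hall _ ?_, map_zero]
      show δ (complexConjugation * h) = -1
      rw [map_mul, hcG, (hmemG h).1 hh, mul_one]
    | zero => simp
    | add x y _ _ hx hy => rw [mul_add, Matrix.trace_add, hx, hy, add_zero]
    | smul c x _ hx => rw [mul_smul_comm, Matrix.trace_smul, hx, smul_zero]
  have hunit : MK complexConjugation * MK complexConjugation = 1 := by
    rw [← map_mul, complexConjugation_mul_self, map_one]
  have := hzero (MK complexConjugation * Matrix.single 0 0 1)
  rw [← mul_assoc, hunit, one_mul, Matrix.trace_single_eq_same] at this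
  exact one_ne_zero this

/-- **The auxiliary level exists**, prime to any given number. -/
theorem exists_auxLevel (hp : p = 3 ∨ p = 5) (hΔ : W.Δ ≠ 0) (hW : W.IsSemistableModel)
    (hirr : W.ModRepIsIrreducible p) (N : ℕ) (hN : N ≠ 0) :
    ∃ r : ℕ, IsAuxLevel W p r ∧ r.Coprime N := by
  classical
  rcases hp with rfl | rfl
  swap
  · exact ⟨1, Or.inl ⟨by norm_num, rfl⟩, Nat.coprime_one_left N⟩
  have h12 : (1 : ZMod 3) ≠ -1 := zmod_three_one_ne
  have h22 : (-1 : ZMod 3) = ((2 : ℕ) : ZMod 3) := zmod_three_two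
  set ρ := EC.Rep.residualRep W 3 hΔ
  obtain ⟨g, hgd, hgt⟩ := exists_det_neg_one_trace_ne_zero (p := 3) rfl hΔ hW hirr
  obtain ⟨L, hLfin, hL⟩ := ρ.factorsThroughFiniteLevel
  obtain ⟨r, hr, hrS, A, hA, σ, hσ, ⟨i, hi⟩, -⟩ :=
    Arith.Density.exists_frobenius_pow ρ.ρ L hL g
      (insert 3 (N.primeFactors ∪ W.Δ.natAbs.primeFactors))
  simp only [Finset.mem_insert, Finset.mem_union, not_or] at hrS
  have hgood : W.IsGoodPrimeFor r := fun hd => hrS.2.2
    (Nat.mem_primeFactors.mpr ⟨hr, Int.natCast_dvd.mp hd, Int.natAbs_ne_zero.mpr hΔ⟩)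
  have hrN : ¬ r ∣ N := fun hd => hrS.2.1 (Nat.mem_primeFactors.mpr ⟨hr, hd, hN⟩)
  obtain ⟨htr, hdet⟩ := ConductorLevel.trace_det_of_charpoly ρ.finrank_eq
    (EC.Rep.charpoly_residualRep_frobenius hΔ hr hgood hrS.1 hA hσ)
  rw [hi, map_pow, hdet] at hgd
  have hr1 : (r : ZMod 3) = -1 := by
    have hr0 : (r : ZMod 3) ≠ 0 := fun h => hrS.1
      ((Nat.prime_dvd_prime_iff_eq Nat.prime_three hr).1 ((ZMod.natCast_eq_zero_iff _ _).1 h)).symm
    generalize (r : ZMod 3) = x at hgd hr0
    fin_cases x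
    · exact absurd rfl hr0
    · refine absurd hgd ?_
      change (1 : ZMod 3) ^ i ≠ -1
      rw [one_pow]
      exact h12
    · rfl
  have ha : ((W.apOfModel r : ℤ) : ZMod 3) ≠ 0 := by
    intro ha
    rw [hr1] at hgd
    have hodd : Odd i := by
      rcases Nat.even_or_odd i with h | h
      · rw [h.neg_one_pow] at hgd
        exact absurd hgd h12
      · exact h
    have hsq : ρ.ρ σ * ρ.ρ σ = 1 := by
      have hc := ConductorLevel.sq_eq_of_charpoly
        (EC.Rep.charpoly_residualRep_frobenius hΔ hr hgood hrS.1 hA hσ)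
      rw [ha, zero_smul, zero_sub, hr1, neg_smul, one_smul, neg_neg] at hc
      exact hc
    obtain ⟨k, rfl⟩ := hodd
    apply hgt
    rw [hi, pow_succ, pow_mul, pow_two, hsq, one_pow, one_mul, htr, ha]
  refine ⟨r, Or.inr ⟨hr, ?_, hrS.1, hgood, fun hd => ha ?_⟩, hr.coprime_iff_not_dvd.mpr hrN⟩
  · have h : (r : ZMod 3) = ((2 : ℕ) : ZMod 3) := by rw [hr1]; exact h22
    exact (ZMod.natCast_eq_natCast_iff' r 2 3).1 h
  · have h := (ZMod.intCast_zmod_eq_zero_iff_dvd _ 3).2 hd
    push_cast at h
    rw [hr1, neg_add_cancel, zero_pow two_ne_zero, sub_zero] at h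
    exact eq_zero_of_pow_eq_zero h

end Fermat.Agent.RT.Lift
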