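import Mathlib.RingTheory.KrullDimension.Basic

/-!
# The chain of flips

`A B` is the annihilator of the patched module whose components are special at the places in
`B`. A recognition hypothesis says that a prime of full dimension satisfying the relations of `B`
lies below every point of `B`; a flip at a point where `y` vanishes then moves the support from
`B` to `B ∪ {v}`. At the end comes the flip at `p`.
-/

set_option autoImplicit false

namespace Fermat.Agent.RT.Lift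

/-- A flip from the annihilator `A` to `A'`: a prime over `A` containing `t` lies above a prime
over `A'` containing `t` with quotient of dimension `d`. -/
def CanFlip {Λ : Type*} [CommRing Λ] (d : WithBot ℕ∞) (A A' : Ideal Λ) (t : Λ) : Prop :=
  ∀ P : Ideal Λ, P.IsPrime → A ≤ P → t ∈ P →
    ∃ 𝔮 : Ideal Λ, 𝔮.IsPrime ∧ 𝔮 ≤ P ∧ t ∈ 𝔮 ∧ A' ≤ 𝔮 ∧ ringKrullDim (Λ ⧸ 𝔮) = d

section Step

variable {Λ : Type*} [CommRing Λ] {d : WithBot ℕ∞} {A A' : Ideal Λ}

/-- One flip at a point `P` where `y` vanishes and `y'` does not: a prime of full dimension below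
`P` over `A'` contains `y`, and `z` for every product `z * a` in `A'` with `a ∉ P`. -/
theorem exists_flipped {c T y y' : Λ} (hflip : CanFlip d A A' (T ^ 2 - c ^ 2))
    (hy : y * y' = T ^ 2 - c ^ 2) {P : Ideal Λ} [P.IsPrime] (hA : A ≤ P)
    (hyP : y ∈ P) (hy'P : y' ∉ P) :
    ∃ 𝔮 : Ideal Λ, 𝔮.IsPrime ∧ A' ≤ 𝔮 ∧ ringKrullDim (Λ ⧸ 𝔮) = d ∧ y ∈ 𝔮 ∧
      ∀ z a : Λ, a ∉ P → z * a ∈ A' → z ∈ 𝔮 := by
  obtain ⟨𝔮, h𝔮, hle, hy𝔮, hA', hdim⟩ :=
    hflip P ‹_› hA (by rw [← hy]; exact P.mul_mem_right _ hyP)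
  refine ⟨𝔮, h𝔮, hA', hdim, ?_, fun z a ha hza => ?_⟩
  · exact (h𝔮.mem_or_mem (hy ▸ hy𝔮)).resolve_right fun h => hy'P (hle h)
  · exact (h𝔮.mem_or_mem (hA' hza)).resolve_right fun h => ha (hle h)

end Step

section Chain

variable {Λ S : Type*} [CommRing Λ] [CommRing S] {V : Type*}

/-- What the chain needs to know about the places: the functions `N v` cutting out the unramified
component, the two factors `y v`, `y' v` of `T v ^ 2 - c v ^ 2`, the relations, and for each `B`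
the points of the component special exactly at `B`. -/
structure ChainData (Λ : Type*) [CommRing Λ] (S : Type*) [CommRing S] (V : Type*) where
  nSet : V → Set Λ
  c : V → Λ
  T : V → Λ
  y : V → Λ
  y' : V → Λ
  rel : Set Λ
  points : Finset V → Set (Ideal Λ)
  y_mul : ∀ v, y v * y' v = T v ^ 2 - c v ^ 2
  isPrime : ∀ B, ∀ P ∈ points B, P.IsPrime
  exists_point : ∀ B, ∀ v ∉ B, ∃ P ∈ points B, y v ∈ P ∧ y' v ∉ P ∧
    ∀ w ∈ B, ∃ a ∈ nSet w, y' w * a ∉ P
  recognition : ∀ (B : Finset V) (𝔮 : Ideal Λ), 𝔮.IsPrime →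
    ringKrullDim (Λ ⧸ 𝔮) = ringKrullDim S → rel ⊆ 𝔮 → (∀ v ∉ B, nSet v ⊆ 𝔮) →
    (∀ v ∈ B, y v ∈ 𝔮) → ∀ P ∈ points B, 𝔮 ≤ P

/-- What the chain needs to know about the annihilators. -/
structure ChainSupport (D : ChainData Λ S V) (A : Finset V → Ideal Λ) : Prop where
  base : ∃ 𝔮 : Ideal Λ, 𝔮.IsPrime ∧ A ∅ ≤ 𝔮 ∧ ringKrullDim (Λ ⧸ 𝔮) = ringKrullDim S
  rel_le : ∀ B, D.rel ⊆ A B
  nSet_le : ∀ B, ∀ v ∉ B, D.nSet v ⊆ A B
  y_mul_nSet : ∀ B, ∀ v ∈ B, ∀ a ∈ D.nSet v, D.y v * (D.y' v * a) ∈ A B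
  flip : ∀ (B : Finset V) (v : V) (h : v ∉ B),
    CanFlip (ringKrullDim S) (A B) (A (Finset.cons v B h)) (D.T v ^ 2 - D.c v ^ 2)

/-- **The chain of flips**: every point of every component lies over the annihilator. -/
theorem annihilator_le_of_chain {D : ChainData Λ S V} {A : Finset V → Ideal Λ}
    (h : ChainSupport D A) (B : Finset V) : ∀ P ∈ D.points B, A B ≤ P := by
  induction B using Finset.cons_induction with
  | empty =>
    intro P hP
    obtain ⟨𝔮, h𝔮, hA, hdim⟩ := h.base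
    exact hA.trans (D.recognition ∅ 𝔮 h𝔮 hdim ((h.rel_le ∅).trans hA)
      (fun v hv => (h.nSet_le ∅ v hv).trans hA) (fun v hv => absurd hv (Finset.notMem_empty v))
      P hP)
  | cons v B hv ih =>
    intro P hP
    obtain ⟨P₀, hP₀, hy, hy', hN⟩ := D.exists_point B v hv
    have := D.isPrime B P₀ hP₀
    obtain ⟨𝔮, h𝔮, hA, hdim, hy𝔮, hprod⟩ :=
      exists_flipped (h.flip B v hv) (D.y_mul v) (ih P₀ hP₀) hy hy'
    refine hA.trans (D.recognition _ 𝔮 h𝔮 hdim ((h.rel_le _).trans hA)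
      (fun w hw => (h.nSet_le _ w hw).trans hA) (fun w hw => ?_) P hP)
    rcases Finset.mem_cons.mp hw with rfl | hwB
    · exact hy𝔮
    · obtain ⟨a, ha, haP⟩ := hN w hwB
      exact hprod _ _ haP (h.y_mul_nSet _ w hw a ha)

end Chain

section Last

variable {Λ : Type*} [CommRing Λ] {d : WithBot ℕ∞} {V : Type*} {A A' : Ideal Λ}

/-- The last flip, at `p`, where the old annihilator lies below a point special at every place:
the new prime lies in the locus `w = 0`, below every point recognised there. -/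
theorem annihilator_le_of_last {c T w w' : Λ} (hflip : CanFlip d A A' (T ^ 2 - c ^ 2))
    (hw : w * w' = T ^ 2 - c ^ 2) {rel : Set Λ} (hrel : rel ⊆ A') {nSet : V → Set Λ}
    {y y' : V → Λ} (hyN : ∀ v, ∀ a ∈ nSet v, y v * (y' v * a) ∈ A')
    {P : Ideal Λ} [P.IsPrime] (hA : A ≤ P) (hwP : w ∈ P) (hw'P : w' ∉ P)
    (hgen : ∀ v, ∃ a ∈ nSet v, y' v * a ∉ P) {Pz : Ideal Λ}
    (hrec : ∀ 𝔮 : Ideal Λ, 𝔮.IsPrime → ringKrullDim (Λ ⧸ 𝔮) = d → rel ⊆ 𝔮 →
      (∀ v, y v ∈ 𝔮) → w ∈ 𝔮 → 𝔮 ≤ Pz) :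
    A' ≤ Pz := by
  obtain ⟨𝔮, h𝔮, hA', hdim, hw𝔮, hprod⟩ := exists_flipped hflip hw hA hwP hw'P
  refine hA'.trans (hrec 𝔮 h𝔮 hdim (hrel.trans hA') (fun v => ?_) hw𝔮)
  obtain ⟨a, ha, haP⟩ := hgen v
  exact hprod _ _ haP (hyN v a ha)

end Last

end Fermat.Agent.RT.Lift
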