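import Fermat.Agent.RT.Lift.Residual

/-!
# The determinant on inertia away from `p`
-/

set_option autoImplicit false

noncomputable section

open Polynomial IsLocalRing

namespace Fermat.Agent.RT.Lift

open Fermat.Agent.GaloisReps (AbsGal)

variable {O : Type} [CommRing O] [IsDomain O] [IsDiscreteValuationRing O]

/-- Frobenius determinants `ℓ` outside a finite set make the determinant trivial on inertia at
`q ≠ p`. -/
theorem det_eq_one_of_inertia {p q : ℕ} [Fact p.Prime] {S : Finset ℕ} (hpS : p ∈ S) (hq : q.Prime)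
    (hqp : q ≠ p) (hp : (p : O) ∈ maximalIdeal O) (ρ : GaloisRepAdic O)
    (hρ : ∀ ℓ : ℕ, ℓ.Prime → ℓ ∉ S → ∀ A : ValuationSubring (AlgebraicClosure ℚ),
      A.LiesOverPrime ℓ → ∀ σ : AbsGal, A.IsFrobeniusAt σ ℓ → ∃ a : O,
        LinearMap.charpoly (ρ.ρ σ) = X ^ 2 - C a * X + C (ℓ : O))
    {A : ValuationSubring (AlgebraicClosure ℚ)} (hA : A.LiesOverPrime q) {σ : AbsGal}
    (hσ : σ ∈ A.inertiaSubgroupIn ℚ) : LinearMap.det (ρ.ρ σ) = 1 := by
  classical
  have hpp : p.Prime := Fact.out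
  refine sub_eq_zero.1 ?_
  have h : LinearMap.det (ρ.ρ σ) - 1 ∈ ⨅ n : ℕ, maximalIdeal O ^ n := by
    refine Submodule.mem_iInf _ |>.2 fun n => ?_
    obtain ⟨L₁, hL₁, hLn⟩ := ρ.isAdicContinuous n
    obtain ⟨L₂, hL₂, hroots⟩ := ConductorLevel.exists_level_roots (p ^ n) (pow_ne_zero _ hpp.ne_zero)
    obtain ⟨ℓ, hℓ, hℓS, B, hB, s, hs, i, hi⟩ :=
      GaloisReps.frobeniusDensity (L₁ ⊔ L₂) inferInstance σ S
    obtain ⟨a, ha⟩ := hρ ℓ hℓ hℓS B hB s hs
    have hℓn : ¬ ℓ ∣ p ^ n := fun h =>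
      hℓS ((Nat.prime_dvd_prime_iff_eq hℓ hpp).1 (hℓ.dvd_of_dvd_pow h) ▸ hpS)
    have hqn : ¬ q ∣ p ^ n := fun h => hqp ((Nat.prime_dvd_prime_iff_eq hq hpp).1 (hq.dvd_of_dvd_pow h))
    obtain ⟨ζ, hζ⟩ := (inferInstance : HasEnoughRootsOfUnity (AlgebraicClosure ℚ) (p ^ n)).prim
    have hroot : ((p ^ n : ℕ) : ℤ) ∣ ((ℓ ^ i : ℕ) : ℤ) - (1 : ℕ) := by
      have : NeZero (p ^ n) := ⟨pow_ne_zero _ hpp.ne_zero⟩
      refine ConductorLevel.dvd_sub_of_roots fun μ hμ => ?_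
      rw [pow_one, ← GaloisReps.pow_apply_root (Arith.frobenius_root hB hℓ hs hμ hℓn) i,
        ← hi μ ((le_sup_right : L₂ ≤ L₁ ⊔ L₂) (hroots μ hμ)),
        Arith.inertia_root hA hq hσ hμ hqn]
    have hfix := GaloisReps.inv_mul_fixes (g := s ^ i) (h := σ) fun x hx => (hi x hx).symm
    set u := (s ^ i)⁻¹ * σ
    have hu : ∀ v, ρ.ρ u v - v ∈ maximalIdeal O ^ n • (⊤ : Submodule O ρ.V) :=
      hLn u fun x hx => hfix x ((le_sup_left : L₁ ≤ L₁ ⊔ L₂) hx)
    have hdu : LinearMap.det (ρ.ρ u) - 1 ∈ maximalIdeal O ^ n := by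
      let b := Module.finBasisOfFinrankEq O ρ.V ρ.finrank_eq
      let π := Ideal.Quotient.mk (maximalIdeal O ^ n)
      rw [← LinearMap.det_toMatrix b, ← Ideal.Quotient.eq_zero_iff_mem, map_sub, map_one,
        RingHom.map_det, sub_eq_zero]
      have e : π.mapMatrix (LinearMap.toMatrix b b (ρ.ρ u)) = 1 := by
        ext r c
        have h' : b.repr (ρ.ρ u (b c) - b c) r ∈ maximalIdeal O ^ n := by
          refine Submodule.smul_induction_on (p := fun x => b.repr x r ∈ maximalIdeal O ^ n)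
            (hu (b c)) (fun x hx y _ => ?_) fun x y hx hy => ?_
          · rw [map_smul, Finsupp.smul_apply, smul_eq_mul]; exact Ideal.mul_mem_right _ _ hx
          · rw [map_add, Finsupp.add_apply]; exact add_mem hx hy
        rw [RingHom.mapMatrix_apply, Matrix.map_apply, LinearMap.toMatrix_apply]
        have h1 := Ideal.Quotient.eq_zero_iff_mem.2 h'
        rw [map_sub, Finsupp.sub_apply, map_sub, sub_eq_zero] at h1
        rw [h1, b.repr_self, Finsupp.single_apply, Matrix.one_apply]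
        simp [eq_comm]
      rw [e, Matrix.det_one]
    have hds : LinearMap.det (ρ.ρ (s ^ i)) - 1 ∈ maximalIdeal O ^ n := by
      rw [map_pow, map_pow, (ConductorLevel.trace_det_of_charpoly ρ.finrank_eq ha).2]
      obtain ⟨c, hc⟩ := hroot
      have hc' := congrArg (Int.cast (R := O)) hc
      push_cast at hc'
      rw [hc']
      exact Ideal.mul_mem_right _ _ (Ideal.pow_mem_pow hp n)
    rw [show σ = s ^ i * u from (mul_inv_cancel_left _ _).symm, map_mul, map_mul]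
    have e : LinearMap.det (ρ.ρ (s ^ i)) * LinearMap.det (ρ.ρ u) - 1 =
        LinearMap.det (ρ.ρ (s ^ i)) * (LinearMap.det (ρ.ρ u) - 1) +
          (LinearMap.det (ρ.ρ (s ^ i)) - 1) := by ring
    rw [e]
    exact add_mem (Ideal.mul_mem_left _ _ hdu) hds
  rwa [Ideal.iInf_pow_eq_bot_of_isDomain _ (maximalIdeal.isMaximal O).ne_top,
    Submodule.mem_bot] at h

end Fermat.Agent.RT.Lift
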