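import Fermat.Agent.RT.Lift.Assembly
import Fermat.Agent.GaloisReps.Results
import Fermat.Agent.GaloisReps.OfInjective
import Fermat.Agent.EichlerShimura.InjectiveProof
import Fermat.Agent.Carayol.Consumer
import Fermat.Agent.Carayol.Geometric
import Fermat.Agent.NewformLocal.Toric.Assembly

/-!
# The lifting statement from lowering and raising
-/

set_option autoImplicit false

noncomputable section

open WeierstrassCurve

namespace Fermat.Agent.RT.Lift

/-- The models of the Hecke–Galois modules of `J₀(N)` exist. -/
theorem nonempty_models_all (N p : ℕ) [NeZero N] [Fact p.Prime] :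
    Nonempty (GaloisReps.HeckeGaloisModel N p) :=
  GaloisReps.nonempty_models (fun N p _ _ =>
    GaloisReps.congruenceProperty_all EichlerShimura.injectiveOnTorsion_all N p) N p

/-- The proposition of milestone statement 36 holds. -/
theorem newformCarayol : ConductorLevel.NewformCarayolInput :=
  fun hg lam _ S O' _ _ _ _ _ _ hlamO' hlam2 chig hchig iota hlamS hMS _ =>
    Carayol.exists_rep_not_unipotent
      (GaloisReps.congruenceProperty_all EichlerShimura.injectiveOnTorsion_all)
      (fun _ _ _ _ hq hqM => Carayol.fixedNewTorsionBound hq hqM)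
      hg lam S O' hlamO' hlam2 chig hchig iota hlamS hMS

/-- The proposition of milestone statement 35 holds. -/
theorem newformRep : ConductorLevel.NewformRepInput :=
  fun hg lam _ S O' _ _ _ _ _ _ hlamO' chig hchig iota hlamS hMS =>
    NewformLocal.Toric.exists_rep_of_quartic
      (fun N p _ _ => ⟨GaloisReps.modelOfCongruence
          (GaloisReps.congruenceProperty_all EichlerShimura.injectiveOnTorsion_all N p),
        fun _ hq hqp _ hq2 => NewformLocal.Toric.quarticAt_modelOfCongruence _ hq hqp hq2⟩)
      hg lam S O' hlamO' chig hchig iota hlamS hMS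

/-- **The statement of milestone 59**, from lowering at a squared prime, lowering at `q ≠ p`
(shape of milestone 38) and raising. -/
theorem exact_of_remaining
    (hsq : LowerSqInput) (h38 : LowerQInput) (hraise : RaiseInput)
    (p : ℕ) (hp : p = 3 ∨ p = 5) (W : WeierstrassCurve ℤ) (hΔ : W.Δ ≠ 0)
    (hW : W.IsSemistableModel) (hirr : W.ModRepIsIrreducible p) (M₀ : ℕ) [NeZero M₀]
    (hres₀ : W.IsResiduallyModularOfLevel p M₀) (hM₀ : ¬ p ^ 2 ∣ M₀)
    (hM₀3 : ∀ q : ℕ, q.Prime → q ≠ p → ¬ q ^ 3 ∣ M₀) :
    Mlc1IsModularModelOfExactConductorLevel W :=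
  exact_of_inputs nonempty_models_all newformRep newformCarayol hsq h38 hraise p hp W hΔ hW hirr M₀ hres₀ hM₀
    hM₀3

end Fermat.Agent.RT.Lift
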