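import Fermat.Agent.RT.Lift.LowerSqAux
import Fermat.Agent.RT.Lift.LowerSq.Main
import Fermat.Agent.RT.Lift.Main

/-!
# Lowering at a squared prime, in the form of the assembly input
-/

set_option autoImplicit false

namespace Fermat.Agent.RT.Lift

/-- The squared-prime input of the assembly holds. -/
theorem lowerSqInput : LowerSqInput :=
  lowerSqInput_of nonempty_models_all newformRep LowerSq.lowerSq

end Fermat.Agent.RT.Lift
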