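import Fermat.Agent.RT.Lift.Raise
import Fermat.Agent.RT.Lift.Lower.Full
import Fermat.Agent.RT.Lift.LowerSqFinal

/-!
# The statement of milestone 59 from the flip at `p`
-/

set_option autoImplicit false

noncomputable section

open WeierstrassCurve

namespace Fermat.Agent.RT.Lift

/-- Milestone 59 from the flip at `p`. -/
theorem exact_of_flip (hflip : FlipCaseInput) (p : ℕ) (hp : p = 3 ∨ p = 5)
    (W : WeierstrassCurve ℤ) (hΔ : W.Δ ≠ 0) (hW : W.IsSemistableModel)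
    (hirr : W.ModRepIsIrreducible p) (M₀ : ℕ) [NeZero M₀]
    (hres₀ : W.IsResiduallyModularOfLevel p M₀) (hM₀ : ¬ p ^ 2 ∣ M₀)
    (hM₀3 : ∀ q : ℕ, q.Prime → q ≠ p → ¬ q ^ 3 ∣ M₀) :
    Mlc1IsModularModelOfExactConductorLevel W :=
  exact_of_remaining lowerSqInput Lower.lowerQInput (raiseInput_of_flip hflip) p hp W hΔ hW hirr M₀
    hres₀ hM₀ hM₀3

end Fermat.Agent.RT.Lift
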