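import Fermat.Agent.LevelRaising.Lattice.Kernel
import Fermat.Agent.RT.Lift.Degeneracy

/-!
# The lemma of Ihara for the degeneracy maps at the base level

For coefficients in a local domain `O` of characteristic zero with residue field of odd
characteristic `p` and an auxiliary prime `ℓ`, `t = T_ℓ - 1 - ℓ`: if `degMap (φ₁, φ₂)` reduces to
zero then so do `t ^ 4 φᵢ`, and `(t ^ 2 φ₁, t ^ 2 φ₂)` is a value of `degStar` modulo the maximal
ideal.
-/

set_option autoImplicit false

noncomputable section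

namespace Fermat.Agent.RT.Lift

open CongruenceSubgroup Matrix.SpecialLinearGroup
open Fermat.Agent.RT.GammaH
open Fermat.Agent.LevelRaising
open Fermat.Agent.Periods (HeckeSystem systemT homT homT_comp)
open ModularCurve.Period
open IsLocalRing (residue ResidueField)
open scoped MatrixGroups Matrix

section Field

variable {q N p ℓ : ℕ} [NeZero N] [NeZero (N * q)]

omit [NeZero (N * q)] in
/-- The lemma of Ihara for a pair: two parabolic homomorphisms with `res w₁ + conj w₂ = 0` are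
killed by the cube of `T_ℓ - 1 - ℓ`. -/
theorem tOp_cube_eq_zero (h : RaiseData q N) (a : AuxPrime q N ℓ) (hp : p.Prime) (hp2 : p ≠ 2)
    {F : Type*} [Field F] [CharP F p] {w₁ w₂ : Additive (Gamma0 N) →+ F}
    (hw₁ : IsParabolicHom (Gamma0 N) w₁) (hw₂ : IsParabolicHom (Gamma0 N) w₂)
    (h0 : (RaiseData.resSys q N).apply w₁ + h.conjSys.apply w₂ = 0) :
    tOp a.prime a.not_dvd_left F (tOp a.prime a.not_dvd_left F (tOp a.prime a.not_dvd_left F w₁))
        = 0 ∧
      tOp a.prime a.not_dvd_left F (tOp a.prime a.not_dvd_left F (tOp a.prime a.not_dvd_left F w₂))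
        = 0 := by
  have : NeZero ℓ := ⟨a.prime.ne_zero⟩
  have hA : ∀ x : F, p • x = 0 := fun x => by rw [nsmul_eq_mul, CharP.cast_eq_zero, zero_mul]
  obtain ⟨ψ₁, hψ₁, hper₁⟩ := exists_cuspFun (Gamma0 N) w₁ hw₁
  obtain ⟨ψ₂, hψ₂, hper₂⟩ := exists_cuspFun (Gamma0 N) w₂ hw₂
  have hαdet : (alphaMat q).det ≠ 0 := by simp [h.det_alphaMat, h.prime.ne_zero]
  set φ : (Fin 2 → ℚ) → F := fun x => ψ₁ x + ψ₂ (actM (alphaMat q) x) with hφ
  have hφc : IsCuspFun φ := fun d x hd hx => by
    simp only [hφ, actM_smul, hψ₁ d x hd hx, hψ₂ d _ hd (actM_ne_zero hαdet hx)]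
  have hφp : HasPeriods (N * q) φ 0 := by
    intro γ x hx
    obtain ⟨g, hg⟩ := exists_res_lift γ
    obtain ⟨g', hg'⟩ := h.exists_conj_lift γ
    have e0 := congrArg (fun X : Additive (Gamma0 (N * q)) →+ F => X (Additive.ofMul γ)) h0
    simp only [AddMonoidHom.add_apply, AddMonoidHom.zero_apply,
      LevelRaising.res_apply w₁ γ hg, h.conj_apply w₂ γ hg'] at e0
    have e1 : actM (alphaMat q) (act (γ : SL(2, ℤ)) x) =
        act (g' : SL(2, ℤ)) (actM (alphaMat q) x) := by
      rw [← actM_eq_act, ← actM_mul, hg', actM_mul, actM_eq_act]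
    simp only [hφ, e1, hper₂ g' _ (actM_ne_zero hαdet hx), AddMonoidHom.zero_apply, add_zero]
    rw [← hg, hper₁ g x hx]
    linear_combination e0
  obtain ⟨c0, hc0⟩ := exists_tFun_alpha (ψ := ψ₂) hper₂ a.prime a.not_dvd_right
  set u₁ := tFun ℓ ψ₁ with hu₁
  set u₂ := tFun ℓ ψ₂ with hu₂
  have hfe : ∀ x, x ≠ 0 → u₁ x = (-1 : ℤ) • u₂ (!![(q : ℚ), 0; 0, 1] *ᵥ x) + -c0 := by
    intro x hx
    have z := tFun_eq_zero_of_invariant a.prime a.dvd_sub' hφc hφp hx
    rw [hφ, tFun_add, hc0 x hx, actM_alphaMat] at z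
    rw [neg_smul, one_smul, hu₁, hu₂]
    linear_combination z
  have hp₁ : HasPeriods N u₁ (tOp a.prime a.not_dvd_left F w₁) :=
    HasPeriods.tFun hper₁ a.prime a.not_dvd_left
  have hp₂ : HasPeriods N u₂ (tOp a.prime a.not_dvd_left F w₂) :=
    HasPeriods.tFun hper₂ a.prime a.not_dvd_left
  have hU := upr_inv_mem_quasiGroup h.prime.ne_zero u₁ u₂ (-1) _ hfe
    (HasPeriods.intSL_upr ⟨_, hp₂⟩)
  have z1 : ∀ x, x ≠ 0 → tFun ℓ (tFun ℓ u₁) x = 0 := fun x hx =>
    tFun_tFun_eq_zero h.prime h.not_dvd hp hp2 hA a.prime a.not_dvd_left a.dvd_sub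
      (hψ₁.tFun ℓ) hp₁ hU hx
  obtain ⟨c1, hc1⟩ := exists_tFun_alpha hp₂ a.prime a.not_dvd_right
  obtain ⟨c2, hc2⟩ := exists_tFun_alpha (hp₂.tFun a.prime a.not_dvd_left) a.prime a.not_dvd_right
  have z2 : ∀ x, x ≠ 0 → tFun ℓ (tFun ℓ u₂) (actM (alphaMat q) x) = -c2 := by
    intro x hx
    have e1 : ∀ y, y ≠ 0 → tFun ℓ u₁ y =
        (-1 : ℤ) • tFun ℓ u₂ (actM (alphaMat q) y) + (-1 : ℤ) • c1 := fun y hy => by
      rw [tFun_congr ℓ (φ := fun z => (-1 : ℤ) • u₂ (actM (alphaMat q) z) + -c0)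
        (fun z hz => by rw [hfe z hz, actM_alphaMat]) hy, tFun_add, tFun_const, tFun_zsmul,
        hc1 y hy, add_zero, smul_add]
    have e2 := z1 x hx
    rw [tFun_congr ℓ e1 hx, tFun_add, tFun_const, tFun_zsmul, hc2 x hx, add_zero] at e2
    rw [neg_smul, one_smul, neg_eq_zero] at e2
    exact eq_neg_of_add_eq_zero_left e2
  have z2' : ∀ y, y ≠ 0 → tFun ℓ (tFun ℓ u₂) y = -c2 := fun y hy => by
    have hq : (q : ℚ) ≠ 0 := Nat.cast_ne_zero.mpr h.prime.ne_zero
    have e : actM (alphaMat q) ![y 0 / q, y 1] = y := by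
      rw [actM_alphaMat]; ext i
      fin_cases i <;> simp [Matrix.mulVec, dotProduct, Fin.sum_univ_two, mul_div_cancel₀ _ hq]
    rw [← e]
    refine z2 _ fun h0 => hy ?_
    rw [← e, h0]; simp [actM]
  exact ⟨HasPeriods.eq_zero ((hp₁.tFun a.prime a.not_dvd_left).tFun a.prime a.not_dvd_left) 0 z1,
    HasPeriods.eq_zero ((hp₂.tFun a.prime a.not_dvd_left).tFun a.prime a.not_dvd_left) _ z2'⟩

end Field

/-! ### Comparison of the operators on `Γ₀` -/

section Bridge

variable {A : Type*} [AddCommGroup A] (R : Type*) [Semiring R] [Module R A]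

/-- Homomorphisms on equal groups. -/
def homEquiv {Γ' Γ : Subgroup SL(2, ℤ)} (e : Γ' = Γ) :
    (Additive Γ →+ A) ≃ₗ[R] (Additive Γ' →+ A) :=
  LinearEquiv.ofLinearMap (GammaH.res R e.le) (GammaH.res R e.ge)
    (LinearMap.ext fun _ => AddMonoidHom.ext fun _ => rfl)
    (LinearMap.ext fun _ => AddMonoidHom.ext fun _ => rfl)

theorem gammaH_lift_top {N q : ℕ} :
    gammaH (N * q) (liftSub q (⊤ : Subgroup (ZMod N)ˣ)) = Gamma0 (N * q) := by
  rw [liftSub_top, gammaH_top]

/-- `Hom(Γ₀(L), A)` as homomorphisms on `gammaH L ⊤`. -/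
def toTop (L : ℕ) : (Additive (Gamma0 L) →+ A) ≃ₗ[R]
    (Additive (gammaH L (⊤ : Subgroup (ZMod L)ˣ)) →+ A) :=
  homEquiv R gammaH_top

/-- `Hom(Γ₀(N q), A)` as homomorphisms on the pull back of `gammaH N ⊤`. -/
def toLift (q N : ℕ) : (Additive (Gamma0 (N * q)) →+ A) ≃ₗ[R]
    (Additive (gammaH (N * q) (liftSub q (⊤ : Subgroup (ZMod N)ˣ))) →+ A) :=
  homEquiv R gammaH_lift_top

theorem opOf_homEquiv {L L' : ℕ} {Γ' Γ : Subgroup SL(2, ℤ)} (e₁ : Γ' = Gamma0 L)
    (e₂ : Γ = Gamma0 L') {ι κ : Type} [Fintype ι] [Fintype κ]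
    (S : HeckeSystem (Gamma0 L) (Gamma0 L') ι) {rep : κ → GLR}
    (h : Admissible Γ' Γ rep) (e : ι ≃ κ)
    (he : ∀ i, S.rep i * (rep (e i))⁻¹ ∈ img (Gamma0 L)) (φ : Additive (Gamma0 L) →+ A) :
    opOf h R (homEquiv R e₁ φ) = homEquiv R e₂ (S.apply φ) := by
  show opOf h R (GammaH.res R e₁.le φ) = GammaH.res R e₂.le (S.op R φ)
  rw [res_eq_opOf, res_eq_opOf, ← opOf_heckeSystem (R := R) S, opOf_comp, opOf_comp]
  refine LinearMap.congr_fun (opOf_congr _ _
    ((Equiv.prodComm Unit κ).trans (e.symm.prodCongr (Equiv.refl Unit))) fun p => ?_) φ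
  obtain ⟨⟨⟩, k⟩ := p
  simp only [Equiv.trans_apply, Equiv.prodComm_apply, Equiv.prodCongr_apply, Prod.map,
    Equiv.refl_apply, Prod.swap, one_mul, mul_one]
  have := inv_mem (he (e.symm k))
  simpa using this

theorem isIntMat_intGL {B : Matrix (Fin 2) (Fin 2) ℤ} (hB : B.det ≠ 0) :
    IsIntMat (intGL B) B := intGL_val hB

variable {N q : ℕ} (h : RaiseData q N)

theorem resDeg_toTop (φ : Additive (Gamma0 N) →+ A) :
    resDeg R q ⊤ (toTop R N φ) = toLift R q N ((RaiseData.resSys q N).apply φ) :=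
  opOf_homEquiv R gammaH_top gammaH_lift_top (RaiseData.resSys q N) _ (Equiv.refl Unit) (fun _ => by
    simp [RaiseData.resSys, unitSystem, mkSystem]) φ

theorem conjDeg_toTop (φ : Additive (Gamma0 N) →+ A) :
    conjDeg h R ⊤ (toTop R N φ) = toLift R q N (h.conjSys.apply φ) :=
  opOf_homEquiv R gammaH_top gammaH_lift_top h.conjSys _ (Equiv.refl Unit) (fun _ => by
    show intGL (alphaMat q) * (aRep q ())⁻¹ ∈ _
    rw [show intGL (alphaMat q) = aRep q () from
      (isIntMat_intGL (by simp [h.det_alphaMat, h.prime.ne_zero])).ext (isIntMat_aRep h),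
      mul_inv_cancel]
    exact one_mem _) φ

theorem corDeg_toTop (φ : Additive (Gamma0 (N * q)) →+ A) :
    corDeg h R ⊤ (toLift R q N φ) = toTop R N (h.corSys.apply φ) :=
  opOf_homEquiv R gammaH_lift_top gammaH_top h.corSys _ (Equiv.refl _) (fun i => by
    show intGL (corMat q N i) * (mapGL ℝ (cSL h i))⁻¹ ∈ _
    set c : SL(2, ℤ) := ⟨corMat q N i, h.det_corMat i⟩
    rw [show intGL (corMat q N i) = mapGL ℝ c from (mapGL_eq_intGL c).symm, ← map_inv, ← map_mul]
    refine mapGL_mem_img.2 (Gamma0_mem.2 ((ZMod.intCast_zmod_eq_zero_iff_dvd _ _).2 ?_))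
    rw [lowerLeft_mul_inv]
    rcases i with _ | x
    · refine ⟨bezQ q N + bezN q N, ?_⟩
      simp [c, corMat, cSL]
      ring
    · simp [c, corMat, cSL]) φ

theorem starDeg_toTop (φ : Additive (Gamma0 (N * q)) →+ A) :
    starDeg h R ⊤ (toLift R q N φ) = toTop R N (h.starSys.apply φ) :=
  opOf_homEquiv R gammaH_lift_top gammaH_top h.starSys _ (Equiv.refl _) (fun i => by
    show intGL (starMat q N i) * (sRep h i)⁻¹ ∈ _
    have hd : (starMat q N i).det ≠ 0 := by simp [h.det_starMat, h.prime.ne_zero]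
    suffices IsIntMat (sRep h i) (starMat q N i) by
      rw [(isIntMat_intGL hd).ext this, mul_inv_cancel]
      exact one_mem _
    rcases i with _ | x
    · convert isIntMat_sRep_none h using 1
      ext a b
      fin_cases a <;> fin_cases b <;> simp [starMat, wMat, mul_comm]
    · exact isIntMat_sRep_some h x) φ

theorem hecke_toTop {L n : ℕ} [NeZero L] [Fact n.Prime] (hn : n.Prime) (hnL : ¬ n ∣ L)
    (φ : Additive (Gamma0 L) →+ A) :
    hecke L ⊤ n R (toTop R L φ) = toTop R L (homT hn hnL R φ) := by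
  have : NeZero n := ⟨hn.ne_zero⟩
  let f : ZMod n ≃ Fin n :=
    { toFun := fun x => ⟨x.val, ZMod.val_lt x⟩
      invFun := fun j => ((j : ℕ) : ZMod n)
      left_inv := fun x => by simp
      right_inv := fun j => Fin.ext (ZMod.val_cast_of_lt j.isLt) }
  refine opOf_homEquiv R gammaH_top gammaH_top (systemT hn hnL) admissible_hRep
    ((Equiv.optionCongr f).trans (Equiv.subtypeUnivEquiv fun _ _ => hnL).symm) (fun i => ?_) φ
  rcases i with _ | x
  · show ModularForm.heckeDiagMatrix n * (mapGL ℝ _ * ModularForm.heckeDiagMatrix n)⁻¹ ∈ _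
    rw [mul_inv_rev, mul_inv_cancel_left, ← map_inv]
    exact mapGL_mem_img.2 (inv_mem (gamma0Elt_mem _))
  · show ModularForm.heckeMatrix n _ * (ModularForm.heckeMatrix n _)⁻¹ ∈ _
    simp [f]

end Bridge

/-! ### The base level statements -/

section Lattice

variable {O : Type*} [CommRing O] [IsDomain O] [IsLocalRing O] [CharZero O] {p : ℕ}
  [CharP (ResidueField O) p] {q N ℓ : ℕ} [NeZero N] [NeZero (N * q)] [hℓ : Fact ℓ.Prime]

/-- `T_ℓ - 1 - ℓ` on `Hom(Γ₀(N), A)`, in the language of `gammaH`. -/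
def tTop (N ℓ : ℕ) [Fact ℓ.Prime] (R : Type*) [Semiring R] {A : Type*} [AddCommGroup A]
    [Module R A] : Module.End R (Additive (gammaH N (⊤ : Subgroup (ZMod N)ˣ)) →+ A) :=
  hecke N ⊤ ℓ R - (1 + ℓ) • (1 : Module.End R (Additive (gammaH N (⊤ : Subgroup (ZMod N)ˣ)) →+ A))

omit [NeZero (N * q)] in
theorem tTop_toTop {A : Type*} [AddCommGroup A] (R : Type*) [Semiring R] [Module R A]
    (a : AuxPrime q N ℓ) (φ : Additive (Gamma0 N) →+ A) :
    tTop N ℓ R (toTop R N φ) = toTop R N (tOp a.prime a.not_dvd_left R φ) := by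
  rw [tTop, tOp, LinearMap.sub_apply, LinearMap.sub_apply, map_sub,
    hecke_toTop R a.prime a.not_dvd_left]
  refine congrArg (_ - ·) ?_
  simp

omit [IsLocalRing O] [NeZero N] [NeZero (N * q)] hℓ in
theorem three_torsionFree_of_charZero (r : O) (hr : 3 * r = 0) : r = 0 :=
  (mul_eq_zero.1 hr).resolve_left (by exact_mod_cast (by omega : (3 : ℕ) ≠ 0))

/-- Reduction of the values. -/
def redVal {G : Type*} [AddMonoid G] (φ : G →+ O) : G →+ ResidueField O :=
  (residue O).toAddMonoidHom.comp φ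

omit [IsDomain O] [CharZero O] hℓ in
theorem redVal_crossHomR (L : ℕ) (u v : Fin 2 → ℚ) :
    redVal (crossHomR O (Gamma0 L) u v) = crossHomR (ResidueField O) (Gamma0 L) u v :=
  AddMonoidHom.ext fun x => by
    show residue O (crossHomR O (Gamma0 L) u v x) = _
    rw [crossHomR_apply, crossHomR_apply, map_intCast]

omit [IsDomain O] [CharZero O] [NeZero (N * q)] hℓ in
theorem redVal_tOp (a : AuxPrime q N ℓ) (φ : Additive (Gamma0 N) →+ O) :
    redVal (tOp a.prime a.not_dvd_left O φ) =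
      tOp a.prime a.not_dvd_left (ResidueField O) (redVal φ) :=
  (tOp_comp _ _ O (ResidueField O) _ φ).symm

omit [IsDomain O] [CharZero O] [NeZero N] [NeZero (N * q)] hℓ in
theorem redVal_homEquiv {Γ' Γ : Subgroup SL(2, ℤ)} (e : Γ' = Γ) (φ : Additive Γ →+ O) :
    redVal (homEquiv O e φ) = homEquiv (ResidueField O) e (redVal φ) := rfl

omit [IsDomain O] [CharZero O] [NeZero N] [NeZero (N * q)] hℓ in
theorem redVal_eq_zero_of_homEquiv {Γ' Γ : Subgroup SL(2, ℤ)} (e : Γ' = Γ) {φ : Additive Γ →+ O}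
    (h : redVal (homEquiv O e φ) = 0) : redVal φ = 0 :=
  (homEquiv (ResidueField O) e).map_eq_zero_iff.1 ((redVal_homEquiv e φ).symm.trans h)

omit [IsDomain O] [CharZero O] [NeZero N] [NeZero (N * q)] hℓ in
theorem redVal_homEquiv_eq_zero {Γ' Γ : Subgroup SL(2, ℤ)} (e : Γ' = Γ) {φ : Additive Γ →+ O}
    (h : redVal φ = 0) : redVal (homEquiv O e φ) = 0 := by
  rw [redVal_homEquiv, h, map_zero]

variable (h : RaiseData q N) (a : AuxPrime q N ℓ) (hp : p.Prime) (hp2 : p ≠ 2)
include a hp hp2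

/-- **Ihara's lemma**: on a pair reducing into the kernel of `degMap`, the fourth power of
`T_ℓ - 1 - ℓ` reduces to zero. -/
theorem injective_degMap_mod (e : ℕ)
    (φ : (Additive (gammaH N (⊤ : Subgroup (ZMod N)ˣ)) →+ O) ×
      (Additive (gammaH N (⊤ : Subgroup (ZMod N)ˣ)) →+ O))
    (h0 : redVal (degMap h O ⊤ e φ) = 0) :
    redVal ((tTop N ℓ O ^ 4) φ.1) = 0 ∧ redVal ((tTop N ℓ O ^ 4) φ.2) = 0 := by
  obtain ⟨φ₁, hφ₁⟩ := (toTop O N).surjective φ.1
  obtain ⟨φ₂, hφ₂⟩ := (toTop O N).surjective φ.2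
  set T := tOp (L := N) (A := O) a.prime a.not_dvd_left O with hT
  set F := ResidueField O
  set T' := tOp (L := N) (A := F) a.prime a.not_dvd_left F with hT'
  have : NeZero ℓ := ⟨a.prime.ne_zero⟩
  have hpar : ∀ φ : Additive (Gamma0 N) →+ O, IsParabolicHom (Gamma0 N) (T' (redVal φ)) := by
    intro φ γ hγ
    rw [hT', ← redVal_tOp a φ]
    show residue O (tOp a.prime a.not_dvd_left O φ (Additive.ofMul γ)) = 0
    rw [tOp_apply, AddMonoidHom.sub_apply, AddMonoidHom.smul_apply,
      homT_apply_parabolic a.prime a.not_dvd_left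
        ((Int.natCast_dvd_natCast.2 (dvd_mul_right N q)).trans a.dvd_sub') (fun n x hn hx => by
          rw [nsmul_eq_mul] at hx
          exact (mul_eq_zero.1 hx).resolve_left (Nat.cast_ne_zero.2 hn)) φ γ hγ,
      sub_self, map_zero]
  have hker : (RaiseData.resSys q N).apply (redVal φ₁) + h.conjSys.apply (redVal φ₂) = 0 := by
    have e1 : redVal ((RaiseData.resSys q N).apply φ₁ + h.conjSys.apply φ₂) = 0 := by
      rw [degMap_apply, ← hφ₁, ← hφ₂, diamond_top, resDeg_toTop, conjDeg_toTop, ← map_add] at h0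
      exact redVal_eq_zero_of_homEquiv gammaH_lift_top h0
    rw [← e1]
    unfold redVal
    rw [HeckeSystem.apply_comp, HeckeSystem.apply_comp]
    exact AddMonoidHom.ext fun x => (map_add (residue O) _ _).symm
  have hker' : (RaiseData.resSys q N).apply (T' (redVal φ₁)) +
      h.conjSys.apply (T' (redVal φ₂)) = 0 := by
    have hc : ∀ w : Additive (Gamma0 N) →+ F,
        tOp a.prime a.not_dvd F ((RaiseData.resSys q N).apply w) =
          (RaiseData.resSys q N).apply (T' w) ∧
        tOp a.prime a.not_dvd F (h.conjSys.apply w) = h.conjSys.apply (T' w) := fun w => by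
      constructor
      · show homT a.prime a.not_dvd F ((RaiseData.resSys q N).op F w) -
          (1 + ℓ) • (RaiseData.resSys q N).op F w =
            (RaiseData.resSys q N).op F (homT a.prime a.not_dvd_left F w - (1 + ℓ) • w)
        rw [map_sub, map_nsmul]
        exact congrArg (· - _) (homT_res F a.prime a.not_dvd_left a.not_dvd w)
      · show homT a.prime a.not_dvd F (h.conjSys.op F w) -
          (1 + ℓ) • h.conjSys.op F w =
            h.conjSys.op F (homT a.prime a.not_dvd_left F w - (1 + ℓ) • w)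
        rw [map_sub, map_nsmul]
        exact congrArg (· - _) (h.homT_conj F a.prime a.not_dvd_left a.not_dvd w)
    rw [← (hc _).1, ← (hc _).2, ← map_add, hker, map_zero]
  obtain ⟨z1, z2⟩ := tOp_cube_eq_zero h a hp hp2 (hpar φ₁) (hpar φ₂) hker'
  have key : ∀ φ : Additive (Gamma0 N) →+ O, T' (T' (T' (T' (redVal φ)))) = 0 →
      redVal ((tTop N ℓ O ^ 4) (toTop O N φ)) = 0 := by
    intro φ hφ
    rw [hT', ← redVal_tOp a, ← redVal_tOp a, ← redVal_tOp a, ← redVal_tOp a] at hφ
    simp only [pow_succ', pow_zero, mul_one, Module.End.mul_apply, tTop_toTop O a]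
    exact redVal_homEquiv_eq_zero gammaH_top hφ
  exact ⟨hφ₁ ▸ key φ₁ z1, hφ₂ ▸ key φ₂ z2⟩

omit [NeZero (N * q)] in
/-- The crossing homomorphisms show that the image of `degStar` contains every pair
`(t ^ 2 φ₁, t ^ 2 φ₂)` modulo the maximal ideal. -/
theorem surjective_degStar_mod (e : ℕ)
    (φ : (Additive (gammaH N (⊤ : Subgroup (ZMod N)ˣ)) →+ O) ×
      (Additive (gammaH N (⊤ : Subgroup (ZMod N)ˣ)) →+ O)) :
    ∃ x : Additive (gammaH (N * q) (liftSub q (⊤ : Subgroup (ZMod N)ˣ))) →+ O,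
      redVal ((degStar h O ⊤ e x).1 - (tTop N ℓ O ^ 2) φ.1) = 0 ∧
        redVal ((degStar h O ⊤ e x).2 - (tTop N ℓ O ^ 2) φ.2) = 0 := by
  have : NeZero ℓ := ⟨a.prime.ne_zero⟩
  have h2 : IsUnit (2 : O) := by
    rw [← IsLocalRing.residue_ne_zero_iff_isUnit]
    intro h2
    have hd : p ∣ 2 := (CharP.cast_eq_zero_iff (ResidueField O) p 2).1 (by
      rw [← map_natCast (residue O)]; exact_mod_cast h2)
    exact hp2 ((Nat.prime_dvd_prime_iff_eq hp Nat.prime_two).1 hd)
  set F := ResidueField O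
  set T := tOp (L := N) (A := O) a.prime a.not_dvd_left O with hT
  -- pairs in the reduced image lift
  have lift : ∀ z ∈ degImage q N F, ∃ x : Additive (Gamma0 (N * q)) →+ O,
      redVal (h.corSys.apply x) = z.1 ∧ redVal (h.starSys.apply x) = z.2 := by
    intro z hz
    induction hz using Submodule.span_induction with
    | mem z hz =>
      obtain ⟨u, v, -, -, rfl⟩ := hz
      exact ⟨crossHomR O (Gamma0 (N * q)) u v, by rw [h.cor_crossHomR, redVal_crossHomR],
        by rw [h.star_crossHomR, redVal_crossHomR]⟩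
    | zero =>
      refine ⟨0, ?_, ?_⟩
      · rw [show h.corSys.apply (0 : Additive (Gamma0 (N * q)) →+ O) = 0 from
          map_zero (h.corSys.op O)]
        exact AddMonoidHom.comp_zero _
      · rw [show h.starSys.apply (0 : Additive (Gamma0 (N * q)) →+ O) = 0 from
          map_zero (h.starSys.op O)]
        exact AddMonoidHom.comp_zero _
    | add z z' _ _ hz hz' =>
      obtain ⟨x, hx1, hx2⟩ := hz
      obtain ⟨x', hx1', hx2'⟩ := hz'
      refine ⟨x + x', ?_, ?_⟩
      · rw [show h.corSys.apply (x + x') = _ from map_add (h.corSys.op O) x x']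
        exact (AddMonoidHom.comp_add _ _ _).trans (congrArg₂ (· + ·) hx1 hx1')
      · rw [show h.starSys.apply (x + x') = _ from map_add (h.starSys.op O) x x']
        exact (AddMonoidHom.comp_add _ _ _).trans (congrArg₂ (· + ·) hx2 hx2')
    | smul c z _ hz =>
      obtain ⟨x, hx1, hx2⟩ := hz
      obtain ⟨c', rfl⟩ := IsLocalRing.residue_surjective c
      refine ⟨c' • x, ?_, ?_⟩
      · rw [show h.corSys.apply (c' • x) = _ from map_smul (h.corSys.op O) c' x]
        exact (AddMonoidHom.ext fun y => map_mul (residue O) _ _).trans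
          (congrArg (residue O c' • ·) hx1)
      · rw [show h.starSys.apply (c' • x) = _ from map_smul (h.starSys.op O) c' x]
        exact (AddMonoidHom.ext fun y => map_mul (residue O) _ _).trans
          (congrArg (residue O c' • ·) hx2)
  let W : Submodule O ((Additive (Gamma0 N) →+ O) × (Additive (Gamma0 N) →+ O)) :=
    { carrier := {z | ∃ x : Additive (Gamma0 (N * q)) →+ O,
        redVal (h.corSys.apply x) = redVal z.1 ∧ redVal (h.starSys.apply x) = redVal z.2}
      zero_mem' := ⟨0, by rw [show h.corSys.apply (0 : Additive (Gamma0 (N * q)) →+ O) = 0 from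
          map_zero (h.corSys.op O)]; rfl,
        by rw [show h.starSys.apply (0 : Additive (Gamma0 (N * q)) →+ O) = 0 from
          map_zero (h.starSys.op O)]; rfl⟩
      add_mem' := by
        rintro z z' ⟨x, h1, h2⟩ ⟨x', h1', h2'⟩
        refine ⟨x + x', ?_, ?_⟩
        · rw [show h.corSys.apply (x + x') = _ from map_add (h.corSys.op O) x x']
          exact (AddMonoidHom.comp_add _ _ _).trans
            ((congrArg₂ (· + ·) h1 h1').trans (AddMonoidHom.comp_add _ _ _).symm)
        · rw [show h.starSys.apply (x + x') = _ from map_add (h.starSys.op O) x x']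
          exact (AddMonoidHom.comp_add _ _ _).trans
            ((congrArg₂ (· + ·) h2 h2').trans (AddMonoidHom.comp_add _ _ _).symm)
      smul_mem' := by
        rintro c z ⟨x, h1, h2⟩
        refine ⟨c • x, ?_, ?_⟩
        · rw [show h.corSys.apply (c • x) = _ from map_smul (h.corSys.op O) c x]
          refine AddMonoidHom.ext fun y => ?_
          show residue O (c * h.corSys.apply x y) = residue O (c * z.1 y)
          rw [map_mul, map_mul]
          exact congrArg (_ * ·) (DFunLike.congr_fun h1 y)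
        · rw [show h.starSys.apply (c • x) = _ from map_smul (h.starSys.op O) c x]
          refine AddMonoidHom.ext fun y => ?_
          show residue O (c * h.starSys.apply x y) = residue O (c * z.2 y)
          rw [map_mul, map_mul]
          exact congrArg (_ * ·) (DFunLike.congr_fun h2 y) }
  have : Fintype (SL(2, ℤ) ⧸ Gamma0 N) := Subgroup.fintypeQuotientOfFiniteIndex
  have hspan := span_crossHomR_eq_top O (Fermat.Agent.Gamma0.neg_one_mem_Gamma0 N) h2
    three_torsionFree_of_charZero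
  have hW : ∀ ψ : Additive (Gamma0 N) →+ O, (T (T ψ), 0) ∈ W ∧ (0, T (T ψ)) ∈ W := by
    intro ψ
    have hψ := hspan.ge (Submodule.mem_top (x := ψ))
    induction hψ using Submodule.span_induction with
    | mem y hy =>
      obtain ⟨x, rfl⟩ := hy
      obtain ⟨m1, m2⟩ := h.tOp_tOp_mem_degImage (K := F) a hp hp2
        (u := act x.out⁻¹ cuspInf) (v := act x.out⁻¹ cuspZero) (act_ne_zero _ basisVec_ne_zero)
        (act_ne_zero _ fun h0 => by simpa [cuspZero] using congrFun h0 1)
      constructor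
      · obtain ⟨x, e1, e2⟩ := lift _ m1
        exact ⟨x, by rw [e1, hT, redVal_tOp a, redVal_tOp a, redVal_crossHomR],
          by rw [e2]; rfl⟩
      · obtain ⟨x, e1, e2⟩ := lift _ m2
        exact ⟨x, by rw [e1]; rfl,
          by rw [e2, hT, redVal_tOp a, redVal_tOp a, redVal_crossHomR]⟩
    | zero =>
      rw [map_zero, map_zero]
      exact ⟨W.zero_mem, W.zero_mem⟩
    | add y y' _ _ hy hy' =>
      exact ⟨by simpa using add_mem hy.1 hy'.1, by simpa using add_mem hy.2 hy'.2⟩
    | smul c y _ hy =>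
      exact ⟨by simpa using W.smul_mem c hy.1, by simpa using W.smul_mem c hy.2⟩
  obtain ⟨φ₁, hφ₁⟩ := (toTop O N).surjective φ.1
  obtain ⟨φ₂, hφ₂⟩ := (toTop O N).surjective φ.2
  obtain ⟨x, h1, h2⟩ : (T (T φ₁), T (T φ₂)) ∈ W := by
    simpa using add_mem (hW φ₁).1 (hW φ₂).2
  refine ⟨toLift O q N x, ?_, ?_⟩
  · rw [degStar_apply, ← hφ₁]
    simp only [corDeg_toTop, pow_two, Module.End.mul_apply, tTop_toTop O a, ← map_sub]
    refine AddMonoidHom.ext fun y => ?_
    show residue O (_ - _) = 0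
    rw [map_sub, sub_eq_zero]
    exact DFunLike.congr_fun h1 _
  · rw [degStar_apply, ← hφ₂]
    simp only [diamond_top, starDeg_toTop, pow_two, Module.End.mul_apply, tTop_toTop O a, ← map_sub]
    refine AddMonoidHom.ext fun y => ?_
    show residue O (_ - _) = 0
    rw [map_sub, sub_eq_zero]
    exact DFunLike.congr_fun h2 _

end Lattice

end Fermat.Agent.RT.Lift
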