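import Fermat.Agent.RT.Glue.Algebra
import Fermat.Agent.RT.Lift.Inputs
import Fermat.Agent.Newforms.LevelRaiseEigen

/-!
# From a system of Hecke eigenvalues to modularity

If every polynomial relation between the Hecke operators of the module of level
`conductorLevel * r` holds between the `a_ℓ` of the curve, the curve has the eigenvalues of an
eigenform of that level.
-/

set_option autoImplicit false

noncomputable section

namespace Fermat.Agent.RT.Lift

open IsLocalRing ModularFormClass CongruenceSubgroup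

variable {O : Type} [CommRing O] [IsDomain O] [IsDiscreteValuationRing O] {L : ℕ} {ψ : (ZMod L)ˣ →* Unit} {S : Finset ℕ}
  {abar : ℕ → ResidueField O}

/-- The operators indexed by the primes outside `S`, inside the Hecke algebra. -/
def heckeGen (H : HeckeModule L ψ S abar) (ℓ : {ℓ : ℕ // ℓ.Prime ∧ ℓ ∉ S}) : H.algebra :=
  ⟨H.T ℓ.1, Algebra.subset_adjoin (Or.inr ⟨ℓ.1, ℓ.2, rfl⟩)⟩

theorem dia_eq_one (H : HeckeModule L ψ S abar) (u : Unit) (h) :
    (⟨H.dia u, h⟩ : H.algebra) = 1 :=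
  Subtype.ext (show H.dia u = 1 by cases u; exact map_one H.dia)

theorem aeval_heckeGen_surjective (H : HeckeModule L ψ S abar) :
    Function.Surjective (MvPolynomial.aeval (R := O) (heckeGen H)) := by
  rintro ⟨h, hh⟩
  suffices ∃ P : MvPolynomial _ O, (MvPolynomial.aeval (heckeGen H) P : Module.End O H.M) = h by
    obtain ⟨P, hP⟩ := this
    exact ⟨P, Subtype.ext hP⟩
  induction hh using Algebra.adjoin_induction with
  | mem h hh =>
    rcases hh with ⟨u, rfl⟩ | ⟨ℓ, hℓ, rfl⟩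
    · exact ⟨1, by cases u; rw [map_one, show H.dia () = 1 from map_one H.dia]; rfl⟩
    · exact ⟨MvPolynomial.X ⟨ℓ, hℓ⟩, by rw [MvPolynomial.aeval_X]; rfl⟩
  | algebraMap c => exact ⟨MvPolynomial.C c, by rw [MvPolynomial.aeval_C]; rfl⟩
  | add g h _ _ hg hh =>
    obtain ⟨P, rfl⟩ := hg
    obtain ⟨Q, rfl⟩ := hh
    exact ⟨P + Q, by rw [map_add]; rfl⟩
  | mul g h _ _ hg hh =>
    obtain ⟨P, rfl⟩ := hg
    obtain ⟨Q, rfl⟩ := hh
    exact ⟨P * Q, by rw [map_mul]; rfl⟩

/-- **The relations between the Hecke operators holding between the `a_ℓ`, the curve is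
modular**: the level is the conductor level times a squarefree number prime to it. -/
theorem isModularAwayFromFinite_of_relations_squarefree {W : WeierstrassCurve ℤ} {p R : ℕ}
    [Fact p.Prime] (hΔ : W.Δ ≠ 0) (hR : Squarefree R) (hcop : R.Coprime W.conductorLevel)
    {ψ : (ZMod (W.conductorLevel * R))ˣ →* Unit}
    (H : HeckeModule (W.conductorLevel * R) ψ S abar) (σ : O →+* ℂ)
    (hrel : ∀ P : MvPolynomial {ℓ : ℕ // ℓ.Prime ∧ ℓ ∉ S} O,
      MvPolynomial.aeval (heckeGen H) P = 0 →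
        MvPolynomial.aeval (fun ℓ => (W.apOfModel ℓ.1 : O)) P = 0) :
    IsModularAwayFromFinite W p := by
  classical
  let π : MvPolynomial {ℓ : ℕ // ℓ.Prime ∧ ℓ ∉ S} O →+* H.algebra :=
    (MvPolynomial.aeval (heckeGen H)).toRingHom
  let θ : H.algebra →+* ℂ := RingHom.liftOfSurjective π (aeval_heckeGen_surjective H)
    ⟨σ.comp (MvPolynomial.aeval (fun ℓ => (W.apOfModel ℓ.1 : O))).toRingHom, fun P hP => by
      rw [RingHom.mem_ker, RingHom.comp_apply]
      exact (congrArg σ (hrel P hP)).trans σ.map_zero⟩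
  have hθ : ∀ ℓ : {ℓ : ℕ // ℓ.Prime ∧ ℓ ∉ S}, θ (heckeGen H ℓ) = (W.apOfModel ℓ.1 : ℂ) :=
    fun ℓ => by
      have h : π (MvPolynomial.X ℓ) = heckeGen H ℓ := MvPolynomial.aeval_X _ _
      rw [← h]
      refine (RingHom.liftOfRightInverse_comp_apply _ _ _ _ _).trans ?_
      simp
  have hdia : ∀ (u : Unit) (h), θ ⟨H.dia u, h⟩ = 1 := fun u h => by
    rw [dia_eq_one, map_one]
  have hL : Squarefree (W.conductorLevel * R) :=
    (Nat.squarefree_mul hcop.symm).2 ⟨W.squarefree_conductorLevel, hR⟩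
  have : NeZero (W.conductorLevel * R) := ⟨hL.ne_zero⟩
  obtain ⟨L', g, hg, hL', hcoef, hsq, -, -⟩ := H.eigen θ
  have hdvd : L' ∣ W.conductorLevel * R := by
    have hsf : Squarefree L' := Nat.squarefree_iff_prime_squarefree.2 fun v hv hvv => by
      have hvL : v ∣ W.conductorLevel * R :=
        hv.dvd_of_dvd_pow (((dvd_mul_left v v).trans hvv).trans hL')
      obtain ⟨u, -, hu⟩ := (hsq v hv hvL).1 (by rwa [sq])
      exact hu (hdia _ _)
    rw [← Nat.prod_primeFactors_of_squarefree hsf, ← Nat.prod_primeFactors_of_squarefree hL]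
    exact Finset.prod_dvd_prod_of_subset _ _ _
      ((Nat.primeFactors_mono hL' (pow_ne_zero 2 hL.ne_zero)).trans
        (Nat.primeFactors_pow _ two_ne_zero).le)
  obtain ⟨f, hf, hfg⟩ := Newforms.exists_eigenform_of_dvd hdvd hg.1
  refine ⟨W.conductorLevel * R, Nat.pos_of_ne_zero hL.ne_zero, fun q hq h => ?_, fun h => ?_,
    fun ℓ hℓ hd => ?_, f, hf, S ∪ (W.conductorLevel * R).primeFactors,
    fun ℓ hℓ hℓT => ?_⟩
  · exact hq.not_isUnit (hL q ((sq q).symm.dvd.trans
      ((pow_dvd_pow q (by norm_num : 2 ≤ 3)).trans h)))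
  · exact (Fact.out : p.Prime).not_isUnit (hL p ((sq p).symm.dvd.trans h))
  · exact dvd_mul_of_dvd_left ((W.prime_dvd_conductorLevel_iff hΔ hℓ).2 hd) R
  rw [Finset.mem_union, not_or] at hℓT
  have hℓN : ¬ ℓ ∣ W.conductorLevel * R := fun h =>
    hℓT.2 (Nat.mem_primeFactors.2 ⟨hℓ, h, hL.ne_zero⟩)
  rw [hfg ℓ hℓ (Or.inr hℓN), hcoef ℓ hℓ hℓT.1
    (ZMod.unitOfCoprime ℓ (hℓ.coprime_iff_not_dvd.2 hℓN)) (ZMod.coe_unitOfCoprime _ _),
    map_mul, map_pow, hdia, one_pow, one_mul]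
  exact hθ ⟨ℓ, hℓ, hℓT.1⟩

end Fermat.Agent.RT.Lift
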