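import Fermat.Agent.RT.Lift.Germ.Data
import Fermat.Agent.RT.Lift.Germ.Step
import Fermat.Agent.RT.Lift.System

/-!
# From levels of the patching argument to relations between eigenvalues

Finite levels at every subset of places, with degeneracy matrices, marked points and a reduction
to the Hecke module of the top level: the chain of flips puts every point of every component in
the support of the limit, and the limit of the marked points then gives the relations between the
eigenvalues.
-/

set_option autoImplicit false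

noncomputable section

namespace Fermat.Agent.RT.Lift

open MvPowerSeries IsLocalRing
open Fermat.Agent.RT.Assembly (levelIdeal levelIdeal_le)

variable {O : Type} [CommRing O] [IsDomain O] [IsDiscreteValuationRing O]
  [IsAdicComplete (maximalIdeal O) O] [Finite (ResidueField O)]
  {p t : ℕ} (hp : (p : O) ∈ maximalIdeal O) {U : Ultrafilter ℕ}
  (hU : ∀ j, ∀ᶠ n in (U : Filter ℕ), j ≤ n) {σ σ' : Type} [Finite σ] [Finite σ']

section Chain

variable {V : Type} (C : ChainData (MvPowerSeries σ O) (DiaSeries O t) V) (D : Finset V → ℕ)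
  (act : ∀ B n, MvPowerSeries σ O →ₐ[O] Matrix (Fin (D B)) (Fin (D B)) (LevelQuot O t p n))

/-- The finite level hypotheses of the chain. -/
structure ChainLevels : Prop where
  pos : 0 < D ∅
  quad : ∀ B, HasQuad (act B)
  rel : ∀ B n, ∀ f ∈ C.rel, act B n f = 0
  nSet : ∀ B, ∀ v ∉ B, ∀ f ∈ C.nSet v, ∀ n, act B n f = 0
  y_mul_nSet : ∀ B, ∀ v ∈ B, ∀ a ∈ C.nSet v, ∀ n, act B n (C.y v * (C.y' v * a)) = 0
  deg : ∀ (B : Finset V) (v : V) (h : v ∉ B),
    ∃ k, Nonempty (DegData (act B) (act (Finset.cons v B h)) (C.c v) (C.T v) k)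

variable {C D act}

/-- Every point of every component lies over the annihilator of the limit. -/
theorem limitAnn_le_of_chain (h : ChainLevels C D act) (B : Finset V) :
    ∀ P ∈ C.points B, limitAnn (act B) U hp hU ≤ P :=
  annihilator_le_of_chain (A := fun B => limitAnn (act B) U hp hU)
    { base := exists_prime_limitAnn hp hU (act ∅) h.pos (h.quad ∅)
      rel_le := fun B f hf => mem_limitAnn_of_forall hp hU (act B) fun n => h.rel B n f hf
      nSet_le := fun B v hv f hf => mem_limitAnn_of_forall hp hU (act B) (h.nSet B v hv f hf)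
      y_mul_nSet := fun B v hv a ha =>
        mem_limitAnn_of_forall hp hU (act B) (h.y_mul_nSet B v hv a ha)
      flip := fun B v hv P hP hA hy => by
        have := hP
        obtain ⟨k, ⟨G⟩⟩ := h.deg B v hv
        exact exists_prime_flip_limit hp hU G (h.quad B) (h.quad _) hA hy } B

end Chain

section Over

variable {D : ℕ} (incl : MvPowerSeries σ O →ₐ[O] MvPowerSeries σ' O)
  (act' : ∀ n, MvPowerSeries σ' O →ₐ[O] Matrix (Fin D) (Fin D) (LevelQuot O t p n))

omit [Finite σ] [Finite σ'] in
theorem limitAct_comp (f : MvPowerSeries σ O) :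
    limitAct (fun n => (act' n).comp incl) U hp hU f = limitAct act' U hp hU (incl f) :=
  (limitAct_spec hp hU (fun n => (act' n).comp incl) f).unique hp hU
    (limitAct_spec hp hU act' (incl f))

omit [Finite σ'] in
/-- A prime over the annihilator of the limit lifts along a change of coordinates, the limit
being finite over the smaller coordinates. -/
theorem exists_prime_over (hquad : HasQuad fun n => (act' n).comp incl)
    {P : Ideal (MvPowerSeries σ O)} [P.IsPrime]
    (hP : limitAnn (fun n => (act' n).comp incl) U hp hU ≤ P) :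
    ∃ P' : Ideal (MvPowerSeries σ' O), P'.IsPrime ∧ P'.comap incl.toRingHom = P ∧
      limitAnn act' U hp hU ≤ P' := by
  classical
  let act : ∀ n, MvPowerSeries σ O →ₐ[O] Matrix (Fin D) (Fin D) (LevelQuot O t p n) :=
    fun n => (act' n).comp incl
  let _ := limitModule hp hU act
  have := finite_limit hp hU act hquad
  let J := limitAnn act' U hp hU
  let f : MvPowerSeries σ O →+* MvPowerSeries σ' O ⧸ J :=
    (Ideal.Quotient.mk J).comp incl.toRingHom
  have hint : f.IsIntegral := fun b => by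
    obtain ⟨x, rfl⟩ := Ideal.Quotient.mk_surjective b
    let g : Module.End (MvPowerSeries σ O) (Fin D → DiaSeries O t) :=
      { toFun := fun v => (limitAct act' U hp hU x).mulVec v
        map_add' := fun v w => Matrix.mulVec_add _ v w
        map_smul' := fun a v => by
          simp only [RingHom.id_apply, limitModule_smul, Matrix.mulVec_mulVec]
          rw [show limitAct act U hp hU a = limitAct act' U hp hU (incl a) from
            limitAct_comp hp hU incl act' a, ← map_mul, ← map_mul, mul_comm] }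
    obtain ⟨Q, hQ, hQ0⟩ := LinearMap.exists_monic_and_aeval_eq_zero (MvPowerSeries σ O) g
    refine ⟨Q, hQ, ?_⟩
    rw [← Polynomial.hom_eval₂, Ideal.Quotient.eq_zero_iff_mem]
    show _ ∈ limitAnn act' U hp hU
    rw [limitAnn, RingHom.mem_ker]
    refine (Matrix.toLinAlgEquiv' (R := DiaSeries O t) (n := Fin D)).injective
      (LinearMap.ext fun v => ?_)
    rw [map_zero, LinearMap.zero_apply, Matrix.toLinAlgEquiv'_apply,
      ← show Polynomial.aeval g Q v = 0 by rw [hQ0]; rfl]
    clear hQ hQ0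
    induction Q using Polynomial.induction_on' generalizing v with
    | add P R hP hR => simp only [map_add, Polynomial.eval₂_add, Matrix.add_mulVec,
        LinearMap.add_apply, hP, hR]
    | monomial i a =>
      rw [Polynomial.eval₂_monomial, Polynomial.aeval_monomial, map_mul, map_pow,
        AlgHom.toRingHom_eq_coe, RingHom.coe_coe,
        Module.End.mul_apply, Module.algebraMap_end_apply, limitModule_smul,
        ← limitAct_comp hp hU incl act' a, ← Matrix.mulVec_mulVec]
      refine congrArg _ ?_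
      clear a
      induction i generalizing v with
      | zero => simp
      | succ i ih =>
        rw [pow_succ, pow_succ, ← Matrix.mulVec_mulVec, Module.End.mul_apply, ih]
        rfl
  let _ := f.toAlgebra
  have : Algebra.IsIntegral (MvPowerSeries σ O) (MvPowerSeries σ' O ⧸ J) := ⟨hint⟩
  obtain ⟨Q, -, hQ, hQP⟩ := Ideal.exists_ideal_over_prime_of_isIntegral P
    (show Ideal (MvPowerSeries σ' O ⧸ J) from ⊥) fun a ha => hP <| by
      have h0 : f a = 0 := ha
      have h : incl a ∈ J := Ideal.Quotient.eq_zero_iff_mem.mp h0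
      show limitAct (fun n => (act' n).comp incl) U hp hU a = 0
      rw [limitAct_comp]
      exact h
  refine ⟨Q.comap (Ideal.Quotient.mk J), Ideal.IsPrime.comap _, ?_, fun a ha => ?_⟩
  · rw [Ideal.comap_comap]
    exact hQP
  · rw [Ideal.mem_comap, Ideal.Quotient.eq_zero_iff_mem.mpr ha]
    exact Q.zero_mem

end Over

section Last

variable {V : Type} (C : ChainData (MvPowerSeries σ O) (DiaSeries O t) V) (D : Finset V → ℕ)
  (incl : MvPowerSeries σ O →ₐ[O] MvPowerSeries σ' O) {E : ℕ}

/-- **The chain followed by the flip at `p`.** The modules of the chain are pulled back along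
`incl`; the old module of the last flip is the top one of the chain. -/
theorem limitAnn_le_of_chain_last [Fintype V]
    (act' : ∀ B n, MvPowerSeries σ' O →ₐ[O] Matrix (Fin (D B)) (Fin (D B)) (LevelQuot O t p n))
    (h : ChainLevels C D fun B n => (act' B n).comp incl)
    (top : ∀ n, MvPowerSeries σ' O →ₐ[O] Matrix (Fin E) (Fin E) (LevelQuot O t p n))
    (hquad' : HasQuad (act' Finset.univ)) (hquad : HasQuad top)
    {c T : MvPowerSeries σ' O} {k : ℕ} (G : DegData (act' Finset.univ) top c T k)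
    {w w' : MvPowerSeries σ O} (hw : incl w * incl w' = T ^ 2 - c ^ 2)
    {rel : Set (MvPowerSeries σ' O)} (hrel : ∀ n, ∀ f ∈ rel, top n f = 0)
    (hyN : ∀ v, ∀ a ∈ C.nSet v, ∀ n, top n (incl (C.y v * (C.y' v * a))) = 0)
    {P : Ideal (MvPowerSeries σ O)} (hP : P ∈ C.points Finset.univ) (hwP : w ∈ P) (hw'P : w' ∉ P)
    (hgen : ∀ v, ∃ a ∈ C.nSet v, C.y' v * a ∉ P) {Pz : Ideal (MvPowerSeries σ' O)}
    (hrec : ∀ 𝔮 : Ideal (MvPowerSeries σ' O), 𝔮.IsPrime →
      ringKrullDim (MvPowerSeries σ' O ⧸ 𝔮) = ringKrullDim (DiaSeries O t) → rel ⊆ 𝔮 →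
      (∀ v, incl (C.y v) ∈ 𝔮) → incl w ∈ 𝔮 → 𝔮 ≤ Pz) :
    limitAnn top U hp hU ≤ Pz := by
  have := C.isPrime _ P hP
  obtain ⟨P', hP', hcomap, hA⟩ := exists_prime_over hp hU incl (act' Finset.univ)
    (h.quad Finset.univ) (limitAnn_le_of_chain hp hU h Finset.univ P hP)
  have hmem : ∀ a, incl a ∈ P' ↔ a ∈ P := fun a => by
    rw [← hcomap]; rfl
  refine annihilator_le_of_last (A := limitAnn (act' Finset.univ) U hp hU)
    (A' := limitAnn top U hp hU) (rel := rel) (nSet := fun v => incl '' C.nSet v)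
    (y := fun v => incl (C.y v)) (y' := fun v => incl (C.y' v))
    (fun Q hQ hle hy => by
      have := hQ
      exact exists_prime_flip_limit hp hU G hquad' hquad hle hy)
    hw (fun f hf => mem_limitAnn_of_forall hp hU top fun n => hrel n f hf) ?_
    hA ((hmem w).mpr hwP) (fun h => hw'P ((hmem w').mp h)) (fun v => ?_) hrec
  · rintro v _ ⟨a, ha, rfl⟩
    rw [← map_mul, ← map_mul]
    exact mem_limitAnn_of_forall hp hU top (hyN v a ha)
  · obtain ⟨a, ha, haP⟩ := hgen v
    exact ⟨incl a, ⟨a, ha, rfl⟩, by rw [← map_mul]; exact fun h => haP ((hmem _).mp h)⟩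

end Last

section Point

open Fermat.Agent.RT.Germ

variable {K : Type*} [NontriviallyNormedField K] [IsUltrametricDist K] [CompleteSpace K]
  {φ : O →+* ball1 K} {V : Type} [Finite V] {κ : V → Type} [∀ v, Finite (κ v)] {ρ : Type}
  [Finite ρ]

omit [IsAdicComplete (maximalIdeal O) O] [Finite (ResidueField O)] in
/-- A point with values in `O` satisfying the relations of a component is one of its points. -/
theorem ker_comp_mem_compPoints (hφ : ∀ a ∈ maximalIdeal O, ‖(φ a : K)‖ < 1)
    (hφinj : Function.Injective φ) (P : ∀ v, PlaceData φ (κ v)) (B : Finset V)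
    (z : MvPowerSeries (LCoord κ ρ) O →+* O) (hC : ∀ a, z (C a) = a)
    (hz : ∀ v, ∀ g ∈ (compAt P B v).rels, z (placeHom v g) = 0) :
    RingHom.ker z ∈ compPoints ρ P B := by
  have hX : ∀ i, z (X i) ∈ maximalIdeal O := fun i => by
    refine (IsLocalRing.mem_maximalIdeal _).mpr fun hu => ?_
    obtain ⟨u, hu⟩ := hu
    have h0 : z (X i - MvPowerSeries.C (u : O)) = 0 := by rw [map_sub, hC, hu, sub_self]
    have h1 : IsUnit (X i - MvPowerSeries.C (u : O) : MvPowerSeries (LCoord κ ρ) O) :=
      MvPowerSeries.isUnit_iff_constantCoeff.mpr (by simp)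
    exact not_isUnit_zero (h0 ▸ h1.map z)
  let x : LCoord κ ρ → ball1 K := fun i => φ (z (X i))
  have hx : ∀ i, ‖(x i : K)‖ < 1 := fun i => hφ _ (hX i)
  have hev : φ.comp z = ev φ x hx :=
    eq_ev φ x hx (fun a => by rw [RingHom.comp_apply, hC]) fun i => rfl
  refine ⟨x, hx, fun v g hg => ?_, ?_⟩
  · rw [← ev_placeHom x hx, ← hev, RingHom.comp_apply, hz v g hg, map_zero]
  · rw [← hev]
    ext a
    simp [RingHom.mem_ker, (injective_iff_map_eq_zero' φ).mp hφinj]

omit [IsAdicComplete (maximalIdeal O) O] [Finite (ResidueField O)] [Finite σ] in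
/-- The limit of points killing a series kills it. -/
theorem limit_point_eq_zero {ψ : ℕ → MvPowerSeries σ O →ₐ[O] O} {ψ₀ : MvPowerSeries σ O →+* O}
    (hψ₀ : ∀ (x : ℕ → MvPowerSeries σ O) (x₀ : MvPowerSeries σ O),
      (∀ k, ∀ᶠ n in (U : Filter ℕ), x n - x₀ ∈ maximalIdeal (MvPowerSeries σ O) ^ k) →
      ∀ k, ∀ᶠ n in (U : Filter ℕ), ψ n (x n) - ψ₀ x₀ ∈ maximalIdeal O ^ k)
    {f : MvPowerSeries σ O} (hf : ∀ n, ψ n f = 0) : ψ₀ f = 0 := by
  refine IsHausdorff.haus' (I := maximalIdeal O) _ fun k => ?_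
  obtain ⟨n, hn⟩ := (hψ₀ (fun _ => f) f
    (fun k => Filter.Eventually.of_forall fun n => by simp) k).exists
  rw [SModEq.zero, smul_eq_mul, Ideal.mul_top]
  simpa [hf] using neg_mem hn

end Point

section Relations

variable (O p) in
/-- The augmentation of a level quotient. -/
def augLevel (t n : ℕ) : LevelQuot O t p n →ₐ[O] O :=
  AlgHom.mk' (Ideal.Quotient.lift _ (constantCoeff : DiaSeries O t →+* O) fun f hf => by
    have hle : levelIdeal (ι := Fin t) O p n ≤ RingHom.ker (constantCoeff : DiaSeries O t →+* O) :=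
      Ideal.span_le.mpr (by rintro _ ⟨i, rfl⟩; simp)
    exact hle hf) fun a x => by
    obtain ⟨x, rfl⟩ := Ideal.Quotient.mk_surjective x
    rw [Algebra.smul_def, show algebraMap O (LevelQuot O t p n) a =
      Ideal.Quotient.mk _ (C a : DiaSeries O t) from rfl, ← map_mul]
    simp

omit [IsDomain O] [IsDiscreteValuationRing O] [IsAdicComplete (maximalIdeal O) O]
  [Finite (ResidueField O)] in
theorem mem_map_span_of_augLevel_eq_zero {n : ℕ} {x : LevelQuot O t p n}
    (hx : augLevel O p t n x = 0) :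
    x ∈ (Ideal.span (Set.range (X : Fin t → DiaSeries O t))).map (toLevel (p := p) n) := by
  obtain ⟨f, rfl⟩ := Ideal.Quotient.mk_surjective x
  have h := Patching.sub_C_mem_span_range_X f
  rw [show constantCoeff f = 0 from hx, map_zero, sub_zero] at h
  exact Ideal.mem_map_of_mem _ h

variable {L : ℕ} {ψL : (ZMod L)ˣ →* Unit} {S : Finset ℕ} {abar : ℕ → ResidueField O}

/-- **The relations between the eigenvalues from the levels, eventual form**: a relation between
the operators of `H` holds, for `U`-almost all `n`, between the reductions of `top n (f ℓ n)`. -/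
theorem relations_of_levels' {E : ℕ} (H : HeckeModule L ψL S abar)
    (top : ∀ n, MvPowerSeries σ' O →ₐ[O] Matrix (Fin E) (Fin E) (LevelQuot O t p n))
    (quadSol : ℕ → Fin t → MvPowerSeries σ' O)
    (hquad : ∀ n i, Matrix.scalar (Fin E)
        ((1 + toLevel (O := O) (r := t) (p := p) n (X i)) ^ 2 + 1) =
      Matrix.scalar (Fin E) (1 + toLevel (O := O) (r := t) (p := p) n (X i)) *
        top n (quadSol n i))
    (ψ : ℕ → MvPowerSeries σ' O →ₐ[O] O) (hψq : ∀ n i, ψ n (quadSol n i) = 2)
    (a : {ℓ : ℕ // ℓ.Prime ∧ ℓ ∉ S} → O)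
    (f : {ℓ : ℕ // ℓ.Prime ∧ ℓ ∉ S} → ℕ → MvPowerSeries σ' O)
    (hψf : ∀ ℓ, ∀ᶠ n in (U : Filter ℕ), ψ n (f ℓ n) = a ℓ)
    (hred : ∀ P : MvPolynomial {ℓ : ℕ // ℓ.Prime ∧ ℓ ∉ S} O,
      MvPolynomial.aeval (heckeGen H) P = 0 → ∀ᶠ n in (U : Filter ℕ),
        (augLevel O p t n).mapMatrix (top n (MvPolynomial.aeval (fun ℓ => f ℓ n) P)) = 0)
    (hsupp : ∀ ψ₀ : MvPowerSeries σ' O →+* O, (∀ c, ψ₀ (C c) = c) →
      (∀ g, (∀ n, ψ n g = 0) → ψ₀ g = 0) → limitAnn top U hp hU ≤ RingHom.ker ψ₀) :
    ∀ P : MvPolynomial {ℓ : ℕ // ℓ.Prime ∧ ℓ ∉ S} O,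
      MvPolynomial.aeval (heckeGen H) P = 0 → MvPolynomial.aeval a P = 0 := by
  classical
  intro P hP
  obtain ⟨ψ₀, hC, hψ₀⟩ := exists_limit_point (U := U) ψ
  refine apply_limit_point_eq_zero' hp hU top quadSol hquad ψ hψq ψ₀ hψ₀
    (hsupp ψ₀ hC fun g hg => limit_point_eq_zero hψ₀ hg)
    (fun n => MvPolynomial.aeval (fun ℓ => f ℓ n) P) ((hred P hP).mono fun n hn i j => ?_)
    (((Filter.eventually_all_finset (I := P.vars) (p := fun ℓ n => ψ n (f ℓ n) = a ℓ)).2
      fun ℓ _ => hψf ℓ).mono fun n hn => ?_)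
  · exact mem_map_span_of_augLevel_eq_zero (congrFun (congrFun hn i) j)
  · refine (MvPolynomial.comp_aeval_apply _ (ψ n) P).trans ?_
    exact MvPolynomial.eval₂Hom_congr' rfl (fun ℓ hℓ _ => hn ℓ hℓ) rfl

end Relations

end Fermat.Agent.RT.Lift
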