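import Fermat.Agent.RT.GammaH.Local
import Fermat.Agent.RT.Lift.Ihara

/-!
# Ihara's lemma on the localised modules

`lowerOp` lets the operators of level `M q` act at level `M`; the degeneracy maps are equivariant
for it. For a non-Eisenstein residual system and an element `e` cutting out its localisation at
both levels, `degH` is injective and `degStarH` surjective modulo the maximal ideal on the
localised modules of `Γ₀(M)` and `Γ₀(M q)`.
-/

set_option autoImplicit false

noncomputable section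

namespace Fermat.Agent.RT.Lift

open IsLocalRing MvPolynomial
open Fermat.Agent.RT.GammaH
open Fermat.Agent.LevelRaising (RaiseData AuxPrime)

variable {O : Type} [CommRing O] {M q : ℕ} {S : Finset ℕ} {K : Subgroup (ZMod M)ˣ}

variable (O M q S) in
/-- The operators of level `M q` as operators of level `M`. -/
def lowerOp : OpRing O (M * q) S →ₐ[O] OpRing O M S :=
  rename (Sum.map (ZMod.unitsMap (dvd_mul_right M q)) id)

theorem lowerOp_surjective [NeZero (M * q)] : Function.Surjective (lowerOp O M q S) :=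
  rename_surjective _ (Sum.map_surjective.2
    ⟨ZMod.unitsMap_surjective (dvd_mul_right M q), Function.surjective_id⟩)

section Residual

variable [IsLocalRing O] {abar : ℕ → ResidueField O}

theorem opRes_lowerOp (a : OpRing O (M * q) S) :
    opRes S abar M (lowerOp O M q S a) = opRes S abar (M * q) a := by
  have : (opRes S abar M).comp (lowerOp O M q S) = opRes S abar (M * q) :=
    MvPolynomial.algHom_ext fun i => by rcases i with u | ℓ <;> simp [lowerOp, opRes]
  exact DFunLike.congr_fun this a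

theorem lowerOp_mem_resIdeal {a : OpRing O (M * q) S} :
    lowerOp O M q S a ∈ resIdeal S abar M ↔ a ∈ resIdeal S abar (M * q) := by
  rw [mem_resIdeal, mem_resIdeal, opRes_lowerOp]

variable [IsDomain O] [IsDiscreteValuationRing O] [IsAdicComplete (maximalIdeal O) O]

set_option linter.overlappingInstances false in
variable (S abar K) in
/-- One element cuts out the localisations at both levels. -/
theorem exists_isLocalizer_pair [NeZero M] [NeZero (M * q)] :
    ∃ e : OpRing O (M * q) S,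
      IsLocalizer (resIdeal S abar (M * q)) (HomMod O S (liftSub q K) O) e ∧
        IsLocalizer (resIdeal S abar M) (HomMod O S K O) (lowerOp O M q S e) := by
  let H := HomMod O S (liftSub q K) O
  let H₀ := HomMod O S K O
  let : Module (OpRing O (M * q) S) H₀ := Module.compHom _ (lowerOp O M q S).toRingHom
  have : IsScalarTower O (OpRing O (M * q) S) H₀ := ⟨fun c a x => by
    show lowerOp O M q S (c • a) • x = c • (lowerOp O M q S a • x)
    rw [map_smul, smul_assoc]⟩
  obtain ⟨e, he⟩ := exists_isLocalizer (O := O) (resIdeal S abar (M * q)) (H × H₀)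
  have heH : IsLocalizer (resIdeal S abar (M * q)) H e :=
    he.of_injective (LinearMap.inl _ H H₀) LinearMap.inl_injective
  have he₀ : IsLocalizer (resIdeal S abar (M * q)) H₀ e :=
    he.of_injective (LinearMap.inr _ H H₀) LinearMap.inr_injective
  refine ⟨e, heH, ⟨?_, fun x => he₀.idem x, fun t ht => ?_⟩⟩
  · rw [← map_one (lowerOp O M q S), ← map_sub, lowerOp_mem_resIdeal]
    exact he₀.sub_one_mem
  · obtain ⟨t, rfl⟩ := lowerOp_surjective (M := M) (q := q) t
    obtain ⟨t', ht'⟩ := he₀.invert t fun hc => ht (lowerOp_mem_resIdeal.2 hc)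
    refine ⟨lowerOp O M q S t', fun x => ?_⟩
    rw [← map_mul, ← map_mul]
    exact ht' x

end Residual

variable {A : Type} [AddCommGroup A] [Module O A] (h : RaiseData q M)

variable (O S) in
/-- `degMap` on the modules over the operators. -/
def degH (K : Subgroup (ZMod M)ˣ) (e : ℕ) :
    HomMod O S K A × HomMod O S K A →ₗ[O] HomMod O S (liftSub q K) A :=
  degMap h O K e

variable (O S) in
/-- `degStar` on the modules over the operators. -/
def degStarH (K : Subgroup (ZMod M)ˣ) (e : ℕ) :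
    HomMod O S (liftSub q K) A →ₗ[O] HomMod O S K A × HomMod O S K A :=
  degStar h O K e

theorem degH_smul (hq : q ∈ S) (k : ℕ) (a : OpRing O (M * q) S)
    (φ : HomMod O S K A × HomMod O S K A) :
    degH O S h K k (lowerOp O M q S a • φ) = a • degH O S h K k φ := by
  induction a using MvPolynomial.induction_on generalizing φ with
  | C c => rw [lowerOp, rename_C, ← algebraMap_eq, ← algebraMap_eq, algebraMap_smul,
      algebraMap_smul, map_smul]
  | add a b ha hb => rw [map_add, add_smul, map_add, ha, hb, add_smul]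
  | mul_X a i ih =>
    rw [map_mul, mul_smul, ih, mul_smul]
    congr 1
    rcases i with u | ℓ
    · simp only [lowerOp, rename_X, Sum.map_inl]
      rw [X_inl_smul, show (X (Sum.inl (ZMod.unitsMap (dvd_mul_right M q) u)) : OpRing O M S) • φ =
        (diamond M K O (ZMod.unitsMap (dvd_mul_right M q) u) φ.1,
          diamond M K O (ZMod.unitsMap (dvd_mul_right M q) u) φ.2) from
            Prod.ext (X_inl_smul _ φ.1) (X_inl_smul _ φ.2)]
      exact (diamond_degMap h O u k φ).symm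
    · have : Fact ℓ.1.Prime := ⟨ℓ.2.1⟩
      simp only [lowerOp, rename_X, Sum.map_inr, id]
      rw [X_inr_smul, show (X (Sum.inr ℓ) : OpRing O M S) • φ =
        (hecke M K ℓ.1 O φ.1, hecke M K ℓ.1 O φ.2) from
            Prod.ext (X_inr_smul _ φ.1) (X_inr_smul _ φ.2)]
      exact (hecke_degMap h O (n := ℓ.1) (fun hc => ℓ.2.2 (hc ▸ hq)) k φ).symm

theorem degStarH_smul (hq : q ∈ S) (k : ℕ) (a : OpRing O (M * q) S)
    (x : HomMod O S (liftSub q K) A) :
    degStarH O S h K k (a • x) = lowerOp O M q S a • degStarH O S h K k x := by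
  induction a using MvPolynomial.induction_on generalizing x with
  | C c => rw [lowerOp, rename_C, ← algebraMap_eq, ← algebraMap_eq, algebraMap_smul,
      algebraMap_smul, map_smul]
  | add a b ha hb => rw [map_add, add_smul, map_add, ha, hb, add_smul]
  | mul_X a i ih =>
    rw [map_mul, mul_smul, ih, mul_smul]
    congr 1
    rcases i with u | ℓ
    · simp only [lowerOp, rename_X, Sum.map_inl]
      rw [X_inl_smul]
      exact (degStar_diamond h O u k x).trans
        (Prod.ext (X_inl_smul _ _).symm (X_inl_smul _ _).symm)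
    · have : Fact ℓ.1.Prime := ⟨ℓ.2.1⟩
      simp only [lowerOp, rename_X, Sum.map_inr, id]
      rw [X_inr_smul]
      exact (degStar_hecke h O (n := ℓ.1) (fun hc => ℓ.2.2 (hc ▸ hq)) k x).trans
        (Prod.ext (X_inr_smul _ _).symm (X_inr_smul _ _).symm)

theorem degH_mem_localPart (hq : q ∈ S) (k : ℕ) {e : OpRing O (M * q) S}
    {φ : HomMod O S K A × HomMod O S K A}
    (h1 : φ.1 ∈ localPart O (lowerOp O M q S e) (HomMod O S K A))
    (h2 : φ.2 ∈ localPart O (lowerOp O M q S e) (HomMod O S K A)) :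
    degH O S h K k φ ∈ localPart O e (HomMod O S (liftSub q K) A) := by
  rw [mem_localPart, ← degH_smul h hq]
  exact congrArg _ (Prod.ext h1 h2)

theorem degStarH_mem_localPart (hq : q ∈ S) (k : ℕ) {e : OpRing O (M * q) S}
    {x : HomMod O S (liftSub q K) A} (hx : x ∈ localPart O e (HomMod O S (liftSub q K) A)) :
    (degStarH O S h K k x).1 ∈ localPart O (lowerOp O M q S e) (HomMod O S K A) ∧
      (degStarH O S h K k x).2 ∈ localPart O (lowerOp O M q S e) (HomMod O S K A) := by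
  have h0 : lowerOp O M q S e • degStarH O S h K k x = degStarH O S h K k x := by
    rw [← degStarH_smul h hq, hx]
  exact ⟨congrArg Prod.fst h0, congrArg Prod.snd h0⟩

section Base

variable [IsDomain O] [IsDiscreteValuationRing O] [CharZero O] {abar : ℕ → ResidueField O}
  {p : ℕ} [CharP (ResidueField O) p] [NeZero M] [NeZero (M * q)] {ℓ : ℕ}
  (a : AuxPrime q M ℓ) (hp : p.Prime) (hp2 : p ≠ 2) (hℓS : ℓ ∉ S)
  (hℓ : abar ℓ ≠ 1 + (ℓ : ResidueField O)) {ϖ : O} (hϖ : Irreducible ϖ)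

variable (O S) in
/-- `T_ℓ - 1 - ℓ` in the ring of operators. -/
def tEl (M : ℕ) (hℓp : ℓ.Prime) (hℓS : ℓ ∉ S) : OpRing O M S :=
  X (Sum.inr ⟨ℓ, hℓp, hℓS⟩) - C ((1 : O) + (ℓ : O))

omit [IsDomain O] [IsDiscreteValuationRing O] [CharZero O] [NeZero M] [NeZero (M * q)] in
theorem tEl_pow_smul (j : ℕ) (φ : HomMod O S (⊤ : Subgroup (ZMod M)ˣ) O) :
    haveI : Fact ℓ.Prime := ⟨a.prime⟩
    tEl O S M a.prime hℓS ^ j • φ = toHomMod ((tTop M ℓ O ^ j) (toHomMod.symm φ)) := by
  have : Fact ℓ.Prime := ⟨a.prime⟩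
  induction j with
  | zero => simp
  | succ j ih =>
    rw [pow_succ', mul_smul, ih, pow_succ', Module.End.mul_apply, tEl, sub_smul, X_inr_smul,
      ← algebraMap_eq, algebraMap_smul]
    rw [tTop, LinearMap.sub_apply, map_sub]
    congr 1
    simp [add_smul, ← Nat.cast_smul_eq_nsmul O]

include hℓ in
omit [CharZero O] [NeZero M] [NeZero (M * q)] in
theorem tEl_pow_notMem (j : ℕ) : tEl O S M a.prime hℓS ^ j ∉ resIdeal S abar M := by
  refine fun hc => hℓ ?_
  have h0 := Ideal.IsPrime.mem_of_pow_mem (inferInstance : (resIdeal S abar M).IsMaximal).isPrime _ hc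
  rw [tEl, mem_resIdeal, map_sub, opRes_inr, ← algebraMap_eq, AlgHom.commutes,
    ResidueField.algebraMap_eq, map_add, map_one, map_natCast, sub_eq_zero] at h0
  exact h0

include hϖ in
omit [CharZero O] [NeZero (M * q)] in
theorem exists_eq_smul_of_redVal {L : ℕ} {K : Subgroup (ZMod L)ˣ} {φ : HomMod O S K O}
    (h0 : redVal (toHomMod.symm φ) = 0) : ∃ χ : HomMod O S K O, φ = ϖ • χ := by
  refine exists_eq_smul S hϖ fun γ => ?_
  have := DFunLike.congr_fun h0 γ
  rw [← Ideal.mem_span_singleton, ← hϖ.maximalIdeal_eq, ← residue_eq_zero_iff]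
  exact this

include a hp hp2 hℓS hℓ hϖ

/-- **Ihara's lemma, localised**: `degH` is injective modulo the maximal ideal on the local
parts. -/
theorem exists_eq_smul_of_degH {e : OpRing O (M * q) S}
    (he : IsLocalizer (resIdeal S abar M) (HomMod O S (⊤ : Subgroup (ZMod M)ˣ) O)
      (lowerOp O M q S e))
    (k : ℕ) {φ : HomMod O S (⊤ : Subgroup (ZMod M)ˣ) O × HomMod O S (⊤ : Subgroup (ZMod M)ˣ) O}
    (h1 : φ.1 ∈ localPart O (lowerOp O M q S e) (HomMod O S (⊤ : Subgroup (ZMod M)ˣ) O))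
    (h2 : φ.2 ∈ localPart O (lowerOp O M q S e) (HomMod O S (⊤ : Subgroup (ZMod M)ˣ) O))
    {y : HomMod O S (liftSub q (⊤ : Subgroup (ZMod M)ˣ)) O}
    (h0 : degH O S h ⊤ k φ = ϖ • y) :
    ∃ χ : HomMod O S (⊤ : Subgroup (ZMod M)ˣ) O × HomMod O S (⊤ : Subgroup (ZMod M)ˣ) O,
      χ.1 ∈ localPart O (lowerOp O M q S e) (HomMod O S (⊤ : Subgroup (ZMod M)ˣ) O) ∧
      χ.2 ∈ localPart O (lowerOp O M q S e) (HomMod O S (⊤ : Subgroup (ZMod M)ˣ) O) ∧
      φ = ϖ • χ := by
  have : Fact ℓ.Prime := ⟨a.prime⟩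
  set e' := lowerOp O M q S e
  have hred : redVal (degMap h O ⊤ k φ) = 0 := by
    refine AddMonoidHom.ext fun γ => ?_
    show residue O (degH O S h ⊤ k φ γ) = 0
    rw [h0]
    show residue O (ϖ * y γ) = 0
    rw [map_mul, (residue_eq_zero_iff ϖ).2 hϖ.not_isUnit, zero_mul]
  obtain ⟨r1, r2⟩ := injective_degMap_mod h a hp hp2 k φ hred
  obtain ⟨t', ht'⟩ := he.invert _ (tEl_pow_notMem a hℓS hℓ 4)
  have key : ∀ ψ : HomMod O S (⊤ : Subgroup (ZMod M)ˣ) O, e' • ψ = ψ →
      redVal ((tTop M ℓ O ^ 4) (toHomMod.symm ψ)) = 0 →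
      ∃ χ, χ ∈ localPart O e' (HomMod O S (⊤ : Subgroup (ZMod M)ˣ) O) ∧ ψ = ϖ • χ := by
    intro ψ hψ hr
    obtain ⟨χ, hχ⟩ := exists_eq_smul_of_redVal hϖ
      (φ := tEl O S M a.prime hℓS ^ 4 • ψ) (by rw [tEl_pow_smul a hℓS]; exact hr)
    refine ⟨t' • e' • χ, smul_mem_localPart _ (he.smul_self_mem χ), ?_⟩
    rw [smul_comm ϖ t', smul_comm ϖ e', ← hχ, smul_smul, smul_smul,
      show t' * e' * tEl O S M a.prime hℓS ^ 4 = tEl O S M a.prime hℓS ^ 4 * t' * e' by ring,
      ht', hψ]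
  obtain ⟨χ₁, m₁, e₁⟩ := key φ.1 h1 r1
  obtain ⟨χ₂, m₂, e₂⟩ := key φ.2 h2 r2
  exact ⟨(χ₁, χ₂), m₁, m₂, Prod.ext e₁ e₂⟩

omit [NeZero (M * q)] in
/-- **Ihara's lemma, localised**: `degStarH` is surjective modulo the maximal ideal on the local
parts. -/
theorem exists_degStarH_sub_eq_smul (hq : q ∈ S) {e : OpRing O (M * q) S}
    (heq : IsLocalizer (resIdeal S abar (M * q))
      (HomMod O S (liftSub q (⊤ : Subgroup (ZMod M)ˣ)) O) e)
    (he : IsLocalizer (resIdeal S abar M) (HomMod O S (⊤ : Subgroup (ZMod M)ˣ) O)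
      (lowerOp O M q S e))
    (k : ℕ) {w : HomMod O S (⊤ : Subgroup (ZMod M)ˣ) O × HomMod O S (⊤ : Subgroup (ZMod M)ˣ) O}
    (h1 : w.1 ∈ localPart O (lowerOp O M q S e) (HomMod O S (⊤ : Subgroup (ZMod M)ˣ) O))
    (h2 : w.2 ∈ localPart O (lowerOp O M q S e) (HomMod O S (⊤ : Subgroup (ZMod M)ˣ) O)) :
    ∃ x ∈ localPart O e (HomMod O S (liftSub q (⊤ : Subgroup (ZMod M)ˣ)) O),
      ∃ χ : HomMod O S (⊤ : Subgroup (ZMod M)ˣ) O × HomMod O S (⊤ : Subgroup (ZMod M)ˣ) O,
        χ.1 ∈ localPart O (lowerOp O M q S e) (HomMod O S (⊤ : Subgroup (ZMod M)ˣ) O) ∧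
        χ.2 ∈ localPart O (lowerOp O M q S e) (HomMod O S (⊤ : Subgroup (ZMod M)ˣ) O) ∧
        degStarH O S h ⊤ k x - w = ϖ • χ := by
  have : Fact ℓ.Prime := ⟨a.prime⟩
  set e' := lowerOp O M q S e
  obtain ⟨t', ht'⟩ := he.invert _ (tEl_pow_notMem a hℓS hℓ 2)
  obtain ⟨x, r1, r2⟩ := surjective_degStar_mod h a hp hp2 k
    (toHomMod.symm (t' • w.1), toHomMod.symm (t' • w.2))
  set z := degStarH O S h ⊤ k x
  have key : ∀ (u v : HomMod O S (⊤ : Subgroup (ZMod M)ˣ) O), e' • v = v →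
      redVal (toHomMod.symm u - (tTop M ℓ O ^ 2) (toHomMod.symm (t' • v))) = 0 →
      ∃ χ, χ ∈ localPart O e' (HomMod O S (⊤ : Subgroup (ZMod M)ˣ) O) ∧
        e' • u - v = ϖ • χ := by
    intro u v hv hr
    obtain ⟨χ, hχ⟩ := exists_eq_smul_of_redVal hϖ
      (φ := u - tEl O S M a.prime hℓS ^ 2 • (t' • v))
      (by rw [tEl_pow_smul a hℓS]; exact hr)
    refine ⟨e' • χ, he.smul_self_mem χ, ?_⟩
    rw [smul_comm ϖ e', ← hχ, smul_sub, smul_smul, smul_smul,
      show e' * tEl O S M a.prime hℓS ^ 2 * t' = tEl O S M a.prime hℓS ^ 2 * t' * e' by ring,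
      ht', hv]
  obtain ⟨χ₁, m₁, e₁⟩ := key z.1 w.1 h1 r1
  obtain ⟨χ₂, m₂, e₂⟩ := key z.2 w.2 h2 r2
  refine ⟨e • toHomMod x, heq.smul_self_mem _, (χ₁, χ₂), m₁, m₂, ?_⟩
  rw [degStarH_smul h hq]
  exact Prod.ext e₁ e₂

end Base

end Fermat.Agent.RT.Lift
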