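import Fermat.Agent.RT.Lift.Levels.FrameReduces
import Fermat.Agent.RT.Lift.Levels.ChainInst
import Fermat.Agent.RT.Lift.Levels.SettingExists
import Fermat.Agent.RT.Lift.Main
import Fermat.Agent.RT.Assembly.Coeff

/-!
# The raising statement

From the coefficient ring, the residual setting and a frame: modularity in both cases at `p`,
given the chain of levels and the flip at `p`.
-/

set_option autoImplicit false
set_option linter.style.haveILetI false
set_option linter.unusedSectionVars false
set_option synthInstance.maxHeartbeats 200000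

noncomputable section

namespace Fermat.Agent.RT.Lift

open IsLocalRing WeierstrassCurve
open Fermat.Agent.Deform Fermat.Agent.RT.Germ

/-- The chain of levels exists for every frame. -/
def ChainInput : Prop :=
  ∀ {O : Type} [CommRing O] [IsDomain O] [IsDiscreteValuationRing O]
    [IsAdicComplete (maximalIdeal O) O] [Finite (ResidueField O)] [CharZero O]
    {K : Type} [NontriviallyNormedField K] [IsUltrametricDist K] [CompleteSpace K]
    [IsAlgClosed K] {φ : O →+* ball1 K}
    {p : ℕ} [Fact p.Prime] [CharP (ResidueField O) p] {W : WeierstrassCurve ℤ} {M R : ℕ}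
    (F : Frame p W M R φ), W.Δ ≠ 0 → p ≠ 2 → F.HasChain

/-- Modularity from a frame when `p` divides the conductor level and not `M`. -/
def FlipCaseInput : Prop :=
  ∀ {O : Type} [CommRing O] [IsDomain O] [IsDiscreteValuationRing O]
    [IsAdicComplete (maximalIdeal O) O] [Finite (ResidueField O)] [CharZero O]
    {K : Type} [NontriviallyNormedField K] [IsUltrametricDist K] [CompleteSpace K]
    [IsAlgClosed K] {φ : O →+* ball1 K}
    {p : ℕ} [Fact p.Prime] [CharP (ResidueField O) p] {W : WeierstrassCurve ℤ} {M R : ℕ}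
    (_F : Frame p W M R φ), W.Δ ≠ 0 → p ≠ 2 → W.IsSemistableModel → Function.Injective φ →
      (∀ a ∈ maximalIdeal O, ‖(φ a : K)‖ < 1) → p ∣ W.conductorLevel → ¬ p ∣ M →
      IsModularAwayFromFinite W p

/-- **The raising statement**, from the chain of levels and the flip at `p`. -/
theorem raiseInput_of (hch : ChainInput) (hflip : FlipCaseInput) : RaiseInput := by
  intro p _ hp W hΔ hW hirr hcard hker M _ g hg 𝔪 hm hpm hcong hML hminq hminp r hr hrL
  have hp2 : p ≠ 2 := by rcases hp with rfl | rfl <;> norm_num
  obtain ⟨O, i1, i2, i3, i4, i5, i6, i7, hpO, -, hquad, φ, hφinj, hφ⟩ := Assembly.exists_coeff p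
  obtain ⟨R, ⟨X⟩⟩ := exists_raiseSetting (O := O) nonempty_models_all newformRep hp hΔ hW hirr
    hcard hker hg hm hpm hcong hML hminq hminp hr hrL hpO hquad
  obtain ⟨F⟩ := X.exists_frame hΔ hp2 hφinj hφ
  by_cases h : p ∣ W.conductorLevel ∧ ¬ p ∣ M
  · exact hflip F hΔ hp2 hW hφinj hφ h.1 h.2
  · exact F.isModularAwayFromFinite hΔ hp2 hφinj hφ (fun h1 => not_not.1 fun h2 => h ⟨h1, h2⟩)
      (hch F hΔ hp2) (F.reduces hp2)

/-- The chain of levels exists. -/
theorem chainInput : ChainInput := fun F _ hp2 hφinj hφ _ _ hdim Φ C =>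
  F.chainLevels hp2 hφinj hφ hdim Φ C

/-- **The raising statement**, from the flip at `p`. -/
theorem raiseInput_of_flip (hflip : FlipCaseInput) : RaiseInput :=
  raiseInput_of chainInput hflip

end Fermat.Agent.RT.Lift
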